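/-
S05 team: shared definitions (owner: helper5).
Abstract setting: a field `K`, a valuation subring `A` (multiplicative valuation `A.valuation`,
maximal ideal `A.nonunits`), and a ring endomorphism `σ` playing the role of an inertia element.
-/
import Mathlib
import Fermat.Statements.S05

set_option autoImplicit false

namespace Fermat.Agent.S05

open WeierstrassCurve

variable {K : Type*} [Field K]

/-- What we use about an element of the inertia group of `A`: it preserves `A` and acts trivially
modulo the maximal ideal. -/
structure InertiaLike (A : ValuationSubring K) (σ : K →+* K) : Prop where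
  mem_iff : ∀ x : K, σ x ∈ A ↔ x ∈ A
  sub_mem : ∀ x : K, x ∈ A → σ x - x ∈ A.nonunits

/-- The short Weierstrass curve `y² = x³ + α x² + β x`. -/
def shortCurve (α β : K) : WeierstrassCurve K := ⟨0, α, 0, β, 0⟩

@[simp] lemma shortCurve_a₁ (α β : K) : (shortCurve α β).a₁ = 0 := rfl
@[simp] lemma shortCurve_a₂ (α β : K) : (shortCurve α β).a₂ = α := rfl
@[simp] lemma shortCurve_a₃ (α β : K) : (shortCurve α β).a₃ = 0 := rfl
@[simp] lemma shortCurve_a₄ (α β : K) : (shortCurve α β).a₄ = β := rfl
@[simp] lemma shortCurve_a₆ (α β : K) : (shortCurve α β).a₆ = 0 := rfl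

/-- The kernel of reduction: the point at infinity, or an affine point with non-integral `x`. -/
def InE1 (A : ValuationSubring K) {W : WeierstrassCurve K} : W.toAffine.Point → Prop
  | .zero => True
  | .some x _ _ => x ∉ A

end Fermat.Agent.S05
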