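/-
S05 team, block Frey (owner: helper90): facts about the Frey curve over `AlgebraicClosure ℚ`
needed by `Main.lean`.

For a Frey package `P` (so `a^p + b^p = c^p`), the curve in S05 is
`freyBar P = P.freyCurve⁄(AlgebraicClosure ℚ)`, i.e. `y² + xy = x³ + a₂ x² + a₄ x` with
`4 a₂ + 1 = b^p - a^p`, `16 a₄ = -(a^p b^p)`.  With `X = 4x - r`, `Y = 8y + 4x` it becomes
`Y² = X (X - e₁) (X - e₂)` for
* `r = 0`,   `e₁ = a^p`,    `e₂ = -b^p`   (good case, and case `q ∣ a`);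
* `r = 0`,   `e₁ = (-b)^p`, `e₂ = a^p`    (case `q ∣ b`);
* `r = a^p`, `e₁ = (-c)^p`, `e₂ = -a^p`   (case `q ∣ c`).

Statements of the original stub: `freyBar_a₁`, `freyBar_a₃`, `freyBar_transfer_zero`,
`freyBar_transfer_a`, `frey_not_dvd_two`, `frey_flt_bar`.
One-stop statement for `Main`: `frey_cases` (together with `frey_val_two`, `frey_val_p`,
`qbar_exists_sq`, `qbar_two_ne_zero`).
-/
import Fermat.Agent.S05.Defs

set_option autoImplicit false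

namespace Fermat.Agent.S05

open WeierstrassCurve

namespace Frey

section Valuation

variable {L : Type*} [Field L] (A : ValuationSubring L)

theorem intCast_mem_nonunits {q : ℕ} (hA : A.LiesOverPrime q) {z : ℤ}
    (h : (q : ℤ) ∣ z) : (z : L) ∈ A.nonunits := by
  obtain ⟨k, rfl⟩ := h
  have hq : (q : L) ∈ A.nonunits := hA
  rw [ValuationSubring.mem_nonunits_iff] at hq ⊢
  have hk : A.valuation (k : L) ≤ 1 := (A.valuation_le_one_iff _).mpr (intCast_mem A k)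
  push_cast
  rw [map_mul]
  calc A.valuation (q : L) * A.valuation (k : L) ≤ A.valuation (q : L) * 1 := by gcongr
    _ < 1 := by rwa [mul_one]

theorem valuation_intCast_eq_one {q : ℕ} (hq : q.Prime) (hA : A.LiesOverPrime q) {z : ℤ}
    (h : ¬ (q : ℤ) ∣ z) : A.valuation (z : L) = 1 := by
  have hcop : IsCoprime (q : ℤ) z :=
    (Nat.prime_iff_prime_int.mp hq).coprime_iff_not_dvd.mpr h
  obtain ⟨u, v, huv⟩ := hcop
  have h1 : (u : L) * (q : L) + (v : L) * (z : L) = 1 := by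
    exact_mod_cast congrArg (Int.cast : ℤ → L) huv
  have hz : A.valuation (z : L) ≤ 1 := (A.valuation_le_one_iff _).mpr (intCast_mem A z)
  rcases lt_or_eq_of_le hz with hlt | heq
  · exfalso
    have huq : (u : L) * (q : L) ∈ A.nonunits := by
      have := intCast_mem_nonunits A hA (z := u * q) (Dvd.intro_left u rfl)
      simpa using this
    have hvz : (v : L) * (z : L) ∈ A.nonunits := by
      rw [ValuationSubring.mem_nonunits_iff, map_mul]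
      have hv : A.valuation (v : L) ≤ 1 := (A.valuation_le_one_iff _).mpr (intCast_mem A v)
      calc A.valuation (v : L) * A.valuation (z : L) ≤ 1 * A.valuation (z : L) := by gcongr
        _ < 1 := by rwa [one_mul]
    have h2 : (1 : L) ∈ A.nonunits := h1 ▸ A.nonunits.add_mem huq hvz
    rw [ValuationSubring.mem_nonunits_iff, map_one] at h2
    exact lt_irrefl _ h2
  · exact heq

theorem valuation_natCast_eq_one {q : ℕ} (hq : q.Prime) (hA : A.LiesOverPrime q) {n : ℕ}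
    (h : ¬ q ∣ n) : A.valuation (n : L) = 1 := by
  have := valuation_intCast_eq_one A hq hA (z := (n : ℤ)) (by exact_mod_cast h)
  simpa using this

end Valuation

end Frey

local notation "Qbar" => AlgebraicClosure ℚ

/-- The curve whose points appear in S05: `(P.freyCurve⁄AlgebraicClosure ℚ)`. -/
noncomputable abbrev freyBar (P : FreyPackage) : WeierstrassCurve (AlgebraicClosure ℚ) :=
  P.freyCurve.map (algebraMap ℚ (AlgebraicClosure ℚ))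

/-- `freyBar P` is the curve of S05 (`P.freyCurve⁄Qbar`), by definition. -/
theorem freyBar_eq_baseChange (P : FreyPackage) : P.freyCurve⁄Qbar = freyBar P := rfl

variable (P : FreyPackage)

/-! ### Coefficients of the Frey curve over `Qbar` -/

theorem freyBar_a₁ : (freyBar P).a₁ = 1 := by
  simp [FreyPackage.freyCurve]

theorem freyBar_a₃ : (freyBar P).a₃ = 0 := by
  simp [FreyPackage.freyCurve]

theorem freyBar_a₆ : (freyBar P).a₆ = 0 := by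
  simp [FreyPackage.freyCurve]

theorem freyBar_four_a₂ :
    4 * (freyBar P).a₂ + 1 = (P.b : Qbar) ^ P.p - (P.a : Qbar) ^ P.p := by
  simp [FreyPackage.freyCurve]
  ring

theorem freyBar_sixteen_a₄ :
    16 * (freyBar P).a₄ = -((P.a : Qbar) ^ P.p * (P.b : Qbar) ^ P.p) := by
  simp [FreyPackage.freyCurve]
  ring

/-- `a^p + b^p = c^p` in `AlgebraicClosure ℚ`. -/
theorem frey_flt_bar :
    (P.a : AlgebraicClosure ℚ) ^ P.p + (P.b : AlgebraicClosure ℚ) ^ P.p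
      = (P.c : AlgebraicClosure ℚ) ^ P.p := by
  exact_mod_cast congrArg (Int.cast : ℤ → Qbar) P.hFLT

theorem frey_neg_pow (x : Qbar) : (-x) ^ P.p = -x ^ P.p :=
  P.hp_odd.neg_pow x

/-! ### Transfer identities (stub forms) -/

/-- Transfer identities with `r = 0`: short model `Y² = X (X - a^p) (X + b^p)`,
`α = b^p - a^p`, `β = -(a^p b^p)`. -/
theorem freyBar_transfer_zero :
    4 * (freyBar P).a₂ + 1
        = ((P.b : AlgebraicClosure ℚ) ^ P.p - (P.a : AlgebraicClosure ℚ) ^ P.p) - 3 * 0 ∧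
    16 * (freyBar P).a₄
        = 3 * (0 : AlgebraicClosure ℚ) ^ 2
          - 2 * ((P.b : AlgebraicClosure ℚ) ^ P.p - (P.a : AlgebraicClosure ℚ) ^ P.p) * 0
          + -((P.a : AlgebraicClosure ℚ) ^ P.p * (P.b : AlgebraicClosure ℚ) ^ P.p) ∧
    64 * (freyBar P).a₆
        = -(0 : AlgebraicClosure ℚ) ^ 3
          + ((P.b : AlgebraicClosure ℚ) ^ P.p - (P.a : AlgebraicClosure ℚ) ^ P.p) * 0 ^ 2
          - -((P.a : AlgebraicClosure ℚ) ^ P.p * (P.b : AlgebraicClosure ℚ) ^ P.p) * 0 := by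
  refine ⟨?_, ?_, ?_⟩
  · rw [freyBar_four_a₂]; ring
  · rw [freyBar_sixteen_a₄]; ring
  · rw [freyBar_a₆]; ring

/-- Transfer identities with `r = a^p`: short model `Y² = X (X + a^p) (X + c^p)`,
`α = a^p + c^p`, `β = a^p c^p`. -/
theorem freyBar_transfer_a :
    4 * (freyBar P).a₂ + 1
        = ((P.a : AlgebraicClosure ℚ) ^ P.p + (P.c : AlgebraicClosure ℚ) ^ P.p)
          - 3 * (P.a : AlgebraicClosure ℚ) ^ P.p ∧
    16 * (freyBar P).a₄
        = 3 * ((P.a : AlgebraicClosure ℚ) ^ P.p) ^ 2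
          - 2 * ((P.a : AlgebraicClosure ℚ) ^ P.p + (P.c : AlgebraicClosure ℚ) ^ P.p)
              * (P.a : AlgebraicClosure ℚ) ^ P.p
          + (P.a : AlgebraicClosure ℚ) ^ P.p * (P.c : AlgebraicClosure ℚ) ^ P.p ∧
    64 * (freyBar P).a₆
        = -((P.a : AlgebraicClosure ℚ) ^ P.p) ^ 3
          + ((P.a : AlgebraicClosure ℚ) ^ P.p + (P.c : AlgebraicClosure ℚ) ^ P.p)
              * ((P.a : AlgebraicClosure ℚ) ^ P.p) ^ 2
          - (P.a : AlgebraicClosure ℚ) ^ P.p * (P.c : AlgebraicClosure ℚ) ^ P.p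
              * (P.a : AlgebraicClosure ℚ) ^ P.p := by
  have hc := frey_flt_bar P
  refine ⟨?_, ?_, ?_⟩
  · rw [freyBar_four_a₂, ← hc]; ring
  · rw [freyBar_sixteen_a₄, ← hc]; ring
  · rw [freyBar_a₆]; ring

/-! ### Transfer identities in root form

In each case `α = -(e₁ + e₂)`, `β = e₁ * e₂`, matching both the hypotheses of `exists_toShort`
(`4 a₂ + 1 = α - 3 r`, `16 a₄ = 3 r² - 2 α r + β`, `64 a₆ = -r³ + α r² - β r`) and the curve
`shortCurve (-(e₁ + e₂)) (e₁ * e₂)` of `mult_case_short`. -/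

/-- `r = 0`, `e₁ = a^p`, `e₂ = -b^p` (used when `q ∣ a`, and in the good case). -/
theorem freyBar_roots_a :
    4 * (freyBar P).a₂ + 1
        = -((P.a : Qbar) ^ P.p + -(P.b : Qbar) ^ P.p) - 3 * 0 ∧
    16 * (freyBar P).a₄
        = 3 * (0 : Qbar) ^ 2 - 2 * (-((P.a : Qbar) ^ P.p + -(P.b : Qbar) ^ P.p)) * 0
          + (P.a : Qbar) ^ P.p * -(P.b : Qbar) ^ P.p ∧
    64 * (freyBar P).a₆
        = -(0 : Qbar) ^ 3 + (-((P.a : Qbar) ^ P.p + -(P.b : Qbar) ^ P.p)) * 0 ^ 2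
          - ((P.a : Qbar) ^ P.p * -(P.b : Qbar) ^ P.p) * 0 := by
  refine ⟨?_, ?_, ?_⟩
  · rw [freyBar_four_a₂]; ring
  · rw [freyBar_sixteen_a₄]; ring
  · rw [freyBar_a₆]; ring

/-- `r = 0`, `e₁ = (-b)^p`, `e₂ = a^p` (used when `q ∣ b`). -/
theorem freyBar_roots_b :
    4 * (freyBar P).a₂ + 1
        = -((-(P.b : Qbar)) ^ P.p + (P.a : Qbar) ^ P.p) - 3 * 0 ∧
    16 * (freyBar P).a₄
        = 3 * (0 : Qbar) ^ 2 - 2 * (-((-(P.b : Qbar)) ^ P.p + (P.a : Qbar) ^ P.p)) * 0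
          + (-(P.b : Qbar)) ^ P.p * (P.a : Qbar) ^ P.p ∧
    64 * (freyBar P).a₆
        = -(0 : Qbar) ^ 3 + (-((-(P.b : Qbar)) ^ P.p + (P.a : Qbar) ^ P.p)) * 0 ^ 2
          - ((-(P.b : Qbar)) ^ P.p * (P.a : Qbar) ^ P.p) * 0 := by
  refine ⟨?_, ?_, ?_⟩
  · rw [freyBar_four_a₂, frey_neg_pow]; ring
  · rw [freyBar_sixteen_a₄, frey_neg_pow]; ring
  · rw [freyBar_a₆]; ring

/-- `r = a^p`, `e₁ = (-c)^p`, `e₂ = -a^p` (used when `q ∣ c`). -/
theorem freyBar_roots_c :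
    4 * (freyBar P).a₂ + 1
        = -((-(P.c : Qbar)) ^ P.p + -(P.a : Qbar) ^ P.p) - 3 * (P.a : Qbar) ^ P.p ∧
    16 * (freyBar P).a₄
        = 3 * ((P.a : Qbar) ^ P.p) ^ 2
          - 2 * (-((-(P.c : Qbar)) ^ P.p + -(P.a : Qbar) ^ P.p)) * (P.a : Qbar) ^ P.p
          + (-(P.c : Qbar)) ^ P.p * -(P.a : Qbar) ^ P.p ∧
    64 * (freyBar P).a₆
        = -((P.a : Qbar) ^ P.p) ^ 3
          + (-((-(P.c : Qbar)) ^ P.p + -(P.a : Qbar) ^ P.p)) * ((P.a : Qbar) ^ P.p) ^ 2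
          - ((-(P.c : Qbar)) ^ P.p * -(P.a : Qbar) ^ P.p) * (P.a : Qbar) ^ P.p := by
  have hc := frey_flt_bar P
  refine ⟨?_, ?_, ?_⟩
  · rw [freyBar_four_a₂, frey_neg_pow, ← hc]; ring
  · rw [freyBar_sixteen_a₄, frey_neg_pow, ← hc]; ring
  · rw [freyBar_a₆]; ring

/-! ### Number theory -/

theorem frey_not_dvd_b_of_dvd_a {q : ℕ} (hq : q.Prime)
    (h : (q : ℤ) ∣ P.a) : ¬ (q : ℤ) ∣ P.b := by
  intro hb
  have hgcd : (q : ℤ) ∣ gcd P.a P.b := dvd_gcd h hb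
  rw [P.hgcdab] at hgcd
  exact (Nat.prime_iff_prime_int.mp hq).not_dvd_one hgcd

theorem frey_not_dvd_c_of_dvd_a {q : ℕ} (hq : q.Prime)
    (h : (q : ℤ) ∣ P.a) : ¬ (q : ℤ) ∣ P.c := by
  intro hc
  have hgcd : (q : ℤ) ∣ gcd P.a P.c := dvd_gcd h hc
  rw [P.hgcdac] at hgcd
  exact (Nat.prime_iff_prime_int.mp hq).not_dvd_one hgcd

theorem frey_not_dvd_c_of_dvd_b {q : ℕ} (hq : q.Prime)
    (h : (q : ℤ) ∣ P.b) : ¬ (q : ℤ) ∣ P.c := by
  intro hc
  have hgcd : (q : ℤ) ∣ gcd P.b P.c := dvd_gcd h hc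
  rw [P.hgcdbc] at hgcd
  exact (Nat.prime_iff_prime_int.mp hq).not_dvd_one hgcd

/-- A prime dividing two of `a, b, c` is impossible; so a prime `q` divides at most one of them. -/
theorem frey_not_dvd_two {q : ℕ} (hq : q.Prime) :
    ((q : ℤ) ∣ P.a → ¬ (q : ℤ) ∣ P.b ∧ ¬ (q : ℤ) ∣ P.c) ∧
    ((q : ℤ) ∣ P.b → ¬ (q : ℤ) ∣ P.a ∧ ¬ (q : ℤ) ∣ P.c) ∧
    ((q : ℤ) ∣ P.c → ¬ (q : ℤ) ∣ P.a ∧ ¬ (q : ℤ) ∣ P.b) :=
  ⟨fun h => ⟨frey_not_dvd_b_of_dvd_a P hq h, frey_not_dvd_c_of_dvd_a P hq h⟩,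
   fun h => ⟨fun ha => frey_not_dvd_b_of_dvd_a P hq ha h, frey_not_dvd_c_of_dvd_b P hq h⟩,
   fun h => ⟨fun ha => frey_not_dvd_c_of_dvd_a P hq ha h,
     fun hb => frey_not_dvd_c_of_dvd_b P hq hb h⟩⟩

section Cases

variable {q : ℕ} (A : ValuationSubring Qbar)

theorem frey_val_two (hq : q.Prime) (hq2 : q ≠ 2) (hA : A.LiesOverPrime q) :
    A.valuation (2 : Qbar) = 1 := by
  have h : ¬ q ∣ 2 := fun h => hq2 ((Nat.prime_dvd_prime_iff_eq hq Nat.prime_two).mp h)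
  have := Frey.valuation_natCast_eq_one A hq hA h
  simpa using this

theorem frey_val_p (hq : q.Prime) (hqp : q ≠ P.p) (hA : A.LiesOverPrime q) :
    A.valuation (P.p : Qbar) = 1 :=
  Frey.valuation_natCast_eq_one A hq hA
    (fun h => hqp ((Nat.prime_dvd_prime_iff_eq hq P.pp).mp h))

theorem frey_val_pow_eq_one (hq : q.Prime) (hA : A.LiesOverPrime q) {z : ℤ}
    (h : ¬ (q : ℤ) ∣ z) (n : ℕ) : A.valuation ((z : Qbar) ^ n) = 1 := by
  rw [map_pow, Frey.valuation_intCast_eq_one A hq hA h, one_pow]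

theorem frey_pow_mem_nonunits (hA : A.LiesOverPrime q) {z : ℤ}
    (h : (q : ℤ) ∣ z) : (z : Qbar) ^ P.p ∈ A.nonunits := by
  have h' : (q : ℤ) ∣ z ^ P.p := dvd_pow h P.hp0
  have := Frey.intCast_mem_nonunits A hA h'
  simpa using this

/-- Good case `q ∤ abc`: with `e₁ = a^p`, `e₂ = -b^p`, `α = -(e₁+e₂)`, `β = e₁ e₂`:
`α ∈ A`, `v(β) = 1`, `v(α² - 4β) = 1`. -/
theorem frey_good (hq : q.Prime) (hA : A.LiesOverPrime q)
    (ha : ¬ (q : ℤ) ∣ P.a) (hb : ¬ (q : ℤ) ∣ P.b) (hc : ¬ (q : ℤ) ∣ P.c) :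
    -((P.a : Qbar) ^ P.p + -(P.b : Qbar) ^ P.p) ∈ A ∧
    A.valuation ((P.a : Qbar) ^ P.p * -(P.b : Qbar) ^ P.p) = 1 ∧
    A.valuation ((-((P.a : Qbar) ^ P.p + -(P.b : Qbar) ^ P.p)) ^ 2
      - 4 * ((P.a : Qbar) ^ P.p * -(P.b : Qbar) ^ P.p)) = 1 := by
  refine ⟨?_, ?_, ?_⟩
  · exact neg_mem (add_mem (pow_mem (intCast_mem A _) _) (neg_mem (pow_mem (intCast_mem A _) _)))
  · rw [map_mul, Valuation.map_neg, frey_val_pow_eq_one A hq hA ha,
      frey_val_pow_eq_one A hq hA hb, one_mul]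
  · have h : (-((P.a : Qbar) ^ P.p + -(P.b : Qbar) ^ P.p)) ^ 2
        - 4 * ((P.a : Qbar) ^ P.p * -(P.b : Qbar) ^ P.p) = ((P.c : Qbar) ^ P.p) ^ 2 := by
      rw [← frey_flt_bar P]; ring
    rw [h, map_pow, frey_val_pow_eq_one A hq hA hc, one_pow]

/-- Case `q ∣ a`: `e₁ = a^p ∈ 𝔪 \ {0}`, `e₂ = -b^p` a unit. -/
theorem frey_mult_a (hq : q.Prime) (hA : A.LiesOverPrime q) (ha : (q : ℤ) ∣ P.a) :
    (P.a : Qbar) ^ P.p ∈ A.nonunits ∧ (P.a : Qbar) ^ P.p ≠ 0 ∧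
    A.valuation (-(P.b : Qbar) ^ P.p) = 1 := by
  refine ⟨frey_pow_mem_nonunits P A hA ha, pow_ne_zero _ (by exact_mod_cast P.ha0), ?_⟩
  rw [Valuation.map_neg, frey_val_pow_eq_one A hq hA (frey_not_dvd_b_of_dvd_a P hq ha)]

/-- Case `q ∣ b`: `e₁ = (-b)^p ∈ 𝔪 \ {0}`, `e₂ = a^p` a unit. -/
theorem frey_mult_b (hq : q.Prime) (hA : A.LiesOverPrime q) (hb : (q : ℤ) ∣ P.b) :
    (-(P.b : Qbar)) ^ P.p ∈ A.nonunits ∧ (-(P.b : Qbar)) ^ P.p ≠ 0 ∧
    A.valuation ((P.a : Qbar) ^ P.p) = 1 := by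
  refine ⟨?_, pow_ne_zero _ (neg_ne_zero.mpr (by exact_mod_cast P.hb0)), ?_⟩
  · rw [frey_neg_pow]
    exact neg_mem (frey_pow_mem_nonunits P A hA hb)
  · exact frey_val_pow_eq_one A hq hA (fun ha => frey_not_dvd_b_of_dvd_a P hq ha hb) _

/-- Case `q ∣ c`: `e₁ = (-c)^p ∈ 𝔪 \ {0}`, `e₂ = -a^p` a unit. -/
theorem frey_mult_c (hq : q.Prime) (hA : A.LiesOverPrime q) (hc : (q : ℤ) ∣ P.c) :
    (-(P.c : Qbar)) ^ P.p ∈ A.nonunits ∧ (-(P.c : Qbar)) ^ P.p ≠ 0 ∧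
    A.valuation (-(P.a : Qbar) ^ P.p) = 1 := by
  refine ⟨?_, pow_ne_zero _ (neg_ne_zero.mpr (by exact_mod_cast P.hc0)), ?_⟩
  · rw [frey_neg_pow]
    exact neg_mem (frey_pow_mem_nonunits P A hA hc)
  · rw [Valuation.map_neg,
      frey_val_pow_eq_one A hq hA (fun ha => frey_not_dvd_c_of_dvd_a P hq ha hc)]

/-- One-stop case data for `Main`: there are integers `r, ρ, e₂` (hence fixed by every
ring endomorphism of `Qbar`) such that with `e₁ = ρ^p`, `α = -(e₁+e₂)`, `β = e₁ e₂` the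
hypotheses `h₂ h₄ h₆` of `exists_toShort` hold for `freyBar P`, and either the hypotheses
`hα hβ hdisc` of `good_case_short` or the hypotheses `he₁ he₁0 he₂` of `mult_case_short` hold. -/
theorem frey_cases (hq : q.Prime) (hA : A.LiesOverPrime q) :
    ∃ r ρ e₂ : ℤ,
      (4 * (freyBar P).a₂ + 1 = -((ρ : Qbar) ^ P.p + (e₂ : Qbar)) - 3 * (r : Qbar) ∧
       16 * (freyBar P).a₄
          = 3 * (r : Qbar) ^ 2 - 2 * (-((ρ : Qbar) ^ P.p + (e₂ : Qbar))) * (r : Qbar)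
            + (ρ : Qbar) ^ P.p * (e₂ : Qbar) ∧
       64 * (freyBar P).a₆
          = -(r : Qbar) ^ 3 + (-((ρ : Qbar) ^ P.p + (e₂ : Qbar))) * (r : Qbar) ^ 2
            - ((ρ : Qbar) ^ P.p * (e₂ : Qbar)) * (r : Qbar)) ∧
      ((-((ρ : Qbar) ^ P.p + (e₂ : Qbar)) ∈ A ∧
          A.valuation ((ρ : Qbar) ^ P.p * (e₂ : Qbar)) = 1 ∧
          A.valuation ((-((ρ : Qbar) ^ P.p + (e₂ : Qbar))) ^ 2
            - 4 * ((ρ : Qbar) ^ P.p * (e₂ : Qbar))) = 1) ∨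
        ((ρ : Qbar) ^ P.p ∈ A.nonunits ∧ (ρ : Qbar) ^ P.p ≠ 0 ∧
          A.valuation (e₂ : Qbar) = 1)) := by
  by_cases ha : (q : ℤ) ∣ P.a
  · refine ⟨0, P.a, -P.b ^ P.p, ?_, Or.inr ?_⟩
    · simpa using freyBar_roots_a P
    · simpa using frey_mult_a P A hq hA ha
  by_cases hb : (q : ℤ) ∣ P.b
  · refine ⟨0, -P.b, P.a ^ P.p, ?_, Or.inr ?_⟩
    · simpa using freyBar_roots_b P
    · simpa using frey_mult_b P A hq hA hb
  by_cases hc : (q : ℤ) ∣ P.c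
  · refine ⟨P.a ^ P.p, -P.c, -P.a ^ P.p, ?_, Or.inr ?_⟩
    · simpa using freyBar_roots_c P
    · simpa using frey_mult_c P A hq hA hc
  · refine ⟨0, P.a, -P.b ^ P.p, ?_, Or.inl ?_⟩
    · simpa using freyBar_roots_a P
    · simpa using frey_good P A hq hA ha hb hc

end Cases

/-- Square roots exist in `Qbar` (hypothesis `hsqrt` of `mult_case_short`). -/
theorem qbar_exists_sq (u : Qbar) : ∃ t : Qbar, t ^ 2 = u :=
  IsAlgClosed.exists_pow_nat_eq u (by norm_num)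

theorem qbar_two_ne_zero : (2 : Qbar) ≠ 0 := two_ne_zero

end Fermat.Agent.S05
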