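/-
S05 team, block Inertia (owner: helper29): what we need about inertia subgroups of valuation
subrings of `AlgebraicClosure ℚ`.
-/
import Fermat.Agent.S05.Defs

set_option autoImplicit false

namespace Fermat.Agent.S05

namespace Inertia

open scoped Pointwise

variable {K L : Type*} [Field K] [Field L] [Algebra K L]

/-- Elements of the decomposition group preserve the valuation subring. -/
theorem mem_iff_of_mem_decomposition (A : ValuationSubring L) {σ : L ≃ₐ[K] L}
    (hσ : σ ∈ A.decompositionSubgroup K) (x : L) : σ x ∈ A ↔ x ∈ A := by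
  have h : σ • A = A := hσ
  constructor
  · intro hx
    have : σ • x ∈ σ • A := by rw [h]; exact hx
    exact ValuationSubring.smul_mem_pointwise_smul_iff.mp this
  · intro hx
    have : σ • x ∈ σ • A := ValuationSubring.smul_mem_pointwise_smul σ x A hx
    rw [h] at this
    exact this

theorem mem_decomposition_of_mem_inertia (A : ValuationSubring L) {σ : L ≃ₐ[K] L}
    (hσ : σ ∈ A.inertiaSubgroupIn K) : σ ∈ A.decompositionSubgroup K := by
  obtain ⟨τ, -, rfl⟩ := hσ
  exact τ.2

/-- Elements of the inertia group preserve the valuation subring. -/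
theorem mem_iff_of_mem_inertia (A : ValuationSubring L) {σ : L ≃ₐ[K] L}
    (hσ : σ ∈ A.inertiaSubgroupIn K) (x : L) : σ x ∈ A ↔ x ∈ A :=
  mem_iff_of_mem_decomposition A (mem_decomposition_of_mem_inertia A hσ) x

/-- Elements of the inertia group act trivially on the residue field. -/
theorem sub_mem_nonunits_of_mem_inertia (A : ValuationSubring L) {σ : L ≃ₐ[K] L}
    (hσ : σ ∈ A.inertiaSubgroupIn K) {x : L} (hx : x ∈ A) : σ x - x ∈ A.nonunits := by
  obtain ⟨τ, hτ, rfl⟩ := hσ
  have h1 : τ • (IsLocalRing.residue A ⟨x, hx⟩) = IsLocalRing.residue A ⟨x, hx⟩ := by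
    have := congrArg (fun f => f (IsLocalRing.residue A ⟨x, hx⟩)) (MonoidHom.mem_ker.mp hτ)
    simpa using this
  rw [← IsLocalRing.ResidueField.residue_smul, ← sub_eq_zero, ← map_sub,
    IsLocalRing.residue_eq_zero_iff] at h1
  have h2 := ValuationSubring.coe_mem_nonunits_iff.mpr h1
  exact h2

section Main

variable {K L : Type*} [Field K] [Field L] [Algebra K L]

/-- (a) Elements of the inertia subgroup are `InertiaLike`. -/
theorem inertiaLike_of_mem_inertia (A : ValuationSubring L) {σ : L ≃ₐ[K] L}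
    (hσ : σ ∈ A.inertiaSubgroupIn K) : InertiaLike A (σ : L →+* L) where
  mem_iff x := mem_iff_of_mem_inertia A hσ x
  sub_mem _ hx := sub_mem_nonunits_of_mem_inertia A hσ hx

theorem intCast_mem_valuationSubring (A : ValuationSubring L) (z : ℤ) : (z : L) ∈ A :=
  intCast_mem A z

theorem valuation_intCast_le_one (A : ValuationSubring L) (z : ℤ) : A.valuation (z : L) ≤ 1 :=
  (A.valuation_le_one_iff _).mpr (intCast_mem A z)

theorem valuation_natCast_le_one (A : ValuationSubring L) (n : ℕ) : A.valuation (n : L) ≤ 1 :=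
  (A.valuation_le_one_iff _).mpr (natCast_mem A n)

/-- (b1) If `q ∣ z` then `z` is a nonunit of a valuation subring lying over `q`. -/
theorem intCast_mem_nonunits_of_dvd {A : ValuationSubring L} {q : ℕ} (hA : A.LiesOverPrime q)
    {z : ℤ} (h : (q : ℤ) ∣ z) : (z : L) ∈ A.nonunits := by
  obtain ⟨m, rfl⟩ := h
  rw [A.mem_nonunits_iff]
  have hq : A.valuation (q : L) < 1 := A.mem_nonunits_iff.mp hA
  have hm : A.valuation (m : L) ≤ 1 := valuation_intCast_le_one A m
  push_cast
  rw [map_mul]
  exact mul_lt_one_of_nonneg_of_lt_one_left zero_le hq hm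

/-- (b2) If `q` is prime and `q ∤ z` then `z` is a unit of a valuation subring lying over `q`. -/
theorem valuation_intCast_eq_one_of_not_dvd {A : ValuationSubring L} {q : ℕ}
    (hA : A.LiesOverPrime q) (hq : q.Prime) {z : ℤ} (h : ¬ (q : ℤ) ∣ z) :
    A.valuation (z : L) = 1 := by
  refine le_antisymm (valuation_intCast_le_one A z) (not_lt.mp fun hlt => ?_)
  have hcop : IsCoprime (q : ℤ) z :=
    (Int.isCoprime_iff_gcd_eq_one).mpr
      ((Nat.Coprime.gcd_eq_one
        ((Nat.Prime.coprime_iff_not_dvd hq).mpr (fun hd => h (Int.natCast_dvd.mpr hd)))))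
  obtain ⟨u, w, huw⟩ := hcop
  have hq' : A.valuation (q : L) < 1 := A.mem_nonunits_iff.mp hA
  have h1 : A.valuation ((u : L) * (q : L)) < 1 := by
    rw [map_mul]; exact mul_lt_one_of_nonneg_of_lt_one_right (valuation_intCast_le_one A u) zero_le hq'
  have h2 : A.valuation ((w : L) * (z : L)) < 1 := by
    rw [map_mul]; exact mul_lt_one_of_nonneg_of_lt_one_right (valuation_intCast_le_one A w) zero_le hlt
  have h3 : ((u : L) * (q : L)) + ((w : L) * (z : L)) = 1 := by
    have := congrArg (fun t : ℤ => (t : L)) huw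
    simpa using this
  have h4 : A.valuation (1 : L) < 1 := by
    rw [← h3]; exact lt_of_le_of_lt (A.valuation.map_add _ _) (max_lt h1 h2)
  simp at h4

theorem intCast_mem_nonunits_iff {A : ValuationSubring L} {q : ℕ} (hA : A.LiesOverPrime q)
    (hq : q.Prime) (z : ℤ) : (z : L) ∈ A.nonunits ↔ (q : ℤ) ∣ z := by
  constructor
  · intro hz
    by_contra h
    have := valuation_intCast_eq_one_of_not_dvd hA hq h
    rw [A.mem_nonunits_iff, this] at hz
    exact lt_irrefl _ hz
  · exact intCast_mem_nonunits_of_dvd hA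

theorem valuation_intCast_lt_one_iff {A : ValuationSubring L} {q : ℕ} (hA : A.LiesOverPrime q)
    (hq : q.Prime) (z : ℤ) : A.valuation (z : L) < 1 ↔ (q : ℤ) ∣ z := by
  rw [← A.mem_nonunits_iff]; exact intCast_mem_nonunits_iff hA hq z

theorem valuation_intCast_eq_one_iff {A : ValuationSubring L} {q : ℕ} (hA : A.LiesOverPrime q)
    (hq : q.Prime) (z : ℤ) : A.valuation (z : L) = 1 ↔ ¬ (q : ℤ) ∣ z := by
  rw [← valuation_intCast_lt_one_iff hA hq z, not_lt]
  exact ⟨fun h => h.ge, fun h => le_antisymm (valuation_intCast_le_one A z) h⟩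

/-- ℕ-versions. -/
theorem natCast_mem_nonunits_of_dvd {A : ValuationSubring L} {q : ℕ} (hA : A.LiesOverPrime q)
    {n : ℕ} (h : q ∣ n) : (n : L) ∈ A.nonunits := by
  have := intCast_mem_nonunits_of_dvd (L := L) hA (z := (n : ℤ)) (Int.natCast_dvd_natCast.mpr h)
  simpa using this

theorem valuation_natCast_eq_one_of_not_dvd {A : ValuationSubring L} {q : ℕ}
    (hA : A.LiesOverPrime q) (hq : q.Prime) {n : ℕ} (h : ¬ q ∣ n) :
    A.valuation (n : L) = 1 := by
  have := valuation_intCast_eq_one_of_not_dvd (L := L) hA hq (z := (n : ℤ))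
    (fun hd => h (Int.natCast_dvd_natCast.mp hd))
  simpa using this

theorem valuation_natCast_lt_one_iff {A : ValuationSubring L} {q : ℕ} (hA : A.LiesOverPrime q)
    (hq : q.Prime) (n : ℕ) : A.valuation (n : L) < 1 ↔ q ∣ n := by
  have := valuation_intCast_lt_one_iff (L := L) hA hq (n : ℤ)
  simpa [Int.natCast_dvd_natCast] using this

theorem valuation_natCast_eq_one_iff {A : ValuationSubring L} {q : ℕ} (hA : A.LiesOverPrime q)
    (hq : q.Prime) (n : ℕ) : A.valuation (n : L) = 1 ↔ ¬ q ∣ n := by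
  have := valuation_intCast_eq_one_iff (L := L) hA hq (n : ℤ)
  simpa [Int.natCast_dvd_natCast] using this

end Main

end Inertia

/-- An element of the inertia subgroup is inertia-like. -/
theorem inertiaLike_of_mem (A : ValuationSubring (AlgebraicClosure ℚ))
    (σ : AlgebraicClosure ℚ ≃ₐ[ℚ] AlgebraicClosure ℚ) (hσ : σ ∈ A.inertiaSubgroupIn ℚ) :
    InertiaLike A (σ : AlgebraicClosure ℚ →+* AlgebraicClosure ℚ) :=
  Inertia.inertiaLike_of_mem_inertia A hσ

theorem intCast_mem_nonunits (A : ValuationSubring (AlgebraicClosure ℚ)) {q : ℕ}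
    (hA : A.LiesOverPrime q) {z : ℤ} (hz : (q : ℤ) ∣ z) :
    ((z : ℤ) : AlgebraicClosure ℚ) ∈ A.nonunits :=
  Inertia.intCast_mem_nonunits_of_dvd hA hz

theorem valuation_intCast_eq_one (A : ValuationSubring (AlgebraicClosure ℚ)) {q : ℕ}
    (hq : q.Prime) (hA : A.LiesOverPrime q) {z : ℤ} (hz : ¬ (q : ℤ) ∣ z) :
    A.valuation ((z : ℤ) : AlgebraicClosure ℚ) = 1 :=
  Inertia.valuation_intCast_eq_one_of_not_dvd hA hq hz

theorem valuation_natCast_eq_one (A : ValuationSubring (AlgebraicClosure ℚ)) {q : ℕ}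
    (hq : q.Prime) (hA : A.LiesOverPrime q) {n : ℕ} (hn : ¬ q ∣ n) :
    A.valuation ((n : ℕ) : AlgebraicClosure ℚ) = 1 :=
  Inertia.valuation_natCast_eq_one_of_not_dvd hA hq hn

end Fermat.Agent.S05
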