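/-
S05 team, block F1 (owner: helper96): the kernel of reduction has no torsion prime to the
residue characteristic.

Setting: a field `K` with a valuation `v` (multiplicative notation), a Weierstrass curve `W`
with `v`-integral coefficients.  For an affine point `(x, y)` with `1 < v x` we use the chart at
infinity `z = -x/y`, `w = -1/y`.  Main steps:

* `FormalGroup.zVieta`      : Vieta relations for the chord/tangent line (from Mathlib's `addX`).
* `FormalGroup.line_bounds` : the line `w = L z + M` through two such points has `v L ≤ t²`,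
                              `v M ≤ t³` when `v z₁, v z₂ ≤ t < 1`.
* `FormalGroup.third_point` : the third intersection point satisfies `v (z₁ + z₂ + z₃) ≤ t²`.
* `FormalGroup.add_pt`      : the kernel of reduction is closed under `+` and
                              `v (z (P + Q) - z P - z Q) ≤ t²`.
* `FormalGroup.nsmul_pt`    : `v (z (k • P) - k * z P) ≤ (v (z P))²`.
* `F1`, `F1_short`, `F1_inE1`, `inE1_add`, `inE1_neg`, `inE1_sub` : the exported statements for a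
                              valuation subring `A` of `K`.
-/
import Fermat.Agent.S05.Defs

set_option autoImplicit false

namespace Fermat.Agent.S05
namespace FormalGroup

open WeierstrassCurve

section Val

variable {K : Type*} [Field K] {Γ₀ : Type*} [LinearOrderedCommGroupWithZero Γ₀]
  (v : Valuation K Γ₀)

/-- Integrality of the Weierstrass coefficients with respect to a valuation. -/
structure IntCoeff (W : WeierstrassCurve K) : Prop where
  a₁ : v W.a₁ ≤ 1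
  a₂ : v W.a₂ ≤ 1
  a₃ : v W.a₃ ≤ 1
  a₄ : v W.a₄ ≤ 1
  a₆ : v W.a₆ ≤ 1

variable {v}

lemma mulR {a b : K} {g : Γ₀} (ha : v a ≤ 1) (hb : v b ≤ g) : v (a * b) ≤ g := by
  rw [map_mul]; exact (mul_le_mul' ha hb).trans (one_mul g).le

lemma natV (n : ℕ) : v (n : K) ≤ 1 := by
  induction n with
  | zero => simp
  | succ k ih => rw [Nat.cast_succ]; exact v.map_add_le ih (by simp)

/-! ### Bookkeeping lemmas for bounds of the form `v a ≤ t ^ i` -/

lemma bdMul {t : Γ₀} {a b : K} {i j : ℕ} (ha : v a ≤ t ^ i) (hb : v b ≤ t ^ j) :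
    v (a * b) ≤ t ^ (i + j) := by
  rw [map_mul, pow_add]; exact mul_le_mul' ha hb

lemma bdPow {t : Γ₀} {a : K} {i : ℕ} (ha : v a ≤ t ^ i) (n : ℕ) : v (a ^ n) ≤ t ^ (i * n) := by
  rw [map_pow, pow_mul]; exact pow_le_pow_left' ha n

lemma bdLe {t : Γ₀} (ht : t ≤ 1) {a : K} {i : ℕ} (j : ℕ) (ha : v a ≤ t ^ i)
    (hij : j ≤ i := by norm_num) : v a ≤ t ^ j :=
  ha.trans (pow_le_pow_right_of_le_one' ht hij)

lemma bdOne {t : Γ₀} {a : K} (ha : v a ≤ t) : v a ≤ t ^ 1 := by simpa using ha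

lemma bdZero {t : Γ₀} {a : K} (ha : v a ≤ 1) : v a ≤ t ^ 0 := by simpa using ha

/-! ### The chart at infinity -/

/-- The chart equation at infinity, in the coordinates `z = -x/y`, `w = -1/y`. -/
def ChartEq (W : WeierstrassCurve K) (z w : K) : Prop :=
  w = z ^ 3 + W.a₁ * z * w + W.a₂ * z ^ 2 * w + W.a₃ * w ^ 2 + W.a₄ * z * w ^ 2 + W.a₆ * w ^ 3

lemma chartEq_of_equation {W : WeierstrassCurve K} {x y : K} (h : W.toAffine.Equation x y)
    (hy : y ≠ 0) : ChartEq W (-x / y) (-1 / y) := by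
  rw [Affine.equation_iff] at h
  unfold ChartEq
  field_simp
  linear_combination -h

/-- Denominator of the chart slope of the chord through two chart points. -/
def cD (W : WeierstrassCurve K) (z₁ w₁ w₂ : K) : K :=
  1 - (W.a₁ * z₁ + W.a₂ * z₁ ^ 2 + W.a₃ * (w₁ + w₂) + W.a₄ * z₁ * (w₁ + w₂)
    + W.a₆ * (w₁ ^ 2 + w₁ * w₂ + w₂ ^ 2))

/-- Numerator of the chart slope of the chord through two chart points. -/
def cN (W : WeierstrassCurve K) (z₁ z₂ w₂ : K) : K :=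
  z₁ ^ 2 + z₁ * z₂ + z₂ ^ 2 + W.a₁ * w₂ + W.a₂ * (z₁ + z₂) * w₂ + W.a₄ * w₂ ^ 2

lemma chart_pair {W : WeierstrassCurve K} {z₁ w₁ z₂ w₂ : K} (h₁ : ChartEq W z₁ w₁)
    (h₂ : ChartEq W z₂ w₂) : (w₂ - w₁) * cD W z₁ w₁ w₂ = (z₂ - z₁) * cN W z₁ z₂ w₂ := by
  unfold ChartEq at h₁ h₂
  unfold cD cN
  linear_combination h₂ - h₁

lemma val_cD {W : WeierstrassCurve K} (hW : IntCoeff v W) {t : Γ₀} (ht : t < 1) {z₁ w₁ w₂ : K}
    (hz₁ : v z₁ ≤ t) (hw₁ : v w₁ ≤ t) (hw₂ : v w₂ ≤ t) : v (cD W z₁ w₁ w₂) = 1 := by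
  have ht1 : t ≤ 1 := ht.le
  have hz₁' := bdOne hz₁
  have hw₁' := bdOne hw₁
  have hw₂' := bdOne hw₂
  have hu : v (W.a₁ * z₁ + W.a₂ * z₁ ^ 2 + W.a₃ * (w₁ + w₂) + W.a₄ * z₁ * (w₁ + w₂)
      + W.a₆ * (w₁ ^ 2 + w₁ * w₂ + w₂ ^ 2)) ≤ t ^ 1 := by
    refine v.map_add_le (v.map_add_le (v.map_add_le (v.map_add_le ?_ ?_) ?_) ?_) ?_
    · exact bdLe ht1 1 (bdMul (bdZero hW.a₁) hz₁')
    · exact bdLe ht1 1 (bdMul (bdZero hW.a₂) (bdPow hz₁' 2))
    · exact bdLe ht1 1 (bdMul (bdZero hW.a₃) (v.map_add_le hw₁' hw₂'))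
    · exact bdLe ht1 1 (bdMul (bdMul (bdZero hW.a₄) hz₁') (v.map_add_le hw₁' hw₂'))
    · exact bdLe ht1 1 (bdMul (bdZero hW.a₆) (v.map_add_le (v.map_add_le
        (bdLe ht1 1 (bdPow hw₁' 2)) (bdLe ht1 1 (bdMul hw₁' hw₂'))) (bdLe ht1 1 (bdPow hw₂' 2))))
  exact v.map_one_sub_of_lt (lt_of_le_of_lt (by simpa using hu) ht)

lemma chart_w_le {W : WeierstrassCurve K} (hW : IntCoeff v W) {t : Γ₀} (ht : t < 1) {z w : K}
    (h : ChartEq W z w) (hz : v z ≤ t) (hw : v w < 1) : v w ≤ t ^ 3 := by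
  have hs : max t (v w) < 1 := max_lt ht hw
  have hD := val_cD hW hs (z₁ := z) (w₁ := w) (w₂ := 0) (hz.trans (le_max_left _ _))
    (le_max_right _ _) (by simp)
  have e : w * cD W z w 0 = z ^ 3 := by
    unfold ChartEq at h
    unfold cD
    linear_combination h
  have := congrArg v e
  rw [map_mul, hD, mul_one, map_pow] at this
  rw [this]
  exact pow_le_pow_left' hz 3

/-- The chord/tangent line `y = l x + n` through two points of the kernel of reduction, seen in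
the chart: `n ≠ 0`, and `w = -(l/n) z - 1/n` has small coefficients. -/
lemma line_bounds {W : WeierstrassCurve K} (hW : IntCoeff v W) {t : Γ₀} (ht : t < 1)
    {z₁ w₁ z₂ w₂ l n : K}
    (hz₁ : v z₁ ≤ t) (hz₂ : v z₂ ≤ t) (hw₁ : v w₁ ≤ t ^ 3) (hw₂ : v w₂ ≤ t ^ 3)
    (hl₁ : l * z₁ + n * w₁ = -1)
    (hDN : l * cD W z₁ w₁ w₂ + n * cN W z₁ z₂ w₂ = 0) :
    n ≠ 0 ∧ v (l / n) ≤ t ^ 2 ∧ v (1 / n) ≤ t ^ 3 := by
  have ht1 : t ≤ 1 := ht.le
  have hz₁' := bdOne hz₁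
  have hz₂' := bdOne hz₂
  have hD : v (cD W z₁ w₁ w₂) = 1 :=
    val_cD hW ht hz₁ (by simpa using bdLe ht1 1 hw₁) (by simpa using bdLe ht1 1 hw₂)
  have hD0 : cD W z₁ w₁ w₂ ≠ 0 := by
    intro h; rw [h, map_zero] at hD; exact zero_ne_one hD
  have hN : v (cN W z₁ z₂ w₂) ≤ t ^ 2 := by
    unfold cN
    refine v.map_add_le (v.map_add_le (v.map_add_le (v.map_add_le (v.map_add_le ?_ ?_) ?_) ?_) ?_) ?_
    · exact bdLe ht1 2 (bdPow hz₁' 2)
    · exact bdLe ht1 2 (bdMul hz₁' hz₂')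
    · exact bdLe ht1 2 (bdPow hz₂' 2)
    · exact bdLe ht1 2 (bdMul (bdZero hW.a₁) hw₂)
    · exact bdLe ht1 2 (bdMul (bdMul (bdZero hW.a₂) (v.map_add_le hz₁' hz₂')) hw₂)
    · exact bdLe ht1 2 (bdMul (bdZero hW.a₄) (bdPow hw₂ 2))
  have hn : n ≠ 0 := by
    intro hn
    rw [hn, zero_mul, add_zero] at hDN
    rcases mul_eq_zero.mp hDN with h | h
    · rw [h, hn] at hl₁; norm_num at hl₁
    · exact hD0 h
  have hL : l / n = - cN W z₁ z₂ w₂ / cD W z₁ w₁ w₂ := by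
    field_simp
    linear_combination hDN
  have hvL : v (l / n) ≤ t ^ 2 := by
    rw [hL, map_div₀, hD, div_one, v.map_neg]; exact hN
  refine ⟨hn, hvL, ?_⟩
  have hM : 1 / n = - (l / n * z₁) - w₁ := by
    field_simp
    linear_combination hl₁
  rw [hM]
  refine v.map_sub_le ?_ hw₁
  rw [v.map_neg]
  exact bdLe ht1 3 (bdMul hvL hz₁')

lemma sum_div_aux {x₁ x₂ x₃ y₁ y₂ y₃ : K} (h₁ : y₁ ≠ 0) (h₂ : y₂ ≠ 0) (h₃ : y₃ ≠ 0) :
    (-x₁ / y₁ + -x₂ / y₂ + -x₃ / y₃) * (y₁ * y₂ * y₃)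
      = -(x₁ * y₂ * y₃ + x₂ * y₁ * y₃ + x₃ * y₁ * y₂) := by
  field_simp
  ring

/-- The third intersection point of a line with small chart coefficients. -/
lemma third_point {W : WeierstrassCurve K} (hW : IntCoeff v W) {t : Γ₀} (ht : t < 1)
    {l n x₁ x₂ x₃ : K} (hn : n ≠ 0) (hL : v (l / n) ≤ t ^ 2) (hM : v (1 / n) ≤ t ^ 3)
    (he₁ : x₁ + x₂ + x₃ = l ^ 2 + W.a₁ * l - W.a₂)
    (he₂ : x₁ * x₂ + x₁ * x₃ + x₂ * x₃ = W.a₄ - 2 * l * n - W.a₁ * n - W.a₃ * l)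
    (he₃ : x₁ * x₂ * x₃ = n ^ 2 + W.a₃ * n - W.a₆)
    (hy₁ : l * x₁ + n ≠ 0) (hy₂ : l * x₂ + n ≠ 0)
    (hz₁ : v (-x₁ / (l * x₁ + n)) ≤ t) (hz₂ : v (-x₂ / (l * x₂ + n)) ≤ t) :
    l * x₃ + n ≠ 0 ∧ v (-x₃ / (l * x₃ + n)) ≤ t ∧ v (1 / (l * x₃ + n)) ≤ t ^ 3 ∧
      v (-x₁ / (l * x₁ + n) + -x₂ / (l * x₂ + n) + -x₃ / (l * x₃ + n)) ≤ t ^ 2 := by
  have ht1 : t ≤ 1 := ht.le
  obtain ⟨L, rfl⟩ : ∃ L, l = L * n := ⟨l / n, by field_simp⟩
  obtain ⟨M, hMn⟩ : ∃ M, M * n = 1 := ⟨1 / n, by field_simp⟩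
  have hL' : v L ≤ t ^ 2 := by rwa [mul_div_assoc, div_self hn, mul_one] at hL
  have hM' : v M ≤ t ^ 3 := by
    have : M = 1 / n := by field_simp; exact hMn
    rwa [this]
  -- the leading coefficient of the cubic in the chart
  have hA₃ : (1 - (W.a₂ * L - W.a₄ * L ^ 2 + W.a₆ * L ^ 3)) * n ^ 3
      = (L * n * x₁ + n) * (L * n * x₂ + n) * (L * n * x₃ + n) := by
    linear_combination (-(L * n) ^ 3) * he₃ - (L * n) ^ 2 * n * he₂ - (L * n) * n ^ 2 * he₁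
  have hvA₃ : v (1 - (W.a₂ * L - W.a₄ * L ^ 2 + W.a₆ * L ^ 3)) = 1 := by
    refine v.map_one_sub_of_lt (lt_of_le_of_lt (b := t ^ 1) ?_ (by simpa using ht))
    refine v.map_add_le (v.map_sub_le ?_ ?_) ?_
    · exact bdLe ht1 1 (bdMul (bdZero hW.a₂) hL')
    · exact bdLe ht1 1 (bdMul (bdZero hW.a₄) (bdPow hL' 2))
    · exact bdLe ht1 1 (bdMul (bdZero hW.a₆) (bdPow hL' 3))
  have hA₃0 : 1 - (W.a₂ * L - W.a₄ * L ^ 2 + W.a₆ * L ^ 3) ≠ 0 := by
    intro h; rw [h, map_zero] at hvA₃; exact zero_ne_one hvA₃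
  have hprod : (L * n * x₁ + n) * (L * n * x₂ + n) * (L * n * x₃ + n) ≠ 0 := by
    rw [← hA₃]; exact mul_ne_zero hA₃0 (pow_ne_zero 3 hn)
  have hy₃ : L * n * x₃ + n ≠ 0 := right_ne_zero_of_mul hprod
  -- the next coefficient
  have hA₂ : (-(W.a₁ * L) - W.a₂ * M + W.a₃ * L ^ 2 + 2 * W.a₄ * L * M - 3 * W.a₆ * L ^ 2 * M)
        * n ^ 3
      = x₁ * (L * n * x₂ + n) * (L * n * x₃ + n) + x₂ * (L * n * x₁ + n) * (L * n * x₃ + n)
        + x₃ * (L * n * x₁ + n) * (L * n * x₂ + n) := by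
    linear_combination (-(W.a₂ * n ^ 2) + 2 * W.a₄ * L * n ^ 2 - 3 * W.a₆ * L ^ 2 * n ^ 2) * hMn
      - 3 * (L * n) ^ 2 * he₃ - 2 * (L * n) * n * he₂ - n ^ 2 * he₁
  have hvA₂ : v (-(W.a₁ * L) - W.a₂ * M + W.a₃ * L ^ 2 + 2 * W.a₄ * L * M
      - 3 * W.a₆ * L ^ 2 * M) ≤ t ^ 2 := by
    have h2 : v (2 : K) ≤ t ^ 0 := bdZero (by simpa using natV (v := v) 2)
    have h3 : v (3 : K) ≤ t ^ 0 := bdZero (by simpa using natV (v := v) 3)
    refine v.map_sub_le (v.map_add_le (v.map_add_le (v.map_sub_le ?_ ?_) ?_) ?_) ?_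
    · rw [v.map_neg]; exact bdLe ht1 2 (bdMul (bdZero hW.a₁) hL')
    · exact bdLe ht1 2 (bdMul (bdZero hW.a₂) hM')
    · exact bdLe ht1 2 (bdMul (bdZero hW.a₃) (bdPow hL' 2))
    · exact bdLe ht1 2 (bdMul (bdMul (bdMul h2 (bdZero hW.a₄)) hL') hM')
    · exact bdLe ht1 2 (bdMul (bdMul (bdMul h3 (bdZero hW.a₆)) (bdPow hL' 2)) hM')
  have hsum : (-x₁ / (L * n * x₁ + n) + -x₂ / (L * n * x₂ + n) + -x₃ / (L * n * x₃ + n))
      * (1 - (W.a₂ * L - W.a₄ * L ^ 2 + W.a₆ * L ^ 3))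
      = -(-(W.a₁ * L) - W.a₂ * M + W.a₃ * L ^ 2 + 2 * W.a₄ * L * M - 3 * W.a₆ * L ^ 2 * M) := by
    apply mul_right_cancel₀ (pow_ne_zero 3 hn)
    rw [mul_assoc, hA₃, neg_mul, hA₂]
    exact sum_div_aux hy₁ hy₂ hy₃
  have hvsum : v (-x₁ / (L * n * x₁ + n) + -x₂ / (L * n * x₂ + n) + -x₃ / (L * n * x₃ + n))
      ≤ t ^ 2 := by
    have := congrArg v hsum
    rw [map_mul, hvA₃, mul_one, v.map_neg] at this
    rw [this]; exact hvA₂
  have hvz₃ : v (-x₃ / (L * n * x₃ + n)) ≤ t := by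
    have e : -x₃ / (L * n * x₃ + n)
        = (-x₁ / (L * n * x₁ + n) + -x₂ / (L * n * x₂ + n) + -x₃ / (L * n * x₃ + n))
          - -x₁ / (L * n * x₁ + n) - -x₂ / (L * n * x₂ + n) := by ring
    rw [e]
    exact v.map_sub_le (v.map_sub_le (by simpa using bdLe ht1 1 hvsum) hz₁) hz₂
  refine ⟨hy₃, hvz₃, ?_, hvsum⟩
  have e : 1 / (L * n * x₃ + n) = M + L * (-x₃ / (L * n * x₃ + n)) := by
    have hY : ∀ Y : K, Y ≠ 0 → Y = L * n * x₃ + n → 1 / Y = M + L * (-x₃ / Y) := by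
      intro Y hY0 hY
      field_simp
      linear_combination (-(L * x₃) - 1) * hMn - M * hY
    exact hY _ hy₃ rfl
  rw [e]
  exact v.map_add_le hM' (bdLe ht1 3 (bdMul hL' (bdOne hvz₃)))

/-! ### Affine points with non-integral `x` -/

lemma val_x_lt_val_y {W : WeierstrassCurve K} (hW : IntCoeff v W) {x y : K}
    (h : W.toAffine.Equation x y) (hx : 1 < v x) : v x < v y := by
  rw [Affine.equation_iff] at h
  by_contra hcon
  push Not at hcon
  have hx1 : (1 : Γ₀) ≤ v x := hx.le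
  have h23 : v x ^ 2 < v x ^ 3 := pow_lt_pow_right₀ hx (by norm_num)
  have hR : v (x ^ 3 + W.a₂ * x ^ 2 + W.a₄ * x + W.a₆) = v x ^ 3 := by
    have h1 : v (W.a₂ * x ^ 2 + W.a₄ * x + W.a₆) ≤ v x ^ 2 := by
      refine v.map_add_le (v.map_add_le ?_ ?_) ?_
      · exact mulR hW.a₂ (by rw [map_pow])
      · exact mulR hW.a₄ (le_self_pow₀ hx1 (by norm_num))
      · exact hW.a₆.trans (one_le_pow₀ hx1)
    have e : x ^ 3 + W.a₂ * x ^ 2 + W.a₄ * x + W.a₆
        = x ^ 3 + (W.a₂ * x ^ 2 + W.a₄ * x + W.a₆) := by ring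
    rw [e, v.map_add_eq_of_lt_left (by rw [map_pow]; exact lt_of_le_of_lt h1 h23), map_pow]
  have hL : v (y ^ 2 + W.a₁ * x * y + W.a₃ * y) ≤ v x ^ 2 := by
    refine v.map_add_le (v.map_add_le ?_ ?_) ?_
    · rw [map_pow]; exact pow_le_pow_left' hcon 2
    · rw [mul_assoc]
      refine mulR hW.a₁ ?_
      rw [map_mul, sq]; exact mul_le_mul' le_rfl hcon
    · refine mulR hW.a₃ (hcon.trans (le_self_pow₀ hx1 (by norm_num)))
  rw [h, hR] at hL
  exact absurd hL (not_le.mpr h23)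

lemma val_x_of_val_y {W : WeierstrassCurve K} (hW : IntCoeff v W) {x y : K}
    (h : W.toAffine.Equation x y) (hy : 1 < v y) : 1 < v x := by
  rw [Affine.equation_iff] at h
  by_contra hcon
  push Not at hcon
  have hR : v (x ^ 3 + W.a₂ * x ^ 2 + W.a₄ * x + W.a₆) ≤ 1 := by
    refine v.map_add_le (v.map_add_le (v.map_add_le ?_ ?_) ?_) hW.a₆
    · rw [map_pow]; exact pow_le_one' hcon 3
    · exact mulR hW.a₂ (by rw [map_pow]; exact pow_le_one' hcon 2)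
    · exact mulR hW.a₄ hcon
  have hL : v (y ^ 2 + W.a₁ * x * y + W.a₃ * y) = v y ^ 2 := by
    have e : y ^ 2 + W.a₁ * x * y + W.a₃ * y = y ^ 2 + (W.a₁ * x + W.a₃) * y := by ring
    rw [e, v.map_add_eq_of_lt_left, map_pow]
    rw [map_mul, map_pow, sq]
    exact mul_lt_mul_of_pos_right
      (lt_of_le_of_lt (v.map_add_le (mulR hW.a₁ hcon) hW.a₃) hy) (zero_lt_one.trans hy)
  rw [h] at hL
  have h1 : 1 < v y ^ 2 := one_lt_pow₀ hy (by norm_num)
  rw [← hL] at h1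
  exact absurd hR (not_le.mpr h1)

/-- Basic facts on the chart coordinates of a point with non-integral `x`. -/
lemma chart_of_point {W : WeierstrassCurve K} (hW : IntCoeff v W) {x y : K}
    (h : W.toAffine.Equation x y) (hx : 1 < v x) :
    x ≠ 0 ∧ y ≠ 0 ∧ v (-x / y) < 1 ∧ v (-1 / y) < 1 ∧ v (-x / y) ≠ 0 := by
  have hxy := val_x_lt_val_y hW h hx
  have hx0 : x ≠ 0 := by
    intro h0; rw [h0, map_zero] at hx; exact absurd hx (not_lt.mpr zero_le_one)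
  have hvy : 0 < v y := lt_trans (lt_trans zero_lt_one hx) hxy
  have hy0 : y ≠ 0 := by
    intro h0; rw [h0, map_zero] at hvy; exact lt_irrefl _ hvy
  refine ⟨hx0, hy0, ?_, ?_, ?_⟩
  · rw [map_div₀, v.map_neg]; exact (div_lt_one₀ hvy).mpr hxy
  · rw [map_div₀, v.map_neg, map_one]; exact (div_lt_one₀ hvy).mpr (lt_trans hx hxy)
  · rw [Ne, map_eq_zero]; exact div_ne_zero (neg_ne_zero.mpr hx0) hy0

/-- The `z`-coordinate of the negative of a point is `-z` up to second order. -/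
lemma neg_coord {W : WeierstrassCurve K} (hW : IntCoeff v W) {x y : K}
    (h : W.toAffine.Equation x y) (hx : 1 < v x) :
    v (-x / W.toAffine.negY x y + -x / y) ≤ v (-x / y) ^ 2 := by
  have hxy := val_x_lt_val_y hW h hx
  obtain ⟨hx0, hy0, -, -, -⟩ := chart_of_point hW h hx
  have hs : v (W.a₁ * x + W.a₃) ≤ v x := v.map_add_le (mulR hW.a₁ le_rfl) (hW.a₃.trans hx.le)
  have hnegY : W.toAffine.negY x y = -(y + (W.a₁ * x + W.a₃)) := by
    simp only [Affine.negY]; ring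
  have hneg : v (W.toAffine.negY x y) = v y := by
    rw [hnegY, v.map_neg, v.map_add_eq_of_lt_left (lt_of_le_of_lt hs hxy)]
  have hvy : v y ≠ 0 := by rwa [Ne, map_eq_zero]
  have hneg0 : W.toAffine.negY x y ≠ 0 := by
    intro h0; rw [h0, map_zero] at hneg; exact hvy hneg.symm
  have e : -x / W.toAffine.negY x y + -x / y
      = x * (W.a₁ * x + W.a₃) / (W.toAffine.negY x y * y) := by
    rw [div_add_div _ _ hneg0 hy0, hnegY]
    congr 1
    ring
  rw [e, map_div₀, map_mul, map_mul, hneg, map_div₀, v.map_neg, div_pow, sq, sq,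
    div_eq_mul_inv, div_eq_mul_inv]
  exact mul_le_mul' (mul_le_mul' le_rfl hs) le_rfl

/-- The tangent line in the chart (doubling case). -/
lemma doubling_identity {W : WeierstrassCurve K} {x y d : K} (h : W.toAffine.Equation x y)
    (hy : y ≠ 0) (hd : d ≠ 0) (hd' : d = 2 * y + W.a₁ * x + W.a₃) :
    (3 * x ^ 2 + 2 * W.a₂ * x + W.a₄ - W.a₁ * y) / d * cD W (-x / y) (-1 / y) (-1 / y)
      + (y - (3 * x ^ 2 + 2 * W.a₂ * x + W.a₄ - W.a₁ * y) / d * x)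
        * cN W (-x / y) (-x / y) (-1 / y) = 0 := by
  rw [Affine.equation_iff] at h
  unfold cD cN
  field_simp
  subst hd'
  linear_combination (3 * (3 * x ^ 2 + 2 * W.a₂ * x + W.a₄ - W.a₁ * y)) * h

end Val

section Vieta

variable {K : Type*} [Field K] [DecidableEq K]

/-- Vieta relations for the chord/tangent line through two points. -/
theorem zVieta (W : Affine K) {x₁ x₂ y₁ y₂ : K} (h₁ : W.Equation x₁ y₁) (h₂ : W.Equation x₂ y₂)
    (hxy : ¬(x₁ = x₂ ∧ y₁ = W.negY x₂ y₂)) :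
    y₂ = W.slope x₁ x₂ y₁ y₂ * x₂ + (y₁ - W.slope x₁ x₂ y₁ y₂ * x₁) ∧
    x₁ + x₂ + W.addX x₁ x₂ (W.slope x₁ x₂ y₁ y₂) =
      W.slope x₁ x₂ y₁ y₂ ^ 2 + W.a₁ * W.slope x₁ x₂ y₁ y₂ - W.a₂ ∧
    x₁ * x₂ + x₁ * W.addX x₁ x₂ (W.slope x₁ x₂ y₁ y₂) + x₂ * W.addX x₁ x₂ (W.slope x₁ x₂ y₁ y₂) =
      W.a₄ - 2 * W.slope x₁ x₂ y₁ y₂ * (y₁ - W.slope x₁ x₂ y₁ y₂ * x₁)
        - W.a₁ * (y₁ - W.slope x₁ x₂ y₁ y₂ * x₁) - W.a₃ * W.slope x₁ x₂ y₁ y₂ ∧
    x₁ * x₂ * W.addX x₁ x₂ (W.slope x₁ x₂ y₁ y₂) =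
      (y₁ - W.slope x₁ x₂ y₁ y₂ * x₁) ^ 2 + W.a₃ * (y₁ - W.slope x₁ x₂ y₁ y₂ * x₁) - W.a₆ := by
  have key := Affine.addPolynomial_slope h₁ h₂ hxy
  rw [Affine.addPolynomial_eq, neg_inj, Cubic.prod_X_sub_C_eq, Cubic.toPoly_injective] at key
  have hc := congrArg Cubic.c key
  have hd := congrArg Cubic.d key
  simp only at hc hd
  refine ⟨?_, ?_, ?_, ?_⟩
  · by_cases hx : x₁ = x₂
    · have hy : y₁ ≠ W.negY x₂ y₂ := fun h => hxy ⟨hx, h⟩
      have := Affine.Y_eq_of_Y_ne h₁ h₂ hx hy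
      subst hx; subst this; ring
    · rw [Affine.slope_of_X_ne hx]
      have : x₁ - x₂ ≠ 0 := sub_ne_zero.mpr hx
      field_simp
      ring
  · simp only [Affine.addX]; ring
  · linear_combination -hc
  · linear_combination hd

end Vieta

section Add

variable {K : Type*} [Field K] [DecidableEq K] {Γ₀ : Type*} [LinearOrderedCommGroupWithZero Γ₀]
  {v : Valuation K Γ₀}

/-- The addition law on points with non-integral `x`, in coordinates: the sum again has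
non-integral `x`, and `z = -x/y` is additive up to second order. -/
lemma add_coord {W : WeierstrassCurve K} (hW : IntCoeff v W) {t : Γ₀} (ht : t < 1)
    {x₁ y₁ x₂ y₂ : K} (h₁ : W.toAffine.Equation x₁ y₁) (h₂ : W.toAffine.Equation x₂ y₂)
    (hx₁ : 1 < v x₁) (hx₂ : 1 < v x₂) (hz₁ : v (-x₁ / y₁) ≤ t) (hz₂ : v (-x₂ / y₂) ≤ t)
    (hxy : ¬(x₁ = x₂ ∧ y₁ = W.toAffine.negY x₂ y₂)) :
    1 < v (W.toAffine.addX x₁ x₂ (W.toAffine.slope x₁ x₂ y₁ y₂)) ∧
    v (-(W.toAffine.addX x₁ x₂ (W.toAffine.slope x₁ x₂ y₁ y₂)) /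
        (W.toAffine.addY x₁ x₂ y₁ (W.toAffine.slope x₁ x₂ y₁ y₂)) - -x₁ / y₁ - -x₂ / y₂)
      ≤ t ^ 2 := by
  have ht1 : t ≤ 1 := ht.le
  obtain ⟨hline₂, he₁, he₂, he₃⟩ := zVieta W.toAffine h₁ h₂ hxy
  have h₃ := Affine.equation_negAdd h₁ h₂ hxy
  obtain ⟨hx₁0, hy₁0, -, hw₁1, -⟩ := chart_of_point hW h₁ hx₁
  obtain ⟨hx₂0, hy₂0, -, hw₂1, -⟩ := chart_of_point hW h₂ hx₂
  have hc₁ := chartEq_of_equation h₁ hy₁0
  have hc₂ := chartEq_of_equation h₂ hy₂0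
  have hw₁ := chart_w_le hW ht hc₁ hz₁ hw₁1
  have hw₂ := chart_w_le hW ht hc₂ hz₂ hw₂1
  have hD : v (cD W (-x₁ / y₁) (-1 / y₁) (-1 / y₂)) = 1 :=
    val_cD hW ht hz₁ (by simpa using bdLe ht1 1 hw₁) (by simpa using bdLe ht1 1 hw₂)
  have hD0 : cD W (-x₁ / y₁) (-1 / y₁) (-1 / y₂) ≠ 0 := by
    intro h; rw [h, map_zero] at hD; exact zero_ne_one hD
  -- the key relation between the line and the chart slope
  have hDN : W.toAffine.slope x₁ x₂ y₁ y₂ * cD W (-x₁ / y₁) (-1 / y₁) (-1 / y₂)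
      + (y₁ - W.toAffine.slope x₁ x₂ y₁ y₂ * x₁) * cN W (-x₁ / y₁) (-x₂ / y₂) (-1 / y₂) = 0 := by
    by_cases hx : x₁ = x₂
    · have hy : y₁ ≠ W.toAffine.negY x₂ y₂ := fun h => hxy ⟨hx, h⟩
      have hyy := Affine.Y_eq_of_Y_ne h₁ h₂ hx hy
      subst hx; subst hyy
      rw [Affine.slope_of_Y_ne rfl hy]
      exact doubling_identity h₁ hy₁0 (sub_ne_zero.mpr hy) (by simp only [Affine.negY]; ring)
    · generalize W.toAffine.slope x₁ x₂ y₁ y₂ = l at *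
      have hl₁ : l * (-x₁ / y₁) + (y₁ - l * x₁) * (-1 / y₁) = -1 := by field_simp; ring
      have hl₂ : l * (-x₂ / y₂) + (y₁ - l * x₁) * (-1 / y₂) = -1 := by
        field_simp; linear_combination hline₂
      have hpair := chart_pair hc₁ hc₂
      have hz : -x₂ / y₂ - -x₁ / y₁ ≠ 0 := by
        intro hz
        rw [hz, zero_mul] at hpair
        have hw : -1 / y₂ - -1 / y₁ = 0 := (mul_eq_zero.mp hpair).resolve_right hD0
        have hyy : y₁ = y₂ := by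
          have := (div_eq_div_iff hy₂0 hy₁0).mp (sub_eq_zero.mp hw)
          linear_combination (-1 : K) * this
        rw [hyy] at hz
        have := (div_eq_div_iff hy₂0 hy₂0).mp (sub_eq_zero.mp hz)
        exact hx (neg_inj.mp (mul_right_cancel₀ hy₂0 this)).symm
      apply mul_left_cancel₀ hz
      rw [mul_zero]
      linear_combination (-(y₁ - l * x₁)) * hpair
        + cD W (-x₁ / y₁) (-1 / y₁) (-1 / y₂) * (hl₂ - hl₁)
  rw [Affine.addY] 
  have hy₃eq : ∀ l : K, W.toAffine.negAddY x₁ x₂ y₁ l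
      = l * W.toAffine.addX x₁ x₂ l + (y₁ - l * x₁) := by
    intro l; simp only [Affine.negAddY]; ring
  rw [hy₃eq] at h₃ ⊢
  generalize W.toAffine.slope x₁ x₂ y₁ y₂ = l at *
  generalize W.toAffine.addX x₁ x₂ l = x₃ at *
  have hl₁ : l * (-x₁ / y₁) + (y₁ - l * x₁) * (-1 / y₁) = -1 := by field_simp; ring
  obtain ⟨hn0, hL, hM⟩ := line_bounds hW ht hz₁ hz₂ hw₁ hw₂ hl₁ hDN
  have hline₁ : y₁ = l * x₁ + (y₁ - l * x₁) := by ring
  have hy₁' : l * x₁ + (y₁ - l * x₁) ≠ 0 := by rwa [← hline₁]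
  have hy₂' : l * x₂ + (y₁ - l * x₁) ≠ 0 := by rwa [← hline₂]
  obtain ⟨hy₃, hz₃, hw₃, hsum⟩ := third_point hW ht hn0 hL hM he₁ he₂ he₃ hy₁' hy₂'
    (by rwa [← hline₁]) (by rwa [← hline₂])
  rw [← hline₁, ← hline₂] at hsum
  have hvy₃ : 1 < v (l * x₃ + (y₁ - l * x₁)) := by
    by_contra hcon
    push Not at hcon
    have h3 : v (1 / (l * x₃ + (y₁ - l * x₁))) < 1 :=
      lt_of_le_of_lt (by simpa using bdLe ht1 1 hw₃) ht
    have h4 : v (1 / (l * x₃ + (y₁ - l * x₁))) * v (l * x₃ + (y₁ - l * x₁)) = 1 := by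
      rw [← map_mul, one_div_mul_cancel hy₃, map_one]
    have h5 : v (1 / (l * x₃ + (y₁ - l * x₁))) * v (l * x₃ + (y₁ - l * x₁)) < 1 :=
      mul_lt_one_of_lt_of_le h3 hcon
    rw [h4] at h5
    exact lt_irrefl _ h5
  have hvx₃ : 1 < v x₃ := val_x_of_val_y hW h₃ hvy₃
  refine ⟨hvx₃, ?_⟩
  have hneg := neg_coord hW h₃ hvx₃
  have e : -x₃ / W.toAffine.negY x₃ (l * x₃ + (y₁ - l * x₁)) - -x₁ / y₁ - -x₂ / y₂
      = (-x₃ / W.toAffine.negY x₃ (l * x₃ + (y₁ - l * x₁)) + -x₃ / (l * x₃ + (y₁ - l * x₁)))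
        - (-x₁ / y₁ + -x₂ / y₂ + -x₃ / (l * x₃ + (y₁ - l * x₁))) := by ring
  rw [e]
  exact v.map_sub_le (hneg.trans (pow_le_pow_left' hz₃ 2)) hsum

/-! ### Points -/

/-- The local parameter `z = -x/y` at infinity, extended by `z(O) = 0`. -/
noncomputable def zOf {W : WeierstrassCurve K} : W.toAffine.Point → K
  | .zero => 0
  | .some x y _ => -x / y

/-- The kernel of reduction with respect to a valuation. -/
def InE1v (v : Valuation K Γ₀) {W : WeierstrassCurve K} : W.toAffine.Point → Prop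
  | .zero => True
  | .some x _ _ => 1 < v x

omit [DecidableEq K] in
@[simp] lemma zOf_zero {W : WeierstrassCurve K} : zOf (0 : W.toAffine.Point) = 0 := rfl

omit [DecidableEq K] in
@[simp] lemma zOf_some {W : WeierstrassCurve K} {x y : K} (h : W.toAffine.Nonsingular x y) :
    zOf (Affine.Point.some x y h) = -x / y := rfl

omit [DecidableEq K] in
@[simp] lemma inE1v_zero {W : WeierstrassCurve K} : InE1v v (0 : W.toAffine.Point) := trivial

omit [DecidableEq K] in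
@[simp] lemma inE1v_some {W : WeierstrassCurve K} {x y : K} (h : W.toAffine.Nonsingular x y) :
    InE1v v (Affine.Point.some x y h) ↔ 1 < v x := Iff.rfl

omit [DecidableEq K] in
lemma val_zOf_lt_one {W : WeierstrassCurve K} (hW : IntCoeff v W) (P : W.toAffine.Point)
    (hP : InE1v v P) : v (zOf P) < 1 := by
  rcases P with _ | ⟨x, y, h⟩
  · change v 0 < 1
    rw [map_zero]; exact zero_lt_one
  · exact (chart_of_point hW h.1 hP).2.2.1

/-- The kernel of reduction is closed under addition, and `z` is additive up to second order. -/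
theorem add_pt {W : WeierstrassCurve K} (hW : IntCoeff v W) {t : Γ₀} (ht : t < 1)
    (P Q : W.toAffine.Point) (hP : InE1v v P) (hQ : InE1v v Q)
    (hzP : v (zOf P) ≤ t) (hzQ : v (zOf Q) ≤ t) :
    InE1v v (P + Q) ∧ v (zOf (P + Q) - zOf P - zOf Q) ≤ t ^ 2 := by
  rcases P with _ | ⟨x₁, y₁, h₁⟩
  · change InE1v v (0 + Q) ∧ v (zOf (0 + Q) - 0 - zOf Q) ≤ t ^ 2
    rw [zero_add]
    exact ⟨hQ, by simp⟩
  rcases Q with _ | ⟨x₂, y₂, h₂⟩
  · change InE1v v (Affine.Point.some x₁ y₁ h₁ + 0) ∧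
      v (zOf (Affine.Point.some x₁ y₁ h₁ + 0) - zOf (Affine.Point.some x₁ y₁ h₁) - 0) ≤ t ^ 2
    rw [add_zero]
    exact ⟨hP, by simp⟩
  by_cases hxy : x₁ = x₂ ∧ y₁ = W.toAffine.negY x₂ y₂
  · rw [Affine.Point.add_of_Y_eq hxy.1 hxy.2]
    refine ⟨trivial, ?_⟩
    obtain ⟨rfl, rfl⟩ := hxy
    have hneg := neg_coord hW h₂.1 hQ
    rw [zOf_zero, zOf_some, zOf_some]
    have e : (0 : K) - -x₁ / W.toAffine.negY x₁ y₂ - -x₁ / y₂
        = -(-x₁ / W.toAffine.negY x₁ y₂ + -x₁ / y₂) := by ring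
    rw [e, v.map_neg]
    exact hneg.trans (pow_le_pow_left' hzQ 2)
  · rw [Affine.Point.add_some hxy]
    exact add_coord hW ht h₁.1 h₂.1 hP hQ hzP hzQ hxy

/-- Multiples of a point of the kernel of reduction: `z (k • P) ≡ k * z P` up to second order. -/
theorem nsmul_pt {W : WeierstrassCurve K} (hW : IntCoeff v W) (P : W.toAffine.Point)
    (hP : InE1v v P) (k : ℕ) :
    InE1v v (k • P) ∧ v (zOf (k • P) - k * zOf P) ≤ v (zOf P) ^ 2 := by
  have hz : v (zOf P) < 1 := val_zOf_lt_one hW P hP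
  induction k with
  | zero => simp
  | succ k ih =>
    obtain ⟨ih1, ih2⟩ := ih
    have hk : v (zOf (k • P)) ≤ v (zOf P) := by
      have e : zOf (k • P) = (zOf (k • P) - k * zOf P) + k * zOf P := by ring
      rw [e]
      refine v.map_add_le (ih2.trans ?_) (mulR (natV k) le_rfl)
      exact (pow_le_pow_right_of_le_one' hz.le (by norm_num : 1 ≤ 2)).trans (pow_one _).le
    obtain ⟨a1, a2⟩ := add_pt hW hz (k • P) P ih1 hP hk le_rfl
    rw [succ_nsmul]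
    refine ⟨a1, ?_⟩
    have e : zOf (k • P + P) - ((k + 1 : ℕ) : K) * zOf P
        = (zOf (k • P + P) - zOf (k • P) - zOf P) + (zOf (k • P) - k * zOf P) := by
      push_cast; ring
    rw [e]
    exact v.map_add_le a2 ih2

/-- **F1**, valuation version: a point with non-integral `x` is not killed by an integer which is
a unit for the valuation. -/
theorem F1_val {W : WeierstrassCurve K} (hW : IntCoeff v W) {n : ℕ} (hn : v (n : K) = 1)
    {x y : K} (h : W.toAffine.Nonsingular x y) (hx : 1 < v x) :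
    n • (Affine.Point.some x y h) ≠ 0 := by
  intro h0
  have hP : InE1v v (Affine.Point.some x y h) := hx
  obtain ⟨-, h2⟩ := nsmul_pt hW _ hP n
  obtain ⟨-, -, hz1, -, hz0⟩ := chart_of_point hW h.1 hx
  rw [h0, zOf_zero, zOf_some, zero_sub, v.map_neg, map_mul, hn, one_mul] at h2
  have hpos : 0 < v (-x / y) := zero_lt_iff.mpr hz0
  have h3 : v (-x / y) ^ 2 < v (-x / y) := by
    have := mul_lt_mul_of_pos_right hz1 hpos
    rwa [one_mul, ← sq] at this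
  exact absurd h2 (not_le.mpr h3)

end Add

end FormalGroup

/-! ### Statements for a valuation subring -/

section Subring

open WeierstrassCurve Fermat.Agent.S05.FormalGroup

variable {K : Type*} [Field K]

lemma FormalGroup.intCoeff_of_mem (A : ValuationSubring K) (W : WeierstrassCurve K)
    (h₁ : W.a₁ ∈ A) (h₂ : W.a₂ ∈ A) (h₃ : W.a₃ ∈ A) (h₄ : W.a₄ ∈ A) (h₆ : W.a₆ ∈ A) :
    IntCoeff A.valuation W :=
  ⟨(A.valuation_le_one_iff _).mpr h₁, (A.valuation_le_one_iff _).mpr h₂,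
    (A.valuation_le_one_iff _).mpr h₃, (A.valuation_le_one_iff _).mpr h₄,
    (A.valuation_le_one_iff _).mpr h₆⟩

lemma FormalGroup.inE1_iff (A : ValuationSubring K) {W : WeierstrassCurve K}
    (P : W.toAffine.Point) : InE1 A P ↔ InE1v A.valuation P := by
  rcases P with _ | ⟨x, y, h⟩
  · exact Iff.rfl
  · change x ∉ A ↔ 1 < A.valuation x
    rw [← not_le, A.valuation_le_one_iff]

/-- The kernel of reduction is closed under negation. -/
theorem inE1_neg (A : ValuationSubring K) {W : WeierstrassCurve K}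
    {P : W.toAffine.Point} (hP : InE1 A P) : InE1 A (-P) := by
  rcases P with _ | ⟨x, y, h⟩
  · exact trivial
  · exact hP

variable [DecidableEq K]

/-- **F1** (general Weierstrass curve with coefficients in `A`): an affine point with
non-integral `x` is not killed by an integer `n` which is a unit of `A`. -/
theorem F1 (A : ValuationSubring K) (W : WeierstrassCurve K)
    (h₁ : W.a₁ ∈ A) (h₂ : W.a₂ ∈ A) (h₃ : W.a₃ ∈ A) (h₄ : W.a₄ ∈ A) (h₆ : W.a₆ ∈ A)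
    {n : ℕ} (hn : A.valuation (n : K) = 1)
    {x y : K} (h : W.toAffine.Nonsingular x y) (hx : x ∉ A) :
    n • (Affine.Point.some x y h) ≠ 0 :=
  F1_val (intCoeff_of_mem A W h₁ h₂ h₃ h₄ h₆) hn h
    (by rwa [← not_le, A.valuation_le_one_iff])

/-- **F1** in terms of `InE1`: the kernel of reduction has no `n`-torsion for `n` a unit of `A`. -/
theorem F1_inE1 (A : ValuationSubring K) (W : WeierstrassCurve K)
    (h₁ : W.a₁ ∈ A) (h₂ : W.a₂ ∈ A) (h₃ : W.a₃ ∈ A) (h₄ : W.a₄ ∈ A) (h₆ : W.a₆ ∈ A)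
    {n : ℕ} (hn : A.valuation (n : K) = 1)
    {P : W.toAffine.Point} (hP : InE1 A P) (hnP : n • P = 0) : P = 0 := by
  rcases P with _ | ⟨x, y, h⟩
  · rfl
  · exact absurd hnP (F1 A W h₁ h₂ h₃ h₄ h₆ hn h hP)

/-- The kernel of reduction is closed under addition. -/
theorem inE1_add (A : ValuationSubring K) (W : WeierstrassCurve K)
    (h₁ : W.a₁ ∈ A) (h₂ : W.a₂ ∈ A) (h₃ : W.a₃ ∈ A) (h₄ : W.a₄ ∈ A) (h₆ : W.a₆ ∈ A)
    {P Q : W.toAffine.Point} (hP : InE1 A P) (hQ : InE1 A Q) : InE1 A (P + Q) := by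
  have hW := intCoeff_of_mem A W h₁ h₂ h₃ h₄ h₆
  rw [inE1_iff] at hP hQ ⊢
  have hzP := val_zOf_lt_one hW P hP
  have hzQ := val_zOf_lt_one hW Q hQ
  exact (add_pt hW (max_lt hzP hzQ) P Q hP hQ (le_max_left _ _) (le_max_right _ _)).1

/-- The kernel of reduction is closed under subtraction. -/
theorem inE1_sub (A : ValuationSubring K) (W : WeierstrassCurve K)
    (h₁ : W.a₁ ∈ A) (h₂ : W.a₂ ∈ A) (h₃ : W.a₃ ∈ A) (h₄ : W.a₄ ∈ A) (h₆ : W.a₆ ∈ A)
    {P Q : W.toAffine.Point} (hP : InE1 A P) (hQ : InE1 A Q) : InE1 A (P - Q) := by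
  rw [sub_eq_add_neg]
  exact inE1_add A W h₁ h₂ h₃ h₄ h₆ hP (inE1_neg A hQ)

/-- **F1** (short-curve version; this is all that is needed downstream).
A point of `y² = x³ + αx² + βx` (`α, β ∈ A`) with non-integral `x` is not killed by an integer `n`
which is a unit of `A`. -/
theorem F1_short (A : ValuationSubring K) (α β : K) (hα : α ∈ A) (hβ : β ∈ A)
    (n : ℕ) (hn : A.valuation (n : K) = 1)
    {x y : K} (h : (shortCurve α β).toAffine.Nonsingular x y) (hx : x ∉ A) :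
    n • (Affine.Point.some x y h) ≠ 0 :=
  F1 A (shortCurve α β) A.zero_mem hα A.zero_mem hβ A.zero_mem hn h hx

end Subring

end Fermat.Agent.S05
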