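/-
S05 team, Plan A: definitions for the "abstract collinear triples" analysis (owner: helper5).

Normalised nodal model `y² = x (x - 4r) (4x + 1)` over a valued field, `r ∈ m`, `r ≠ 0`, `2` a unit.
It is the curve `Y² = X (X - e₁) (X - e₂)` (`e₁ ∈ m`, `e₂` unit, `b² = -e₂`) in the coordinates
`x = -X / (4 e₂)`, `y = -Y / (4 b e₂)`, `r = -e₁ / (16 e₂)`.
-/
import Fermat.Agent.S05.Defs

set_option autoImplicit false

namespace Fermat.Agent.S05

variable {K : Type*} [Field K]

/-- Standing hypotheses on the parameter `r` of the normalised nodal model. -/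
structure NodeHyp (A : ValuationSubring K) (r : K) : Prop where
  two : A.valuation (2 : K) = 1
  r_mem : r ∈ A.nonunits
  r_ne : r ≠ 0

/-- The normalised nodal curve `y² = x (x - 4r) (4x + 1)`. -/
def OnNode (r x y : K) : Prop := y ^ 2 = x * (x - 4 * r) * (4 * x + 1)

open Classical in
/-- Approximate Tate parameter ("`u` mod `(1 + m) r^(2ℤ)`") of the affine point `(x, y)` of the
normalised nodal curve.  With `a = (x + y - 2r)/2`, `b = (x - y - 2r)/2` (so `a b = r² - x²(x-4r)`):
* `x ∉ m` (nonsingular reduction, or kernel of reduction): `-b / a`;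
* `x ∈ m`, `|x| ≤ |r|` ("middle component"): `a`;
* `|r| < |x| < 1`, `y ≈ x` ("plus side"): `x`;
* `|r| < |x| < 1`, otherwise (then `y ≈ -x`, "minus side"): `r² / x`. -/
noncomputable def lamT (A : ValuationSubring K) (r x y : K) : K :=
  if x ∉ A.nonunits then -(x - y - 2 * r) / (x + y - 2 * r)
  else if x / r ∈ A then (x + y - 2 * r) / 2
  else if (y - x) / x ∈ A.nonunits then x
  else r ^ 2 / x

/-- `u ∈ (1 + m) · r^(2ℤ)`. -/
def InU (A : ValuationSubring K) (r u : K) : Prop :=
  ∃ j : ℤ, u * (r ^ 2) ^ j - 1 ∈ A.nonunits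

/-- Three points of the normalised nodal curve on the line `y = l x + n`, being the three
intersection points counted with multiplicity (Vieta relations for
`x (x - 4r) (4x + 1) - (l x + n)² = 4 (x - x₁) (x - x₂) (x - x₃)`). -/
structure Collinear3 (r x₁ y₁ x₂ y₂ x₃ y₃ l n : K) : Prop where
  on₁ : OnNode r x₁ y₁
  on₂ : OnNode r x₂ y₂
  on₃ : OnNode r x₃ y₃
  line₁ : y₁ = l * x₁ + n
  line₂ : y₂ = l * x₂ + n
  line₃ : y₃ = l * x₃ + n
  vieta₁ : x₁ + x₂ + x₃ = (l ^ 2 - 1 + 16 * r) / 4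
  vieta₂ : x₁ * x₂ + x₁ * x₃ + x₂ * x₃ = -r - l * n / 2
  vieta₃ : x₁ * x₂ * x₃ = n ^ 2 / 4

end Fermat.Agent.S05
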