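/-
S05 team, Plan A, block ACTBasic (owner: helper18): basic facts on `lamT`, `InU`.
-/
import Fermat.Agent.S05.ACTDefs

set_option autoImplicit false

namespace Fermat.Agent.S05

variable {K : Type*} [Field K]

/-! ### Helper lemmas (namespace `ACTB`), reusable by the other ACT blocks -/

namespace ACTB

variable {A : ValuationSubring K} {r x y : K}

theorem mem_m_iff {z : K} : z ∈ A.nonunits ↔ A.valuation z < 1 :=
  A.mem_nonunits_iff

theorem not_mem_m_iff {z : K} : z ∉ A.nonunits ↔ 1 ≤ A.valuation z := by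
  rw [mem_m_iff, not_lt]

theorem mem_A_iff {z : K} : z ∈ A ↔ A.valuation z ≤ 1 :=
  (A.valuation_le_one_iff z).symm

theorem not_mem_A_iff {z : K} : z ∉ A ↔ 1 < A.valuation z := by
  rw [mem_A_iff, not_le]

theorem v_r_lt (hN : NodeHyp A r) : A.valuation r < 1 := mem_m_iff.1 hN.r_mem

theorem v_r_ne (hN : NodeHyp A r) : A.valuation r ≠ 0 :=
  (Valuation.ne_zero_iff _).2 hN.r_ne

theorem v_r_pos (hN : NodeHyp A r) : 0 < A.valuation r :=
  zero_lt_iff.2 (v_r_ne hN)

theorem v_four (hN : NodeHyp A r) : A.valuation (4 : K) = 1 := by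
  have : (4 : K) = 2 * 2 := by norm_num
  rw [this, map_mul, hN.two, one_mul]

theorem v_two_mul (hN : NodeHyp A r) (z : K) : A.valuation (2 * z) = A.valuation z := by
  rw [map_mul, hN.two, one_mul]

theorem v_four_mul (hN : NodeHyp A r) (z : K) : A.valuation (4 * z) = A.valuation z := by
  rw [map_mul, v_four hN, one_mul]

theorem v_div_two (hN : NodeHyp A r) (z : K) : A.valuation (z / 2) = A.valuation z := by
  rw [map_div₀, hN.two, div_one]

theorem two_ne (hN : NodeHyp A r) : (2 : K) ≠ 0 :=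
  (Valuation.ne_zero_iff A.valuation).1 (by rw [hN.two]; exact one_ne_zero)

theorem four_ne (hN : NodeHyp A r) : (4 : K) ≠ 0 :=
  (Valuation.ne_zero_iff A.valuation).1 (by rw [v_four hN]; exact one_ne_zero)

theorem v_natCast_le (A : ValuationSubring K) (k : ℕ) : A.valuation (k : K) ≤ 1 :=
  mem_A_iff.1 (natCast_mem A k)

/-- The basic identity `(x + y - 2r)(x - y - 2r) = 4 (r² + 4 r x² - x³)` on the curve. -/
theorem ab_eq (h : OnNode r x y) :
    (x + y - 2 * r) * (x - y - 2 * r) = 4 * (r ^ 2 + 4 * r * x ^ 2 - x ^ 3) := by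
  unfold OnNode at h
  linear_combination -h

theorem onNode_neg (h : OnNode r x y) : OnNode r x (-y) := by
  unfold OnNode at h ⊢
  rw [neg_sq]; exact h

/-! #### evaluation of `lamT` in the four regions -/

theorem lamT_out (hx : x ∉ A.nonunits) :
    lamT A r x y = -(x - y - 2 * r) / (x + y - 2 * r) := by
  unfold lamT; rw [if_pos hx]

theorem lamT_mid (hx : x ∈ A.nonunits) (hm : x / r ∈ A) :
    lamT A r x y = (x + y - 2 * r) / 2 := by
  unfold lamT; rw [if_neg (not_not.2 hx), if_pos hm]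

theorem lamT_plus (hx : x ∈ A.nonunits) (hm : x / r ∉ A) (hp : (y - x) / x ∈ A.nonunits) :
    lamT A r x y = x := by
  unfold lamT; rw [if_neg (not_not.2 hx), if_neg hm, if_pos hp]

theorem lamT_minus (hx : x ∈ A.nonunits) (hm : x / r ∉ A) (hp : (y - x) / x ∉ A.nonunits) :
    lamT A r x y = r ^ 2 / x := by
  unfold lamT; rw [if_neg (not_not.2 hx), if_neg hm, if_neg hp]


/-! #### ordered-group lemmas -/

theorem G_eq_of_le_of_le_of_mul_eq {Γ : Type*} [LinearOrderedCommGroupWithZero Γ]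
    {α β γ : Γ} (hα : α ≤ γ) (hβ : β ≤ γ) (h : α * β = γ * γ) (hγ : γ ≠ 0) : α = γ := by
  rcases hα.lt_or_eq with hlt | heq
  · exfalso
    have : α * β < γ * γ :=
      lt_of_lt_of_le (mul_lt_mul_of_pos_right hlt (zero_lt_iff.2 ?_)) (mul_le_mul' le_rfl hβ)
    · exact absurd h this.ne
    · rintro rfl
      rw [mul_zero] at h
      exact hγ (mul_self_eq_zero.1 h.symm)
  · exact heq

theorem G_no_zpow {Γ : Type*} [LinearOrderedCommGroupWithZero Γ]
    {ρ g : Γ} (hρ0 : 0 < ρ) (hρ1 : ρ < 1) (h1 : ρ ^ 2 < g) (h2 : g < 1) (j : ℤ) :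
    g * (ρ ^ 2) ^ j ≠ 1 := by
  have hρ2 : ρ ^ 2 < 1 := pow_lt_one₀ zero_le hρ1 (by norm_num)
  have hρ20 : 0 < ρ ^ 2 := pow_pos hρ0 2
  intro h
  rcases le_or_gt 0 j with hj | hj
  · have : (ρ ^ 2) ^ j ≤ 1 := zpow_le_one₀ hρ20 hρ2.le hj
    have : g * (ρ ^ 2) ^ j < 1 := by
      calc g * (ρ ^ 2) ^ j ≤ g * 1 := mul_le_mul' le_rfl this
        _ = g := mul_one g
        _ < 1 := h2
    exact absurd h this.ne
  · have hj' : j + 1 ≤ 0 := by omega
    have h3 : 1 ≤ (ρ ^ 2) ^ (j + 1) := one_le_zpow_of_nonpos₀ hρ20 hρ2.le hj'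
    have h4 : (ρ ^ 2) ^ (j + 1) = (ρ ^ 2) ^ j * ρ ^ 2 := by
      rw [zpow_add₀ hρ20.ne', zpow_one]
    have : 1 < g * (ρ ^ 2) ^ j := by
      have h5 : ρ ^ 2 * (ρ ^ 2) ^ j < g * (ρ ^ 2) ^ j :=
        mul_lt_mul_of_pos_right h1 (zpow_pos hρ20 j)
      calc 1 ≤ (ρ ^ 2) ^ (j + 1) := h3
        _ = ρ ^ 2 * (ρ ^ 2) ^ j := by rw [h4, mul_comm]
        _ < g * (ρ ^ 2) ^ j := h5
    exact absurd h this.ne'

/-- If `u ∈ U` then `v(u) · v(r²)^j = 1` for some `j`. -/
theorem InU_val {u : K} (hu : InU A r u) :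
    ∃ j : ℤ, A.valuation u * (A.valuation r ^ 2) ^ j = 1 ∧
      A.valuation (u * (r ^ 2) ^ j - 1) < 1 := by
  obtain ⟨j, hj⟩ := hu
  rw [mem_m_iff] at hj
  refine ⟨j, ?_, hj⟩
  have h1 := Valuation.map_one_add_of_lt _ hj
  rw [add_sub_cancel] at h1
  rw [← map_pow, ← map_zpow₀, ← map_mul]
  exact h1

/-! #### the region `x ∉ m` -/

theorem v_x_ne_out (hx : x ∉ A.nonunits) : A.valuation x ≠ 0 := by
  have := not_mem_m_iff.1 hx
  exact (lt_of_lt_of_le zero_lt_one this).ne'

theorem v_ab_out (hN : NodeHyp A r) (h : OnNode r x y) (hx : x ∉ A.nonunits) :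
    A.valuation ((x + y - 2 * r) * (x - y - 2 * r)) = A.valuation x ^ 3 := by
  have h1 : 1 ≤ A.valuation x := not_mem_m_iff.1 hx
  have hr := v_r_lt hN
  rw [ab_eq h, v_four_mul hN]
  have h3 : A.valuation (r ^ 2 + 4 * r * x ^ 2) < A.valuation (x ^ 3) := by
    apply Valuation.map_add_lt _
    · rw [map_pow, map_pow]
      exact lt_of_lt_of_le (pow_lt_one₀ zero_le hr (by norm_num)) (one_le_pow₀ h1)
    · rw [mul_assoc, v_four_mul hN, map_mul, map_pow, map_pow]
      calc A.valuation r * A.valuation x ^ 2 < 1 * A.valuation x ^ 2 :=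
            mul_lt_mul_of_pos_right hr (pow_pos (lt_of_lt_of_le zero_lt_one h1) 2)
        _ = A.valuation x ^ 2 := one_mul _
        _ ≤ A.valuation x ^ 3 := pow_le_pow_right₀ h1 (by norm_num)
  rw [Valuation.map_sub_eq_of_lt_right _ h3, map_pow]

theorem a_ne_out (hN : NodeHyp A r) (h : OnNode r x y) (hx : x ∉ A.nonunits) :
    x + y - 2 * r ≠ 0 := by
  intro h0
  have := v_ab_out hN h hx
  rw [h0, zero_mul, map_zero] at this
  exact pow_ne_zero 3 (v_x_ne_out hx) this.symm

theorem b_ne_out (hN : NodeHyp A r) (h : OnNode r x y) (hx : x ∉ A.nonunits) :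
    x - y - 2 * r ≠ 0 := by
  intro h0
  have := v_ab_out hN h hx
  rw [h0, mul_zero, map_zero] at this
  exact pow_ne_zero 3 (v_x_ne_out hx) this.symm

theorem v_y_sq_le_out (hN : NodeHyp A r) (h : OnNode r x y) (hx : x ∉ A.nonunits) :
    A.valuation y ^ 2 ≤ A.valuation x ^ 3 := by
  have h1 : 1 ≤ A.valuation x := not_mem_m_iff.1 hx
  have hr := v_r_lt hN
  unfold OnNode at h
  rw [← map_pow, h, map_mul, map_mul]
  have e1 : A.valuation (x - 4 * r) ≤ A.valuation x := by
    apply Valuation.map_sub_le _ le_rfl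
    rw [v_four_mul hN]; exact (hr.trans_le h1).le
  have e2 : A.valuation (4 * x + 1) ≤ A.valuation x := by
    apply Valuation.map_add_le _
    · rw [v_four_mul hN]
    · rw [map_one]; exact h1
  calc A.valuation x * A.valuation (x - 4 * r) * A.valuation (4 * x + 1)
      ≤ A.valuation x * A.valuation x * A.valuation x := mul_le_mul' (mul_le_mul' le_rfl e1) e2
    _ = A.valuation x ^ 3 := (pow_three' _).symm

theorem v_a_sq_le_out (hN : NodeHyp A r) (h : OnNode r x y) (hx : x ∉ A.nonunits) :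
    A.valuation (x + y - 2 * r) ^ 2 ≤ A.valuation x ^ 3 := by
  have h1 : 1 ≤ A.valuation x := not_mem_m_iff.1 hx
  have hr := v_r_lt hN
  have hy := v_y_sq_le_out hN h hx
  rcases le_total (A.valuation y) (A.valuation x) with hyx | hxy
  · have : A.valuation (x + y - 2 * r) ≤ A.valuation x := by
      apply Valuation.map_sub_le _ (Valuation.map_add_le _ le_rfl hyx)
      rw [v_two_mul hN]; exact (hr.trans_le h1).le
    calc A.valuation (x + y - 2 * r) ^ 2 ≤ A.valuation x ^ 2 := pow_le_pow_left₀ zero_le this 2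
      _ ≤ A.valuation x ^ 3 := pow_le_pow_right₀ h1 (by norm_num)
  · have : A.valuation (x + y - 2 * r) ≤ A.valuation y := by
      apply Valuation.map_sub_le _ (Valuation.map_add_le _ hxy le_rfl)
      rw [v_two_mul hN]; exact ((hr.trans_le h1).trans_le hxy).le
    exact (pow_le_pow_left₀ zero_le this 2).trans hy

theorem v_a_sq_out (hN : NodeHyp A r) (h : OnNode r x y) (hx : x ∉ A.nonunits) :
    A.valuation (x + y - 2 * r) ^ 2 = A.valuation x ^ 3 := by
  have ha := v_a_sq_le_out hN h hx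
  have hb := v_a_sq_le_out hN (onNode_neg h) hx
  have hab := v_ab_out hN h hx
  have e : x + -y - 2 * r = x - y - 2 * r := by ring
  rw [e] at hb
  refine G_eq_of_le_of_le_of_mul_eq ha hb ?_ (pow_ne_zero 3 (v_x_ne_out hx))
  rw [← mul_pow, ← map_mul, hab]; exact sq _

theorem v_b_sq_out (hN : NodeHyp A r) (h : OnNode r x y) (hx : x ∉ A.nonunits) :
    A.valuation (x - y - 2 * r) ^ 2 = A.valuation x ^ 3 := by
  have := v_a_sq_out hN (onNode_neg h) hx
  have e : x + -y - 2 * r = x - y - 2 * r := by ring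
  rwa [e] at this


/-! #### the region `x ∈ m` -/

theorem v_four_x_add_one (hN : NodeHyp A r) (hx : x ∈ A.nonunits) :
    A.valuation (4 * x + 1) = 1 := by
  rw [add_comm]
  exact Valuation.map_one_add_of_lt _ (by rw [v_four_mul hN]; exact mem_m_iff.1 hx)

theorem v_x_sub_lt_node (hN : NodeHyp A r) (hx : x ∈ A.nonunits) :
    A.valuation (x - 4 * r) < 1 :=
  Valuation.map_sub_lt _ (mem_m_iff.1 hx) (by rw [v_four_mul hN]; exact v_r_lt hN)

theorem v_y_sq_node (hN : NodeHyp A r) (h : OnNode r x y) (hx : x ∈ A.nonunits) :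
    A.valuation y ^ 2 = A.valuation x * A.valuation (x - 4 * r) := by
  unfold OnNode at h
  rw [← map_pow, h, map_mul, map_mul, v_four_x_add_one hN hx, mul_one]

theorem v_y_lt_node (hN : NodeHyp A r) (h : OnNode r x y) (hx : x ∈ A.nonunits) :
    A.valuation y < 1 := by
  by_contra hcon
  rw [not_lt] at hcon
  have h1 : 1 ≤ A.valuation y ^ 2 := one_le_pow₀ hcon
  rw [v_y_sq_node hN h hx] at h1
  have h2 : A.valuation x * A.valuation (x - 4 * r) < 1 := by
    calc A.valuation x * A.valuation (x - 4 * r) ≤ A.valuation x * 1 :=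
          mul_le_mul' le_rfl (v_x_sub_lt_node hN hx).le
      _ = A.valuation x := mul_one _
      _ < 1 := mem_m_iff.1 hx
  exact absurd h1 (not_le.2 h2)

theorem v_a_lt_node (hN : NodeHyp A r) (h : OnNode r x y) (hx : x ∈ A.nonunits) :
    A.valuation (x + y - 2 * r) < 1 :=
  Valuation.map_sub_lt _ (Valuation.map_add_lt _ (mem_m_iff.1 hx) (v_y_lt_node hN h hx))
    (by rw [v_two_mul hN]; exact v_r_lt hN)

theorem v_b_lt_node (hN : NodeHyp A r) (h : OnNode r x y) (hx : x ∈ A.nonunits) :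
    A.valuation (x - y - 2 * r) < 1 :=
  Valuation.map_sub_lt _ (Valuation.map_sub_lt _ (mem_m_iff.1 hx) (v_y_lt_node hN h hx))
    (by rw [v_two_mul hN]; exact v_r_lt hN)

/-! #### the middle region `x ∈ m`, `x / r ∈ A` -/

theorem v_x_le_mid (hN : NodeHyp A r) (hm : x / r ∈ A) : A.valuation x ≤ A.valuation r := by
  have := mem_A_iff.1 hm
  rw [map_div₀] at this
  exact (div_le_one₀ (v_r_pos hN)).1 this

theorem v_rest_lt_mid (hN : NodeHyp A r) (hx : x ∈ A.nonunits) (hm : x / r ∈ A) :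
    A.valuation (4 * r * x ^ 2 - x ^ 3) < A.valuation r ^ 2 := by
  have hxr := v_x_le_mid hN hm
  have hx1 : A.valuation x < 1 := mem_m_iff.1 hx
  have hr0 := v_r_pos hN
  have hxx : A.valuation x ^ 2 < A.valuation r := by
    rw [sq]
    calc A.valuation x * A.valuation x ≤ A.valuation r * A.valuation x := mul_le_mul' hxr le_rfl
      _ < A.valuation r * 1 := mul_lt_mul_of_pos_left hx1 hr0
      _ = A.valuation r := mul_one _
  apply Valuation.map_sub_lt
  · rw [mul_assoc, v_four_mul hN, map_mul, map_pow, sq (A.valuation r)]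
    exact mul_lt_mul_of_pos_left hxx hr0
  · rw [map_pow, pow_succ, sq (A.valuation r)]
    calc A.valuation x ^ 2 * A.valuation x < A.valuation r * A.valuation r := by
          rcases eq_or_ne (A.valuation x) 0 with h0 | h0
          · rw [h0, mul_zero]; exact mul_pos hr0 hr0
          · exact lt_of_lt_of_le (mul_lt_mul_of_pos_right hxx (zero_lt_iff.2 h0))
              (mul_le_mul' le_rfl hxr)

theorem v_ab_mid (hN : NodeHyp A r) (h : OnNode r x y) (hx : x ∈ A.nonunits) (hm : x / r ∈ A) :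
    A.valuation ((x + y - 2 * r) * (x - y - 2 * r)) = A.valuation r ^ 2 := by
  rw [ab_eq h, v_four_mul hN]
  have e : r ^ 2 + 4 * r * x ^ 2 - x ^ 3 = r ^ 2 + (4 * r * x ^ 2 - x ^ 3) := by ring
  rw [e, Valuation.map_add_eq_of_lt_left _ (by rw [map_pow]; exact v_rest_lt_mid hN hx hm),
    map_pow]

theorem a_ne_mid (hN : NodeHyp A r) (h : OnNode r x y) (hx : x ∈ A.nonunits) (hm : x / r ∈ A) :
    x + y - 2 * r ≠ 0 := by
  intro h0
  have := v_ab_mid hN h hx hm
  rw [h0, zero_mul, map_zero] at this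
  exact pow_ne_zero 2 (v_r_ne hN) this.symm

theorem v_a_gt_mid (hN : NodeHyp A r) (h : OnNode r x y) (hx : x ∈ A.nonunits)
    (hm : x / r ∈ A) : A.valuation r ^ 2 < A.valuation (x + y - 2 * r) := by
  have hab := v_ab_mid hN h hx hm
  have hb := v_b_lt_node hN h hx
  have ha0 : 0 < A.valuation (x + y - 2 * r) :=
    zero_lt_iff.2 ((Valuation.ne_zero_iff _).2 (a_ne_mid hN h hx hm))
  rw [map_mul] at hab
  rw [← hab]
  calc A.valuation (x + y - 2 * r) * A.valuation (x - y - 2 * r)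
      < A.valuation (x + y - 2 * r) * 1 := mul_lt_mul_of_pos_left hb ha0
    _ = A.valuation (x + y - 2 * r) := mul_one _

/-! #### the outer node region `x ∈ m`, `x / r ∉ A` -/

theorem v_r_lt_x (hN : NodeHyp A r) (hm : x / r ∉ A) : A.valuation r < A.valuation x := by
  have := not_mem_A_iff.1 hm
  rw [map_div₀] at this
  exact (one_lt_div₀ (v_r_pos hN)).1 this

theorem x_ne_nonmid (hm : x / r ∉ A) : x ≠ 0 := by
  rintro rfl
  rw [zero_div] at hm
  exact hm (zero_mem A)

theorem v_prod_nonmid (hN : NodeHyp A r) (h : OnNode r x y) (hx : x ∈ A.nonunits)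
    (hm : x / r ∉ A) : A.valuation ((y - x) / x * ((y + x) / x)) < 1 := by
  have hx0 := x_ne_nonmid hm
  have e : (y - x) / x * ((y + x) / x) = 4 * x - 16 * r - 4 * (r / x) := by
    unfold OnNode at h
    field_simp
    linear_combination h
  rw [e]
  have h16 : A.valuation (16 * r) < 1 :=
    lt_of_le_of_lt (by
      rw [map_mul]
      have : A.valuation (16 : K) ≤ 1 := by
        exact_mod_cast v_natCast_le A 16
      calc A.valuation (16 : K) * A.valuation r ≤ 1 * A.valuation r := mul_le_mul' this le_rfl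
        _ = A.valuation r := one_mul _) (v_r_lt hN)
  refine Valuation.map_sub_lt _ (Valuation.map_sub_lt _ ?_ h16) ?_
  · rw [v_four_mul hN]; exact mem_m_iff.1 hx
  · rw [v_four_mul hN, map_div₀]
    have hrx := v_r_lt_x hN hm
    exact (div_lt_one₀ (lt_trans (v_r_pos hN) hrx)).2 hrx

theorem plus_neg (hN : NodeHyp A r) (hm : x / r ∉ A) (hp : (y - x) / x ∈ A.nonunits) :
    (-y - x) / x ∉ A.nonunits := by
  have hx0 := x_ne_nonmid hm
  rw [not_mem_m_iff]
  have e : (-y - x) / x = -(2 + (y - x) / x) := by field_simp; ring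
  rw [e, Valuation.map_neg, Valuation.map_add_eq_of_lt_left _ (by rw [hN.two]; exact mem_m_iff.1 hp),
    hN.two]

theorem minus_neg (hN : NodeHyp A r) (h : OnNode r x y) (hx : x ∈ A.nonunits)
    (hm : x / r ∉ A) (hp : (y - x) / x ∉ A.nonunits) : (-y - x) / x ∈ A.nonunits := by
  have hx0 := x_ne_nonmid hm
  have h1 := not_mem_m_iff.1 hp
  have h2 := v_prod_nonmid hN h hx hm
  rw [mem_m_iff]
  have e : (-y - x) / x = -((y + x) / x) := by field_simp; ring
  rw [e, Valuation.map_neg]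
  by_contra hcon
  rw [not_lt] at hcon
  rw [map_mul] at h2
  exact absurd (one_le_mul_of_one_le_of_one_le h1 hcon) (not_le.2 h2)

end ACTB

/-! ### The statements of the block -/

theorem InU.one (A : ValuationSubring K) (r : K) : InU A r 1 :=
  ⟨0, by rw [zpow_zero, mul_one, sub_self]; exact zero_mem _⟩

theorem InU.mul {A : ValuationSubring K} {r u v : K} (hN : NodeHyp A r)
    (hu : InU A r u) (hv : InU A r v) : InU A r (u * v) := by
  obtain ⟨j, hj⟩ := hu
  obtain ⟨k, hk⟩ := hv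
  refine ⟨j + k, ?_⟩
  have hr2 : r ^ 2 ≠ 0 := pow_ne_zero 2 hN.r_ne
  have e : u * v * (r ^ 2) ^ (j + k) - 1 =
      (u * (r ^ 2) ^ j - 1) * (v * (r ^ 2) ^ k - 1) + (u * (r ^ 2) ^ j - 1)
        + (v * (r ^ 2) ^ k - 1) := by
    rw [zpow_add₀ hr2]; ring
  rw [e]
  exact add_mem (add_mem (mul_mem hj hk) hj) hk

theorem InU.inv {A : ValuationSubring K} {r u : K} (hN : NodeHyp A r)
    (hu : InU A r u) : InU A r u⁻¹ := by
  have _hr := hN.r_ne
  obtain ⟨j, hj⟩ := hu
  refine ⟨-j, ?_⟩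
  rw [ACTB.mem_m_iff] at hj ⊢
  have hw1 : A.valuation (u * (r ^ 2) ^ j) = 1 := by
    have := Valuation.map_one_add_of_lt _ hj
    rwa [add_sub_cancel] at this
  have hw0 : u * (r ^ 2) ^ j ≠ 0 :=
    (Valuation.ne_zero_iff _).1 (by rw [hw1]; exact one_ne_zero)
  have e : u⁻¹ * (r ^ 2) ^ (-j) - 1 = -(u * (r ^ 2) ^ j - 1) / (u * (r ^ 2) ^ j) := by
    rw [zpow_neg, ← mul_inv, eq_div_iff hw0, sub_mul, inv_mul_cancel₀ hw0]; ring
  rw [e, map_div₀, Valuation.map_neg, hw1, div_one]
  exact hj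

/-- `1 + m ⊆ U`. -/
theorem InU.of_sub_one_mem {A : ValuationSubring K} {r u : K} (hu : u - 1 ∈ A.nonunits) :
    InU A r u :=
  ⟨0, by rw [zpow_zero, mul_one]; exact hu⟩

theorem lamT_ne_zero {A : ValuationSubring K} {r x y : K} (hN : NodeHyp A r)
    (h : OnNode r x y) : lamT A r x y ≠ 0 := by
  by_cases hx : x ∈ A.nonunits
  · by_cases hm : x / r ∈ A
    · rw [ACTB.lamT_mid hx hm]
      exact div_ne_zero (ACTB.a_ne_mid hN h hx hm) (ACTB.two_ne hN)
    · by_cases hp : (y - x) / x ∈ A.nonunits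
      · rw [ACTB.lamT_plus hx hm hp]; exact ACTB.x_ne_nonmid hm
      · rw [ACTB.lamT_minus hx hm hp]
        exact div_ne_zero (pow_ne_zero 2 hN.r_ne) (ACTB.x_ne_nonmid hm)
  · rw [ACTB.lamT_out hx]
    exact div_ne_zero (neg_ne_zero.2 (ACTB.b_ne_out hN h hx)) (ACTB.a_ne_out hN h hx)

/-- Negation of a point inverts the parameter modulo `U`. -/
theorem lamT_neg {A : ValuationSubring K} {r x y : K} (hN : NodeHyp A r)
    (h : OnNode r x y) : InU A r (lamT A r x y * lamT A r x (-y)) := by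
  have hr : r ≠ 0 := hN.r_ne
  have h2 : (2 : K) ≠ 0 := ACTB.two_ne hN
  by_cases hx : x ∈ A.nonunits
  · by_cases hm : x / r ∈ A
    · rw [ACTB.lamT_mid hx hm, ACTB.lamT_mid hx hm]
      refine ⟨-1, ?_⟩
      have e : (x + y - 2 * r) / 2 * ((x + -y - 2 * r) / 2) * (r ^ 2) ^ (-1 : ℤ) - 1
          = (4 * r * x ^ 2 - x ^ 3) / r ^ 2 := by
        have h4 := ACTB.ab_eq h
        rw [zpow_neg, zpow_one]
        field_simp
        linear_combination h4
      rw [e, ACTB.mem_m_iff, map_div₀, map_pow]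
      exact (div_lt_one₀ (pow_pos (ACTB.v_r_pos hN) 2)).2 (ACTB.v_rest_lt_mid hN hx hm)
    · have hx0 := ACTB.x_ne_nonmid hm
      by_cases hp : (y - x) / x ∈ A.nonunits
      · rw [ACTB.lamT_plus hx hm hp, ACTB.lamT_minus hx hm (ACTB.plus_neg hN hm hp)]
        refine ⟨-1, ?_⟩
        have e : x * (r ^ 2 / x) * (r ^ 2) ^ (-1 : ℤ) - 1 = 0 := by
          rw [zpow_neg, zpow_one]; field_simp; ring
        rw [e]; exact zero_mem _
      · rw [ACTB.lamT_minus hx hm hp, ACTB.lamT_plus hx hm (ACTB.minus_neg hN h hx hm hp)]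
        refine ⟨-1, ?_⟩
        have e : r ^ 2 / x * x * (r ^ 2) ^ (-1 : ℤ) - 1 = 0 := by
          rw [zpow_neg, zpow_one]; field_simp; ring
        rw [e]; exact zero_mem _
  · rw [ACTB.lamT_out hx, ACTB.lamT_out hx]
    have ha := ACTB.a_ne_out hN h hx
    have hb := ACTB.b_ne_out hN h hx
    have e : -(x - y - 2 * r) / (x + y - 2 * r) * (-(x - -y - 2 * r) / (x + -y - 2 * r)) = 1 := by
      have e1 : x - -y - 2 * r = x + y - 2 * r := by ring
      have e2 : x + -y - 2 * r = x - y - 2 * r := by ring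
      rw [e1, e2]
      field_simp
    rw [e]
    exact InU.one A r

/-- Kernel: if the parameter is trivial modulo `U`, the point is in the kernel of reduction. -/
theorem lamT_kernel {A : ValuationSubring K} {r x y : K} (hN : NodeHyp A r)
    (h : OnNode r x y) (hU : InU A r (lamT A r x y)) : x ∉ A := by
  obtain ⟨j, hj, hj'⟩ := ACTB.InU_val hU
  have hr0 := ACTB.v_r_pos hN
  have hr1 := ACTB.v_r_lt hN
  have hrr : A.valuation r ^ 2 < A.valuation r := by
    rw [sq]
    calc A.valuation r * A.valuation r < A.valuation r * 1 := mul_lt_mul_of_pos_left hr1 hr0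
      _ = A.valuation r := mul_one _
  by_cases hx : x ∈ A.nonunits
  · exfalso
    have hx1 : A.valuation x < 1 := ACTB.mem_m_iff.1 hx
    by_cases hm : x / r ∈ A
    · rw [ACTB.lamT_mid hx hm, ACTB.v_div_two hN] at hj
      exact ACTB.G_no_zpow hr0 hr1 (ACTB.v_a_gt_mid hN h hx hm) (ACTB.v_a_lt_node hN h hx) j hj
    · have hrx := ACTB.v_r_lt_x hN hm
      by_cases hp : (y - x) / x ∈ A.nonunits
      · rw [ACTB.lamT_plus hx hm hp] at hj
        exact ACTB.G_no_zpow hr0 hr1 (hrr.trans hrx) hx1 j hj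
      · rw [ACTB.lamT_minus hx hm hp, map_div₀, map_pow] at hj
        have hx0 : 0 < A.valuation x := hr0.trans hrx
        refine ACTB.G_no_zpow hr0 hr1 ?_ ?_ j hj
        · rw [lt_div_iff₀ hx0]
          calc A.valuation r ^ 2 * A.valuation x < A.valuation r ^ 2 * 1 :=
                mul_lt_mul_of_pos_left hx1 (pow_pos hr0 2)
            _ = A.valuation r ^ 2 := mul_one _
        · rw [div_lt_one₀ hx0]; exact hrr.trans hrx
  · intro hxA
    have hx1 : A.valuation x = 1 :=
      le_antisymm (ACTB.mem_A_iff.1 hxA) (ACTB.not_mem_m_iff.1 hx)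
    have ha2 := ACTB.v_a_sq_out hN h hx
    have hb2 := ACTB.v_b_sq_out hN h hx
    rw [hx1, one_pow] at ha2 hb2
    have ha1 : A.valuation (x + y - 2 * r) = 1 := by
      have := (pow_left_inj₀ (zero_le (a := A.valuation (x + y - 2 * r)))
        (zero_le (a := (1 : A.ValueGroup))) two_ne_zero).1 (by rw [ha2, one_pow])
      exact this
    have hb1 : A.valuation (x - y - 2 * r) = 1 := by
      have := (pow_left_inj₀ (zero_le (a := A.valuation (x - y - 2 * r)))
        (zero_le (a := (1 : A.ValueGroup))) two_ne_zero).1 (by rw [hb2, one_pow])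
      exact this
    have ha := ACTB.a_ne_out hN h hx
    rw [ACTB.lamT_out hx] at hj hj'
    rw [map_div₀, Valuation.map_neg, ha1, hb1, div_one, one_mul] at hj
    -- `j = 0`
    have hρ2 : A.valuation r ^ 2 < 1 := pow_lt_one₀ zero_le hr1 (by norm_num)
    have hρ20 : 0 < A.valuation r ^ 2 := pow_pos hr0 2
    have hj0 : j = 0 := by
      rcases lt_trichotomy j 0 with hlt | heq | hgt
      · exact absurd hj (one_lt_zpow_of_neg₀ hρ20 hρ2 hlt).ne'
      · exact heq
      · exact absurd hj (zpow_lt_one₀ hρ20 hρ2 hgt).ne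
    rw [hj0, zpow_zero, mul_one] at hj'
    have e : -(x - y - 2 * r) / (x + y - 2 * r) - 1 = -(2 * (x - 2 * r)) / (x + y - 2 * r) := by
      field_simp; ring
    rw [e, map_div₀, Valuation.map_neg, ha1, div_one, ACTB.v_two_mul hN,
      Valuation.map_sub_eq_of_lt_left _ (by rw [ACTB.v_two_mul hN, hx1]; exact hr1), hx1] at hj'
    exact lt_irrefl _ hj'

/-- Equivariance under a ring endomorphism preserving `A`. -/
theorem lamT_map {A : ValuationSubring K} {r x y : K} (σ : K →+* K)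
    (hσ : ∀ z : K, σ z ∈ A ↔ z ∈ A) :
    lamT A (σ r) (σ x) (σ y) = σ (lamT A r x y) := by
  have hm : ∀ z : K, σ z ∈ A.nonunits ↔ z ∈ A.nonunits := by
    intro z
    rw [A.mem_nonunits_iff_or, A.mem_nonunits_iff_or, map_eq_zero, ← map_inv₀, hσ]
  have e1 : σ x / σ r = σ (x / r) := (map_div₀ σ x r).symm
  have e2 : (σ y - σ x) / σ x = σ ((y - x) / x) := by rw [map_div₀, map_sub]
  unfold lamT
  rw [e1, e2, hm, hm, hσ]
  split_ifs <;> simp [map_div₀, map_sub, map_add, map_mul, map_pow, map_ofNat]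

end Fermat.Agent.S05
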