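/-
S05 team, Plan A, block ACT0 (owner: helper18): all three points have nonsingular reduction (x ∉ m).
-/
import Fermat.Agent.S05.ACTBasic

set_option autoImplicit false

namespace Fermat.Agent.S05

variable {K : Type*} [Field K]

namespace ACTB

variable {A : ValuationSubring K} {r x₁ y₁ x₂ y₂ x₃ y₃ l n : K}

/-- Product formula for `∏ (xᵢ + yᵢ - 2r)` on a line. -/
theorem prod_a_eq (hN : NodeHyp A r) (h : Collinear3 r x₁ y₁ x₂ y₂ x₃ y₃ l n) :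
    (x₁ + y₁ - 2 * r) * (x₂ + y₂ - 2 * r) * (x₃ + y₃ - 2 * r)
      = (1 + l) ^ 3 * r ^ 2 + (2 * r - n) ^ 2 * (n + 2 * r + 4 * r * l) := by
  have h2 : (2 : K) ≠ 0 := two_ne hN
  have h4 : (4 : K) ≠ 0 := four_ne hN
  have e : (x₁ + y₁ - 2 * r) * (x₂ + y₂ - 2 * r) * (x₃ + y₃ - 2 * r)
      = (1 + l) ^ 3 * (x₁ * x₂ * x₃) + (1 + l) ^ 2 * (n - 2 * r) * (x₁ * x₂ + x₁ * x₃ + x₂ * x₃)
        + (1 + l) * (n - 2 * r) ^ 2 * (x₁ + x₂ + x₃) + (n - 2 * r) ^ 3 := by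
    rw [h.line₁, h.line₂, h.line₃]; ring
  rw [e, h.vieta₁, h.vieta₂, h.vieta₃]
  field_simp
  ring

/-- Product formula for `∏ (xᵢ - yᵢ - 2r)` on a line. -/
theorem prod_b_eq (hN : NodeHyp A r) (h : Collinear3 r x₁ y₁ x₂ y₂ x₃ y₃ l n) :
    (x₁ - y₁ - 2 * r) * (x₂ - y₂ - 2 * r) * (x₃ - y₃ - 2 * r)
      = (1 - l) ^ 3 * r ^ 2 + (2 * r + n) ^ 2 * (2 * r - n - 4 * r * l) := by
  have h2 : (2 : K) ≠ 0 := two_ne hN
  have h4 : (4 : K) ≠ 0 := four_ne hN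
  have e : (x₁ - y₁ - 2 * r) * (x₂ - y₂ - 2 * r) * (x₃ - y₃ - 2 * r)
      = (1 - l) ^ 3 * (x₁ * x₂ * x₃) - (1 - l) ^ 2 * (n + 2 * r) * (x₁ * x₂ + x₁ * x₃ + x₂ * x₃)
        + (1 - l) * (n + 2 * r) ^ 2 * (x₁ + x₂ + x₃) - (n + 2 * r) ^ 3 := by
    rw [h.line₁, h.line₂, h.line₃]; ring
  rw [e, h.vieta₁, h.vieta₂, h.vieta₃]
  field_simp
  ring

theorem v_ofNat_mul_le (A : ValuationSubring K) (k : ℕ) (z : K) :
    A.valuation ((k : K) * z) ≤ A.valuation z := by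
  rw [map_mul]
  calc A.valuation (k : K) * A.valuation z ≤ 1 * A.valuation z :=
        mul_le_mul' (v_natCast_le A k) le_rfl
    _ = A.valuation z := one_mul _

end ACTB

theorem act0 {A : ValuationSubring K} {r x₁ y₁ x₂ y₂ x₃ y₃ l n : K} (hN : NodeHyp A r)
    (h : Collinear3 r x₁ y₁ x₂ y₂ x₃ y₃ l n)
    (h₁ : x₁ ∉ A.nonunits) (h₂ : x₂ ∉ A.nonunits) (h₃ : x₃ ∉ A.nonunits) :
    InU A r (lamT A r x₁ y₁ * lamT A r x₂ y₂ * lamT A r x₃ y₃) := by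
  have h2 : (2 : K) ≠ 0 := ACTB.two_ne hN
  have h4 : (4 : K) ≠ 0 := ACTB.four_ne hN
  have hr1 := ACTB.v_r_lt hN
  have hr0 := ACTB.v_r_pos hN
  have g₁ : 1 ≤ A.valuation x₁ := ACTB.not_mem_m_iff.1 h₁
  have g₂ : 1 ≤ A.valuation x₂ := ACTB.not_mem_m_iff.1 h₂
  have g₃ : 1 ≤ A.valuation x₃ := ACTB.not_mem_m_iff.1 h₃
  have ha₁ := ACTB.a_ne_out hN h.on₁ h₁
  have ha₂ := ACTB.a_ne_out hN h.on₂ h₂
  have ha₃ := ACTB.a_ne_out hN h.on₃ h₃
  -- `v(n)² = v(x₁) v(x₂) v(x₃)`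
  have hn2 : A.valuation n ^ 2 = A.valuation x₁ * A.valuation x₂ * A.valuation x₃ := by
    have e : n ^ 2 = 4 * (x₁ * x₂ * x₃) := by rw [h.vieta₃]; field_simp
    rw [← map_pow, e, ACTB.v_four_mul hN, map_mul, map_mul]
  have hn2' : 1 ≤ A.valuation n ^ 2 := by
    rw [hn2]; exact one_le_mul_of_one_le_of_one_le (one_le_mul_of_one_le_of_one_le g₁ g₂) g₃
  have hn1 : 1 ≤ A.valuation n := by
    by_contra hcon
    rw [not_le] at hcon
    exact absurd hn2' (not_le.2 (pow_lt_one₀ zero_le hcon (by norm_num)))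
  have hn0 : 0 < A.valuation n := lt_of_lt_of_le zero_lt_one hn1
  -- `v(xᵢ) ≤ v(n)²`
  have k₁ : A.valuation x₁ ≤ A.valuation n ^ 2 := by
    rw [hn2]
    calc A.valuation x₁ = A.valuation x₁ * 1 * 1 := by rw [mul_one, mul_one]
      _ ≤ A.valuation x₁ * A.valuation x₂ * A.valuation x₃ :=
        mul_le_mul' (mul_le_mul' le_rfl g₂) g₃
  have k₂ : A.valuation x₂ ≤ A.valuation n ^ 2 := by
    rw [hn2]
    calc A.valuation x₂ = 1 * A.valuation x₂ * 1 := by rw [mul_one, one_mul]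
      _ ≤ A.valuation x₁ * A.valuation x₂ * A.valuation x₃ :=
        mul_le_mul' (mul_le_mul' g₁ le_rfl) g₃
  have k₃ : A.valuation x₃ ≤ A.valuation n ^ 2 := by
    rw [hn2]
    calc A.valuation x₃ = 1 * 1 * A.valuation x₃ := by rw [one_mul, one_mul]
      _ ≤ A.valuation x₁ * A.valuation x₂ * A.valuation x₃ :=
        mul_le_mul' (mul_le_mul' g₁ g₂) le_rfl
  -- `v(l) ≤ v(n)`
  have hl2 : A.valuation l ^ 2 ≤ A.valuation n ^ 2 := by
    have e : l ^ 2 = 4 * (x₁ + x₂ + x₃) + 1 - (16 : ℕ) * r := by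
      rw [h.vieta₁]; push_cast; field_simp; ring
    rw [← map_pow, e]
    refine Valuation.map_sub_le _ (Valuation.map_add_le _ ?_ ?_) ?_
    · rw [ACTB.v_four_mul hN]
      exact Valuation.map_add_le _ (Valuation.map_add_le _ k₁ k₂) k₃
    · rw [map_one]; exact hn2'
    · exact (ACTB.v_ofNat_mul_le A 16 r).trans (hr1.le.trans hn2')
  have hl : A.valuation l ≤ A.valuation n :=
    (pow_le_pow_iff_left₀ zero_le zero_le two_ne_zero).1 hl2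
  -- `v(∏ a) = v(n)³`
  have hPa : A.valuation ((x₁ + y₁ - 2 * r) * (x₂ + y₂ - 2 * r) * (x₃ + y₃ - 2 * r))
      = A.valuation n ^ 3 := by
    have e : A.valuation ((x₁ + y₁ - 2 * r) * (x₂ + y₂ - 2 * r) * (x₃ + y₃ - 2 * r)) ^ 2
        = (A.valuation n ^ 3) ^ 2 := by
      rw [map_mul, map_mul, mul_pow, mul_pow, ACTB.v_a_sq_out hN h.on₁ h₁,
        ACTB.v_a_sq_out hN h.on₂ h₂, ACTB.v_a_sq_out hN h.on₃ h₃, ← mul_pow, ← mul_pow, ← hn2,
        ← pow_mul, ← pow_mul]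
    exact (pow_left_inj₀ zero_le zero_le two_ne_zero).1 e
  -- the sum of the two products
  have hsum : (x₁ + y₁ - 2 * r) * (x₂ + y₂ - 2 * r) * (x₃ + y₃ - 2 * r)
      + (x₁ - y₁ - 2 * r) * (x₂ - y₂ - 2 * r) * (x₃ - y₃ - 2 * r)
      = r * ((2 : ℕ) * r + (6 : ℕ) * (r * l ^ 2) + (16 : ℕ) * r ^ 2 - (4 : ℕ) * n ^ 2
          - (32 : ℕ) * (r * l * n)) := by
    rw [ACTB.prod_a_eq hN h, ACTB.prod_b_eq hN h]; push_cast; ring
  have hsumv : A.valuation ((x₁ + y₁ - 2 * r) * (x₂ + y₂ - 2 * r) * (x₃ + y₃ - 2 * r)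
      + (x₁ - y₁ - 2 * r) * (x₂ - y₂ - 2 * r) * (x₃ - y₃ - 2 * r)) < A.valuation n ^ 3 := by
    rw [hsum, map_mul]
    have hbig : A.valuation ((2 : ℕ) * r + (6 : ℕ) * (r * l ^ 2) + (16 : ℕ) * r ^ 2
        - (4 : ℕ) * n ^ 2 - (32 : ℕ) * (r * l * n)) ≤ A.valuation n ^ 2 := by
      refine Valuation.map_sub_le _ (Valuation.map_sub_le _ (Valuation.map_add_le _
        (Valuation.map_add_le _ ?_ ?_) ?_) ?_) ?_
      · exact (ACTB.v_ofNat_mul_le A 2 r).trans (hr1.le.trans hn2')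
      · refine (ACTB.v_ofNat_mul_le A 6 _).trans ?_
        rw [map_mul, map_pow]
        calc A.valuation r * A.valuation l ^ 2 ≤ 1 * A.valuation n ^ 2 := mul_le_mul' hr1.le hl2
          _ = A.valuation n ^ 2 := one_mul _
      · refine (ACTB.v_ofNat_mul_le A 16 _).trans ?_
        rw [map_pow]
        exact (pow_le_one₀ zero_le hr1.le).trans hn2'
      · refine (ACTB.v_ofNat_mul_le A 4 _).trans ?_
        rw [map_pow]
      · refine (ACTB.v_ofNat_mul_le A 32 _).trans ?_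
        rw [map_mul, map_mul, sq]
        calc A.valuation r * A.valuation l * A.valuation n
            ≤ 1 * A.valuation n * A.valuation n := mul_le_mul' (mul_le_mul' hr1.le hl) le_rfl
          _ = A.valuation n * A.valuation n := by rw [one_mul]
    calc A.valuation r * A.valuation ((2 : ℕ) * r + (6 : ℕ) * (r * l ^ 2) + (16 : ℕ) * r ^ 2
          - (4 : ℕ) * n ^ 2 - (32 : ℕ) * (r * l * n))
        ≤ A.valuation r * A.valuation n ^ 2 := mul_le_mul' le_rfl hbig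
      _ < 1 * A.valuation n ^ 2 := mul_lt_mul_of_pos_right hr1 (pow_pos hn0 2)
      _ = A.valuation n ^ 2 := one_mul _
      _ ≤ A.valuation n ^ 3 := pow_le_pow_right₀ hn1 (by norm_num)
  -- conclusion
  apply InU.of_sub_one_mem
  rw [ACTB.lamT_out h₁, ACTB.lamT_out h₂, ACTB.lamT_out h₃]
  have e : -(x₁ - y₁ - 2 * r) / (x₁ + y₁ - 2 * r) * (-(x₂ - y₂ - 2 * r) / (x₂ + y₂ - 2 * r))
        * (-(x₃ - y₃ - 2 * r) / (x₃ + y₃ - 2 * r)) - 1
      = -((x₁ + y₁ - 2 * r) * (x₂ + y₂ - 2 * r) * (x₃ + y₃ - 2 * r)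
          + (x₁ - y₁ - 2 * r) * (x₂ - y₂ - 2 * r) * (x₃ - y₃ - 2 * r))
        / ((x₁ + y₁ - 2 * r) * (x₂ + y₂ - 2 * r) * (x₃ + y₃ - 2 * r)) := by
    field_simp
    ring
  rw [e, ACTB.mem_m_iff, map_div₀, Valuation.map_neg, hPa]
  exact (div_lt_one₀ (pow_pos hn0 3)).2 hsumv

end Fermat.Agent.S05
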