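/-
S05 team, Plan A, block ACT1 (owner: helper97): a line cannot meet the curve in exactly one
node-reducing point.
-/
import Fermat.Agent.S05.ACTDefs

set_option autoImplicit false

namespace Fermat.Agent.S05

variable {K : Type*} [Field K]

namespace ACT1

variable {A : ValuationSubring K}

theorem val_four (h2 : A.valuation (2 : K) = 1) : A.valuation (4 : K) = 1 := by
  have h : (4 : K) = 2 * 2 := by norm_num
  rw [h, map_mul, h2, mul_one]

theorem val_eight (h2 : A.valuation (2 : K) = 1) : A.valuation (8 : K) = 1 := by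
  have h : (8 : K) = 2 * 4 := by norm_num
  rw [h, map_mul, h2, val_four h2, mul_one]

theorem val_sixteen (h2 : A.valuation (2 : K) = 1) : A.valuation (16 : K) = 1 := by
  have h : (16 : K) = 4 * 4 := by norm_num
  rw [h, map_mul, val_four h2, mul_one]

/-- If `x` is in the maximal ideal, so is `y` for a point `(x, y)` of the nodal curve. -/
theorem val_y_lt_one {r x y : K} (hN : NodeHyp A r) (h : OnNode r x y)
    (hx : A.valuation x < 1) : A.valuation y < 1 := by
  have hr : A.valuation r < 1 := hN.r_mem
  have h4 := val_four hN.two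
  by_contra hcon
  have h1le : 1 ≤ A.valuation y := not_lt.mp hcon
  have h1 : 1 ≤ A.valuation (y ^ 2) := by
    rw [map_pow]
    exact one_le_pow₀ h1le
  have hA : A.valuation (x - 4 * r) ≤ 1 := by
    apply Valuation.map_sub_le _ hx.le
    rw [map_mul, h4, one_mul]
    exact hr.le
  have hB : A.valuation (4 * x + 1) ≤ 1 := by
    apply Valuation.map_add_le
    · rw [map_mul, h4, one_mul]
      exact hx.le
    · rw [map_one]
  have h2 : A.valuation (y ^ 2) < 1 := by
    rw [h, map_mul, map_mul, mul_assoc]
    exact mul_lt_one_of_nonneg_of_lt_one_left zero_le hx (mul_le_one' hA hB)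
  exact absurd h1 (not_le.mpr h2)

end ACT1

open ACT1 in
theorem act1 {A : ValuationSubring K} {r x₁ y₁ x₂ y₂ x₃ y₃ l n : K} (hN : NodeHyp A r)
    (h : Collinear3 r x₁ y₁ x₂ y₂ x₃ y₃ l n)
    (h₁ : x₁ ∈ A.nonunits) (h₂ : x₂ ∉ A.nonunits) (h₃ : x₃ ∉ A.nonunits) : False := by
  have hx1 : A.valuation x₁ < 1 := h₁
  have hx2 : 1 ≤ A.valuation x₂ := not_lt.mp h₂
  have hx3 : 1 ≤ A.valuation x₃ := not_lt.mp h₃
  have hr : A.valuation r < 1 := hN.r_mem
  have h2 : A.valuation (2 : K) = 1 := hN.two
  have h4 := val_four h2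
  have h16 := val_sixteen h2
  have hy1 : A.valuation y₁ < 1 := val_y_lt_one hN h.on₁ hx1
  have h2ne : (2 : K) ≠ 0 := by
    intro h0
    rw [h0, map_zero] at h2
    exact zero_ne_one h2
  have h4ne : (4 : K) ≠ 0 := by
    intro h0
    rw [h0, map_zero] at h4
    exact zero_ne_one h4
  -- multiplied-out Vieta relations
  have hs : 4 * (x₁ + x₂ + x₃) = l ^ 2 - 1 + 16 * r := by
    rw [h.vieta₁]
    field_simp
  have hp : 2 * (x₁ * x₂ + x₁ * x₃ + x₂ * x₃) = -2 * r - l * n := by
    rw [h.vieta₂]
    field_simp
  -- the key identity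
  have key : 4 * (x₂ * x₃) =
      l ^ 2 * x₁ - 2 * l * y₁ + (-4 * r + x₁ * (1 - 16 * r) + 4 * x₁ ^ 2) := by
    have e3 := h.line₁
    linear_combination 2 * hp - x₁ * hs + (2 * l) * e3
  have hε : A.valuation (-4 * r + x₁ * (1 - 16 * r) + 4 * x₁ ^ 2) < 1 := by
    apply Valuation.map_add_lt
    · apply Valuation.map_add_lt
      · rw [neg_mul, Valuation.map_neg, map_mul, h4, one_mul]
        exact hr
      · rw [map_mul]
        apply mul_lt_one_of_nonneg_of_lt_one_left zero_le hx1
        apply Valuation.map_sub_le _ (le_of_eq (map_one _))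
        rw [map_mul, h16, one_mul]
        exact hr.le
    · rw [map_mul, h4, one_mul, map_pow]
      exact pow_lt_one₀ zero_le hx1 two_ne_zero
  have hprod : 1 ≤ A.valuation (4 * (x₂ * x₃)) := by
    rw [map_mul, map_mul, h4, one_mul]
    exact one_le_mul_of_one_le_of_one_le hx2 hx3
  rcases le_or_gt (A.valuation l) 1 with hl | hl
  · -- `l` integral: `x₂ x₃ ∈ m`
    have hlt : A.valuation (4 * (x₂ * x₃)) < 1 := by
      rw [key]
      apply Valuation.map_add_lt _ _ hε
      apply Valuation.map_sub_lt
      · rw [map_mul, map_pow]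
        exact mul_lt_one_of_nonneg_of_lt_one_right (pow_le_one₀ zero_le hl) zero_le hx1
      · rw [map_mul, map_mul, h2, one_mul]
        exact mul_lt_one_of_nonneg_of_lt_one_right hl zero_le hy1
    exact absurd hprod (not_le.mpr hlt)
  · -- `l` non-integral
    have hl0 : 0 < A.valuation l := lt_trans zero_lt_one hl
    have hl2 : 1 < A.valuation l ^ 2 := one_lt_pow₀ hl two_ne_zero
    have hl2' : A.valuation l < A.valuation l ^ 2 := by
      rw [pow_two]
      calc A.valuation l = A.valuation l * 1 := (mul_one _).symm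
        _ < A.valuation l * A.valuation l := mul_lt_mul_of_pos_left hl hl0
    have hlt : A.valuation (4 * (x₂ * x₃)) < A.valuation l ^ 2 := by
      rw [key]
      apply Valuation.map_add_lt _ _ (lt_trans hε hl2)
      apply Valuation.map_sub_lt
      · rw [map_mul, map_pow]
        calc A.valuation l ^ 2 * A.valuation x₁ < A.valuation l ^ 2 * 1 :=
              mul_lt_mul_of_pos_left hx1 (lt_trans zero_lt_one hl2)
          _ = A.valuation l ^ 2 := mul_one _
      · rw [map_mul, map_mul, h2, one_mul]
        calc A.valuation l * A.valuation y₁ < A.valuation l * 1 :=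
              mul_lt_mul_of_pos_left hy1 hl0
          _ = A.valuation l := mul_one _
          _ < A.valuation l ^ 2 := hl2'
    have hsum : 4 * (x₂ + x₃) = l ^ 2 + (-1 + 16 * r - 4 * x₁) := by
      linear_combination hs
    have hsmall : A.valuation (-1 + 16 * r - 4 * x₁) ≤ 1 := by
      apply Valuation.map_sub_le
      · apply Valuation.map_add_le
        · rw [Valuation.map_neg, map_one]
        · rw [map_mul, h16, one_mul]
          exact hr.le
      · rw [map_mul, h4, one_mul]
        exact hx1.le
    have hvsum : A.valuation (x₂ + x₃) = A.valuation l ^ 2 := by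
      have h' : A.valuation (4 * (x₂ + x₃)) = A.valuation l ^ 2 := by
        rw [hsum, Valuation.map_add_eq_of_lt_left, map_pow]
        rw [map_pow]
        exact lt_of_le_of_lt hsmall hl2
      rw [map_mul, h4, one_mul] at h'
      exact h'
    have hge : A.valuation l ^ 2 ≤ A.valuation (4 * (x₂ * x₃)) := by
      rw [map_mul, map_mul, h4, one_mul, ← hvsum]
      rcases le_total (A.valuation x₂) (A.valuation x₃) with h23 | h23
      · calc A.valuation (x₂ + x₃) ≤ A.valuation x₃ :=
              Valuation.map_add_le _ h23 le_rfl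
          _ = 1 * A.valuation x₃ := (one_mul _).symm
          _ ≤ A.valuation x₂ * A.valuation x₃ := mul_le_mul' hx2 le_rfl
      · calc A.valuation (x₂ + x₃) ≤ A.valuation x₂ :=
              Valuation.map_add_le _ le_rfl h23
          _ = A.valuation x₂ * 1 := (mul_one _).symm
          _ ≤ A.valuation x₂ * A.valuation x₃ := mul_le_mul' le_rfl hx3
    exact absurd hge (not_le.mpr hlt)

end Fermat.Agent.S05
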