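/-
S05 team, Plan A, block ACT2a (owner: helper78): two node-reducing points, the first one not on the middle component.
-/
import Fermat.Agent.S05.ACTDefs

set_option autoImplicit false

namespace Fermat.Agent.S05

namespace ACT2a

section Toolkit

variable {K : Type*} [Field K] {Γ : Type*} [LinearOrderedCommGroupWithZero Γ] (v : Valuation K Γ)

theorem g_pos {a : Γ} (h : a ≠ 0) : 0 < a := zero_lt_iff.mpr h

theorem g_mul_lt_of_le_of_lt {a b c d : Γ} (h1 : a ≤ b) (h2 : c < d) (hb : b ≠ 0) :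
    a * c < b * d :=
  lt_of_le_of_lt (mul_le_mul' h1 le_rfl) (mul_lt_mul_of_pos_left h2 (g_pos hb))

theorem g_mul_lt_of_lt_of_le {a b c d : Γ} (h1 : a < b) (h2 : c ≤ d) (hd : d ≠ 0) :
    a * c < b * d :=
  lt_of_le_of_lt (mul_le_mul' le_rfl h2) (mul_lt_mul_of_pos_right h1 (g_pos hd))

theorem g_mul_lt_of_lt_of_lt {a b c d : Γ} (h1 : a < b) (h2 : c < d) : a * c < b * d :=
  g_mul_lt_of_lt_of_le h1 h2.le (ne_of_gt (lt_of_le_of_lt zero_le h2))

theorem dom3 {s a b c : K} (h : s = a + b + c) (hb : v b < v a) (hc : v c < v a) :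
    v s = v a := by
  rw [h, add_assoc]; exact v.map_add_eq_of_lt_left (v.map_add_lt hb hc)

theorem small3 {s a b c : K} {g : Γ} (h : s = a + b + c) (ha : v a < g) (hb : v b < g)
    (hc : v c < g) : v s < g := by
  rw [h]; exact v.map_add_lt (v.map_add_lt ha hb) hc

theorem v_four (h2 : v 2 = 1) : v 4 = 1 := by
  have : (4 : K) = 2 * 2 := by norm_num
  rw [this, map_mul, h2, one_mul]

theorem v_sixteen (h2 : v 2 = 1) : v 16 = 1 := by
  have : (16 : K) = 2 * 2 * 2 * 2 := by norm_num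
  rw [this, map_mul, map_mul, map_mul, h2, one_mul, one_mul, one_mul]

theorem idT_aux {x₁ x₂ r B C : K} (hx2 : x₂ ≠ 0) (hC : C ≠ 0) :
    x₁ * (r ^ 2 / x₂) * (-B / C) - r ^ 2 = -(r ^ 2 * (x₁ * B + x₂ * C)) / (x₂ * C) := by
  field_simp
  ring

end Toolkit

section Core

variable {K : Type*} [Field K] {Γ : Type*} [LinearOrderedCommGroupWithZero Γ] (v : Valuation K Γ)

/-- `|1 - l| = |1 + l| =: ω`, `ω² = |x₃|`, `1 ≤ ω`. -/
theorem omega {r x₁ x₂ x₃ l : K} (h2 : v 2 = 1) (hr : v r < 1)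
    (hs : 4 * (x₁ + x₂ + x₃) = l ^ 2 - 1 + 16 * r)
    (hx1 : v x₁ < 1) (hx2 : v x₂ < 1) (hx3 : 1 ≤ v x₃) :
    v (1 - l) = v (1 + l) ∧ v (1 + l) * v (1 + l) = v x₃ ∧ 1 ≤ v (1 + l) ∧
      v (16 * r - 4 * x₁ - 4 * x₂) < 1 := by
  have h4 : v 4 = 1 := v_four v h2
  have h16 : v 16 = 1 := v_sixteen v h2
  have hsm : v (16 * r - 4 * x₁ - 4 * x₂) < 1 := by
    refine v.map_sub_lt (v.map_sub_lt ?_ ?_) ?_
    · rw [map_mul, h16, one_mul]; exact hr
    · rw [map_mul, h4, one_mul]; exact hx1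
    · rw [map_mul, h4, one_mul]; exact hx2
  have key : (1 + l) * (1 - l) = -(4 * x₃) + (16 * r - 4 * x₁ - 4 * x₂) := by
    linear_combination hs
  have hprod : v (1 + l) * v (1 - l) = v x₃ := by
    have h43 : v (-(4 * x₃)) = v x₃ := by rw [v.map_neg, map_mul, h4, one_mul]
    rw [← map_mul, key, v.map_add_eq_of_lt_left, h43]
    rw [h43]
    exact lt_of_lt_of_le hsm hx3
  have hsum : v ((1 + l) + (1 - l)) = 1 := by
    have : (1 + l) + (1 - l) = 2 := by ring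
    rw [this, h2]
  have heq : v (1 - l) = v (1 + l) := by
    by_contra hne
    rcases lt_or_gt_of_ne hne with h | h
    · rw [v.map_add_eq_of_lt_left h] at hsum
      rw [hsum, one_mul] at hprod
      rw [hsum, hprod] at h
      exact absurd h (not_lt.mpr hx3)
    · rw [v.map_add_eq_of_lt_right h] at hsum
      rw [hsum, mul_one] at hprod
      rw [hsum, hprod] at h
      exact absurd h (not_lt.mpr hx3)
  rw [heq] at hprod
  refine ⟨heq, hprod, ?_, hsm⟩
  by_contra hlt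
  rw [not_le] at hlt
  have h1 : v (1 + l) * v (1 + l) < 1 * 1 := g_mul_lt_of_lt_of_lt hlt hlt
  rw [hprod, one_mul] at h1
  exact absurd h1 (not_lt.mpr hx3)

/-- A point with `|r| < |x| < 1` lies on the plus or on the minus branch. -/
theorem branch {r x l n : K} (h2 : v 2 = 1) (hr : v r < 1)
    (c : (l * x + n) ^ 2 = x * (x - 4 * r) * (4 * x + 1))
    (hx : v x < 1) (hm : v r < v x) :
    v (l * x + n - x) < v x ∨ v (l * x + n + x) < v x := by
  have h4 : v 4 = 1 := v_four v h2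
  have hx0 : v x ≠ 0 := ne_of_gt (lt_of_le_of_lt zero_le hm)
  have key : (l * x + n - x) * (l * x + n + x) = 4 * x * (x * x - 4 * r * x - r) := by
    linear_combination c
  have hsm : v (x * x - 4 * r * x - r) < v x := by
    refine v.map_sub_lt (v.map_sub_lt ?_ ?_) hm
    · rw [map_mul]
      calc v x * v x < 1 * v x := mul_lt_mul_of_pos_right hx (g_pos hx0)
        _ = v x := one_mul _
    · rw [map_mul, map_mul, h4, one_mul]
      calc v r * v x < 1 * v x := mul_lt_mul_of_pos_right hr (g_pos hx0)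
        _ = v x := one_mul _
  have hlt : v (l * x + n - x) * v (l * x + n + x) < v x * v x := by
    rw [← map_mul, key, map_mul, map_mul, h4, one_mul]
    exact mul_lt_mul_of_pos_left hsm (g_pos hx0)
  by_contra hcon
  rw [not_or, not_lt, not_lt] at hcon
  exact absurd hlt (not_lt.mpr (mul_le_mul' hcon.1 hcon.2))

/-- A point cannot lie on both branches. -/
theorem not_P_and_M {x l n : K} (h2 : v 2 = 1)
    (hP : v (l * x + n - x) < v x) (hM : v (l * x + n + x) < v x) : False := by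
  have e : (l * x + n + x) - (l * x + n - x) = 2 * x := by ring
  have h := v.map_sub_lt hM hP
  rw [e, map_mul, h2, one_mul] at h
  exact lt_irrefl _ h

/-- On either branch, `|n| = ω |x|`. -/
theorem nu_abs {x l n : K} (hω : v (1 - l) = v (1 + l)) (hω1 : 1 ≤ v (1 + l))
    (hb : v (l * x + n - x) < v x ∨ v (l * x + n + x) < v x) :
    v n = v (1 + l) * v x := by
  have hle : v x ≤ v (1 + l) * v x := by
    calc v x = 1 * v x := (one_mul _).symm
      _ ≤ v (1 + l) * v x := mul_le_mul' hω1 le_rfl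
  rcases hb with hb | hb
  · have e : l * x + n - x = n - (1 - l) * x := by ring
    rw [e] at hb
    have h : v (n - (1 - l) * x) < v ((1 - l) * x) := by
      rw [map_mul, hω]; exact lt_of_lt_of_le hb hle
    rw [v.map_eq_of_sub_lt h, map_mul, hω]
  · have e : l * x + n + x = n - (-((1 + l) * x)) := by ring
    rw [e] at hb
    have h : v (n - (-((1 + l) * x))) < v (-((1 + l) * x)) := by
      rw [v.map_neg, map_mul]; exact lt_of_lt_of_le hb hle
    rw [v.map_eq_of_sub_lt h, v.map_neg, map_mul]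

/-- The two node-reducing points cannot both lie on the plus branch. -/
theorem not_both_P {r x₁ x₂ x₃ l n : K} (h2 : v 2 = 1)
    (hkey : (1 + l) * (1 - l) = -(4 * x₃) + (16 * r - 4 * x₁ - 4 * x₂))
    (hsm : v (16 * r - 4 * x₁ - 4 * x₂) < 1)
    (hq : 4 * x₁ * x₂ * x₃ = n ^ 2)
    (hω : v (1 - l) = v (1 + l)) (hω2 : v (1 + l) * v (1 + l) = v x₃) (hω1 : 1 ≤ v (1 + l))
    (hn : v n = v (1 + l) * v x₁) (h12 : v x₂ = v x₁) (hx0 : v x₁ ≠ 0)
    (hP1 : v (l * x₁ + n - x₁) < v x₁) (hP2 : v (l * x₂ + n - x₂) < v x₂) : False := by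
  have h4 : v 4 = 1 := v_four v h2
  have hω0 : v (1 + l) ≠ 0 := ne_of_gt (lt_of_lt_of_le zero_lt_one hω1)
  have hP2' : v (l * x₂ + n - x₂) < v x₁ := hP2.trans_eq h12
  have id1 : n ^ 2 * ((1 - l) ^ 2 - 4 * x₃) =
      4 * x₃ * (-(n * ((l * x₁ + n - x₁) + (l * x₂ + n - x₂)))
        + (l * x₁ + n - x₁) * (l * x₂ + n - x₂)) := by
    linear_combination -(1 - l) ^ 2 * hq
  have id2 : (1 - l) ^ 2 - 4 * x₃ = 2 * (1 - l) - (16 * r - 4 * x₁ - 4 * x₂) := by
    linear_combination -hkey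
  have h21 : v (2 * (1 - l)) = v (1 + l) := by rw [map_mul, h2, one_mul, hω]
  have hL : v ((1 - l) ^ 2 - 4 * x₃) = v (1 + l) := by
    rw [id2, v.map_sub_eq_of_lt_left, h21]
    rw [h21]; exact lt_of_lt_of_le hsm hω1
  have hR : v (-(n * ((l * x₁ + n - x₁) + (l * x₂ + n - x₂)))
        + (l * x₁ + n - x₁) * (l * x₂ + n - x₂)) < v (1 + l) * v x₁ * v x₁ := by
    refine v.map_add_lt ?_ ?_
    · rw [v.map_neg, map_mul, hn]
      exact mul_lt_mul_of_pos_left (v.map_add_lt hP1 hP2') (g_pos (mul_ne_zero hω0 hx0))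
    · rw [map_mul]
      calc v (l * x₁ + n - x₁) * v (l * x₂ + n - x₂) < v x₁ * v x₁ :=
            g_mul_lt_of_lt_of_lt hP1 hP2'
        _ = 1 * v x₁ * v x₁ := by rw [one_mul]
        _ ≤ v (1 + l) * v x₁ * v x₁ := mul_le_mul' (mul_le_mul' hω1 le_rfl) le_rfl
  have h := congrArg v id1
  rw [map_mul, map_pow, hn, hL, map_mul, map_mul, h4, one_mul, ← hω2] at h
  have hlt := mul_lt_mul_of_pos_left hR (g_pos (mul_ne_zero hω0 hω0))
  rw [← h] at hlt
  have e : (v (1 + l) * v x₁) ^ 2 * v (1 + l)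
      = v (1 + l) * v (1 + l) * (v (1 + l) * v x₁ * v x₁) := by
    rw [sq]; ac_rfl
  rw [e] at hlt
  exact lt_irrefl _ hlt

/-- The two node-reducing points cannot both lie on the minus branch. -/
theorem not_both_M {r x₁ x₂ x₃ l n : K} (h2 : v 2 = 1)
    (hkey : (1 + l) * (1 - l) = -(4 * x₃) + (16 * r - 4 * x₁ - 4 * x₂))
    (hsm : v (16 * r - 4 * x₁ - 4 * x₂) < 1)
    (hq : 4 * x₁ * x₂ * x₃ = n ^ 2)
    (hω : v (1 - l) = v (1 + l)) (hω2 : v (1 + l) * v (1 + l) = v x₃) (hω1 : 1 ≤ v (1 + l))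
    (hn : v n = v (1 + l) * v x₁) (h12 : v x₂ = v x₁) (hx0 : v x₁ ≠ 0)
    (hM1 : v (l * x₁ + n + x₁) < v x₁) (hM2 : v (l * x₂ + n + x₂) < v x₂) : False := by
  have e1 : (1 : K) - -l = 1 + l := by ring
  have e2 : (1 : K) + -l = 1 - l := by ring
  refine not_both_P v (r := r) (x₁ := x₁) (x₂ := x₂) (x₃ := x₃) (l := -l) (n := -n) h2 ?_ hsm ?_
    ?_ ?_ ?_ ?_ h12 hx0 ?_ ?_
  · linear_combination hkey
  · linear_combination hq
  · rw [e1, e2]; exact hω.symm
  · rw [e2, hω]; exact hω2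
  · rw [e2, hω]; exact hω1
  · rw [e2, hω, v.map_neg]; exact hn
  · have e : -l * x₁ + -n - x₁ = -(l * x₁ + n + x₁) := by ring
    rw [e, v.map_neg]; exact hM1
  · have e : -l * x₂ + -n - x₂ = -(l * x₂ + n + x₂) := by ring
    rw [e, v.map_neg]; exact hM2

/-- The main estimate: first point on the plus branch, second point on the minus branch. -/
theorem off_T {r x₁ x₂ x₃ l n : K} (h2 : v 2 = 1) (hr : v r < 1) (hr0 : r ≠ 0)
    (hω1 : 1 ≤ v (1 + l)) (hx3 : 1 ≤ v x₃)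
    (hn : v n = v (1 + l) * v x₁) (h12 : v x₂ = v x₁) (hx0 : v x₁ ≠ 0) (hx1 : v x₁ < 1)
    (hP1 : v (l * x₁ + n - x₁) < v x₁) (hM2 : v (l * x₂ + n + x₂) < v x₂) :
    v (x₁ * (r ^ 2 / x₂) * (-(x₃ - (l * x₃ + n) - 2 * r) / (x₃ + (l * x₃ + n) - 2 * r)) - r ^ 2)
      < v (r ^ 2) := by
  have hω0 : v (1 + l) ≠ 0 := ne_of_gt (lt_of_lt_of_le zero_lt_one hω1)
  have hx30 : v x₃ ≠ 0 := ne_of_gt (lt_of_lt_of_le zero_lt_one hx3)
  have hM2' : v (l * x₂ + n + x₂) < v x₁ := hM2.trans_eq h12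
  have hA : v (x₃ + (l * x₃ + n) - 2 * r) = v (1 + l) * v x₃ := by
    have e : x₃ + (l * x₃ + n) - 2 * r = (1 + l) * x₃ + n + -(2 * r) := by ring
    refine (dom3 v e ?_ ?_).trans (map_mul _ _ _)
    · rw [map_mul, hn]
      exact mul_lt_mul_of_pos_left (lt_of_lt_of_le hx1 hx3) (g_pos hω0)
    · rw [v.map_neg, map_mul, h2, one_mul, map_mul]
      calc v r < 1 := hr
        _ = 1 * 1 := (one_mul 1).symm
        _ ≤ v (1 + l) * v x₃ := mul_le_mul' hω1 hx3
  have hx20 : x₂ ≠ 0 := by rw [← v.ne_zero_iff, h12]; exact hx0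
  have hA0 : x₃ + (l * x₃ + n) - 2 * r ≠ 0 := by
    rw [← v.ne_zero_iff, hA]; exact mul_ne_zero hω0 hx30
  have idT : x₁ * (r ^ 2 / x₂) * (-(x₃ - (l * x₃ + n) - 2 * r) / (x₃ + (l * x₃ + n) - 2 * r))
      - r ^ 2 = -(r ^ 2 * (x₁ * (x₃ - (l * x₃ + n) - 2 * r) + x₂ * (x₃ + (l * x₃ + n) - 2 * r)))
        / (x₂ * (x₃ + (l * x₃ + n) - 2 * r)) := idT_aux hx20 hA0
  have idN : x₁ * (x₃ - (l * x₃ + n) - 2 * r) + x₂ * (x₃ + (l * x₃ + n) - 2 * r)
      = x₃ * ((l * x₂ + n + x₂) - (l * x₁ + n - x₁)) + n * (x₂ - x₁) + -(2 * r * (x₁ + x₂)) := by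
    ring
  have hN : v (x₁ * (x₃ - (l * x₃ + n) - 2 * r) + x₂ * (x₃ + (l * x₃ + n) - 2 * r))
      < v x₂ * v (x₃ + (l * x₃ + n) - 2 * r) := by
    rw [hA, h12]
    refine small3 v idN ?_ ?_ ?_
    · rw [map_mul]
      calc v x₃ * v ((l * x₂ + n + x₂) - (l * x₁ + n - x₁)) < v x₃ * v x₁ :=
            mul_lt_mul_of_pos_left (v.map_sub_lt hM2' hP1) (g_pos hx30)
        _ = v x₁ * (1 * v x₃) := by rw [one_mul, mul_comm]
        _ ≤ v x₁ * (v (1 + l) * v x₃) := mul_le_mul' le_rfl (mul_le_mul' hω1 le_rfl)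
    · rw [map_mul, hn]
      have h : v (x₂ - x₁) < v x₃ :=
        lt_of_lt_of_le (v.map_sub_lt (h12.trans_lt hx1) hx1) hx3
      calc v (1 + l) * v x₁ * v (x₂ - x₁) < v (1 + l) * v x₁ * v x₃ :=
            mul_lt_mul_of_pos_left h (g_pos (mul_ne_zero hω0 hx0))
        _ = v x₁ * (v (1 + l) * v x₃) := by ac_rfl
    · rw [v.map_neg, map_mul, map_mul, h2, one_mul]
      calc v r * v (x₁ + x₂) < 1 * v x₁ :=
            g_mul_lt_of_lt_of_le hr (v.map_add_le le_rfl h12.le) hx0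
        _ = v x₁ * (1 * 1) := by rw [one_mul, one_mul, mul_one]
        _ ≤ v x₁ * (v (1 + l) * v x₃) := mul_le_mul' le_rfl (mul_le_mul' hω1 hx3)
  have hr2 : v (r ^ 2) ≠ 0 := v.ne_zero_iff.mpr (pow_ne_zero 2 hr0)
  have hden : v x₂ * v (x₃ + (l * x₃ + n) - 2 * r) ≠ 0 :=
    mul_ne_zero (v.ne_zero_iff.mpr hx20) (v.ne_zero_iff.mpr hA0)
  rw [idT, map_div₀, v.map_neg, map_mul, map_mul, div_lt_iff₀ (g_pos hden)]
  exact mul_lt_mul_of_pos_left hN (g_pos hr2)

end Core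

end ACT2a

variable {K : Type*} [Field K]

namespace ACT2a

/-- `u ≡ r²` modulo `r² m` implies `u ∈ U`. -/
theorem inU_of_lt {A : ValuationSubring K} {r u : K} (hr0 : r ≠ 0)
    (h : A.valuation (u - r ^ 2) < A.valuation (r ^ 2)) : InU A r u := by
  have hr2 : r ^ 2 ≠ 0 := pow_ne_zero 2 hr0
  refine ⟨-1, ?_⟩
  have e : u * (r ^ 2) ^ (-1 : ℤ) - 1 = (u - r ^ 2) / r ^ 2 := by
    rw [zpow_neg_one]
    field_simp
  rw [e, A.mem_nonunits_iff, map_div₀]
  exact (div_lt_one₀ (g_pos ((A.valuation).ne_zero_iff.mpr hr2))).mpr h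

theorem lamT_out {A : ValuationSubring K} {r x y : K} (hx : x ∉ A.nonunits) :
    lamT A r x y = -(x - y - 2 * r) / (x + y - 2 * r) := by
  unfold lamT
  rw [if_pos hx]

theorem lamT_plus {A : ValuationSubring K} {r x y : K} (hx : x ∈ A.nonunits) (hm : x / r ∉ A)
    (hP : (y - x) / x ∈ A.nonunits) : lamT A r x y = x := by
  unfold lamT
  rw [if_neg (not_not.mpr hx), if_neg hm, if_pos hP]

theorem lamT_minus {A : ValuationSubring K} {r x y : K} (hx : x ∈ A.nonunits) (hm : x / r ∉ A)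
    (hP : (y - x) / x ∉ A.nonunits) : lamT A r x y = r ^ 2 / x := by
  unfold lamT
  rw [if_neg (not_not.mpr hx), if_neg hm, if_neg hP]

end ACT2a

open ACT2a in
theorem act2a {A : ValuationSubring K} {r x₁ y₁ x₂ y₂ x₃ y₃ l n : K} (hN : NodeHyp A r)
    (h : Collinear3 r x₁ y₁ x₂ y₂ x₃ y₃ l n)
    (h₁ : x₁ ∈ A.nonunits) (h₂ : x₂ ∈ A.nonunits) (h₃ : x₃ ∉ A.nonunits)
    (hm : x₁ / r ∉ A) :
    InU A r (lamT A r x₁ y₁ * lamT A r x₂ y₂ * lamT A r x₃ y₃) := by
  obtain ⟨on₁, on₂, -, rfl, rfl, rfl, hv1, -, hv3⟩ := h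
  obtain ⟨h2, hr, hr0⟩ := hN
  have h4 : A.valuation 4 = 1 := v_four _ h2
  have h20 : (2 : K) ≠ 0 := by
    rw [← (A.valuation).ne_zero_iff, h2]; exact one_ne_zero
  have h40 : (4 : K) ≠ 0 := by
    rw [← (A.valuation).ne_zero_iff, h4]; exact one_ne_zero
  have hs : 4 * (x₁ + x₂ + x₃) = l ^ 2 - 1 + 16 * r := by
    rw [hv1]; field_simp
  have hq : 4 * x₁ * x₂ * x₃ = n ^ 2 := by
    have e : 4 * x₁ * x₂ * x₃ = 4 * (x₁ * x₂ * x₃) := by ring
    rw [e, hv3]; field_simp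
  have hx1 : A.valuation x₁ < 1 := A.mem_nonunits_iff.mp h₁
  have hx2 : A.valuation x₂ < 1 := A.mem_nonunits_iff.mp h₂
  have hx3 : 1 ≤ A.valuation x₃ := not_lt.mp (fun hlt => h₃ (A.mem_nonunits_iff.mpr hlt))
  have hr1 : A.valuation r < 1 := A.mem_nonunits_iff.mp hr
  have hvr0 : A.valuation r ≠ 0 := (A.valuation).ne_zero_iff.mpr hr0
  have hmv : A.valuation r < A.valuation x₁ := by
    by_contra hcon
    rw [not_lt] at hcon
    apply hm
    rw [← A.valuation_le_one_iff, map_div₀]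
    exact (div_le_one₀ (g_pos hvr0)).mpr hcon
  have hx10 : A.valuation x₁ ≠ 0 := ne_of_gt (lt_of_le_of_lt zero_le hmv)
  obtain ⟨hω, hω2, hω1, hsm⟩ := omega A.valuation h2 hr1 hs hx1 hx2 hx3
  have hω0 : A.valuation (1 + l) ≠ 0 := ne_of_gt (lt_of_lt_of_le zero_lt_one hω1)
  have hkey : (1 + l) * (1 - l) = -(4 * x₃) + (16 * r - 4 * x₁ - 4 * x₂) := by
    linear_combination hs
  have c1 : (l * x₁ + n) ^ 2 = x₁ * (x₁ - 4 * r) * (4 * x₁ + 1) := on₁
  have c2 : (l * x₂ + n) ^ 2 = x₂ * (x₂ - 4 * r) * (4 * x₂ + 1) := on₂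
  have hb1 := branch A.valuation h2 hr1 c1 hx1 hmv
  have hn := nu_abs A.valuation hω hω1 hb1
  have h12 : A.valuation x₂ = A.valuation x₁ := by
    have hnsq : A.valuation n ^ 2 = A.valuation x₁ * A.valuation x₂ * A.valuation x₃ := by
      rw [← map_pow, ← hq, map_mul, map_mul, map_mul, h4, one_mul]
    rw [hn, ← hω2] at hnsq
    have e : (A.valuation x₁ * (A.valuation (1 + l) * A.valuation (1 + l))) * A.valuation x₁
        = (A.valuation x₁ * (A.valuation (1 + l) * A.valuation (1 + l))) * A.valuation x₂ := by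
      calc (A.valuation x₁ * (A.valuation (1 + l) * A.valuation (1 + l))) * A.valuation x₁
          = (A.valuation (1 + l) * A.valuation x₁) ^ 2 := by rw [sq]; ac_rfl
        _ = A.valuation x₁ * A.valuation x₂ * (A.valuation (1 + l) * A.valuation (1 + l)) := hnsq
        _ = (A.valuation x₁ * (A.valuation (1 + l) * A.valuation (1 + l))) * A.valuation x₂ := by
            ac_rfl
    exact (mul_left_cancel₀ (mul_ne_zero hx10 (mul_ne_zero hω0 hω0)) e).symm
  have hx20 : A.valuation x₂ ≠ 0 := by rw [h12]; exact hx10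
  have hmv2 : A.valuation r < A.valuation x₂ := by rw [h12]; exact hmv
  have hm2 : x₂ / r ∉ A := by
    rw [← A.valuation_le_one_iff, map_div₀, div_le_one₀ (g_pos hvr0), not_le]
    exact hmv2
  have hb2 := branch A.valuation h2 hr1 c2 hx2 hmv2
  have hPiff : ∀ x : K, A.valuation x ≠ 0 →
      ((l * x + n - x) / x ∈ A.nonunits ↔ A.valuation (l * x + n - x) < A.valuation x) := by
    intro x hx
    rw [A.mem_nonunits_iff, map_div₀, div_lt_one₀ (g_pos hx)]
  have e3 := lamT_out (A := A) (r := r) (y := l * x₃ + n) h₃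
  rcases hb1 with hP1 | hM1
  · rcases hb2 with hP2 | hM2
    · exact (not_both_P A.valuation h2 hkey hsm hq hω hω2 hω1 hn h12 hx10 hP1 hP2).elim
    · have hnP2 : ¬ A.valuation (l * x₂ + n - x₂) < A.valuation x₂ :=
        fun hP2 => not_P_and_M A.valuation h2 hP2 hM2
      have e1 := lamT_plus (y := l * x₁ + n) h₁ hm ((hPiff x₁ hx10).mpr hP1)
      have e2 := lamT_minus (y := l * x₂ + n) h₂ hm2 (fun hh => hnP2 ((hPiff x₂ hx20).mp hh))
      rw [e1, e2, e3]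
      exact inU_of_lt hr0 (off_T A.valuation h2 hr1 hr0 hω1 hx3 hn h12 hx10 hx1 hP1 hM2)
  · rcases hb2 with hP2 | hM2
    · have hnP1 : ¬ A.valuation (l * x₁ + n - x₁) < A.valuation x₁ :=
        fun hP1 => not_P_and_M A.valuation h2 hP1 hM1
      have e1 := lamT_minus (y := l * x₁ + n) h₁ hm (fun hh => hnP1 ((hPiff x₁ hx10).mp hh))
      have e2 := lamT_plus (y := l * x₂ + n) h₂ hm2 ((hPiff x₂ hx20).mpr hP2)
      rw [e1, e2, e3]
      have hn2 : A.valuation n = A.valuation (1 + l) * A.valuation x₂ := by rw [h12]; exact hn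
      have hT := off_T A.valuation (x₁ := x₂) (x₂ := x₁) (x₃ := x₃) h2 hr1 hr0 hω1 hx3 hn2
        h12.symm hx20 hx2 hP2 hM1
      have e : r ^ 2 / x₁ * x₂ * (-(x₃ - (l * x₃ + n) - 2 * r) / (x₃ + (l * x₃ + n) - 2 * r))
          = x₂ * (r ^ 2 / x₁) * (-(x₃ - (l * x₃ + n) - 2 * r) / (x₃ + (l * x₃ + n) - 2 * r)) := by
        ring
      rw [e]
      exact inU_of_lt hr0 hT
    · exact (not_both_M A.valuation h2 hkey hsm hq hω hω2 hω1 hn h12 hx10 hM1 hM2).elim

end Fermat.Agent.S05
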