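/-
S05 team, Plan A, block ACT2b (owner: helper78): two node-reducing points, the first one on the middle component.
-/
import Fermat.Agent.S05.ACTDefs
import Fermat.Agent.S05.ACT2a

set_option autoImplicit false

namespace Fermat.Agent.S05

namespace ACT2b

open ACT2a

section Core

variable {K : Type*} [Field K] {Γ : Type*} [LinearOrderedCommGroupWithZero Γ] (v : Valuation K Γ)

theorem idT_mid {A₁ A₂ B C r : K} (h2 : (2 : K) ≠ 0) (hC : C ≠ 0) :
    A₁ / 2 * (A₂ / 2) * (-B / C) - r ^ 2 = -(A₁ * A₂ * B + 4 * r ^ 2 * C) / (4 * C) := by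
  have h4 : (4 : K) ≠ 0 := by
    have e : (4 : K) = 2 * 2 := by norm_num
    rw [e]; exact mul_ne_zero h2 h2
  field_simp
  ring

/-- The main estimate: both node-reducing points on the middle component. -/
theorem mid_T {r x₁ x₂ x₃ l n : K} (h2 : v 2 = 1) (hr : v r < 1) (hr0 : r ≠ 0)
    (hs : 4 * (x₁ + x₂ + x₃) = l ^ 2 - 1 + 16 * r)
    (hp : 2 * (x₁ * x₂ + x₁ * x₃ + x₂ * x₃) = -(2 * r) - l * n)
    (hq : 4 * x₁ * x₂ * x₃ = n ^ 2)
    (c1 : (l * x₁ + n) ^ 2 = x₁ * (x₁ - 4 * r) * (4 * x₁ + 1))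
    (hω : v (1 - l) = v (1 + l)) (hω2 : v (1 + l) * v (1 + l) = v x₃) (hω1 : 1 ≤ v (1 + l))
    (hx1 : v x₁ ≤ v r) (hx2 : v x₂ ≤ v r) :
    v ((x₁ + (l * x₁ + n) - 2 * r) / 2 * ((x₂ + (l * x₂ + n) - 2 * r) / 2)
        * (-(x₃ - (l * x₃ + n) - 2 * r) / (x₃ + (l * x₃ + n) - 2 * r)) - r ^ 2) < v (r ^ 2) := by
  have h4 : v 4 = 1 := v_four v h2
  have h16 : v 16 = 1 := v_sixteen v h2
  have hρ0 : v r ≠ 0 := v.ne_zero_iff.mpr hr0
  have hω0 : v (1 + l) ≠ 0 := ne_of_gt (lt_of_lt_of_le zero_lt_one hω1)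
  have hx3 : 1 ≤ v x₃ := by
    rw [← hω2]
    calc (1 : Γ) = 1 * 1 := (one_mul 1).symm
      _ ≤ v (1 + l) * v (1 + l) := mul_le_mul' hω1 hω1
  have hx30 : v x₃ ≠ 0 := ne_of_gt (lt_of_lt_of_le zero_lt_one hx3)
  have h2r : v (2 * r) = v r := by rw [map_mul, h2, one_mul]
  have h4r : v (4 * r) = v r := by rw [map_mul, h4, one_mul]
  -- `|n| ≤ |r| ω`
  have hn : v n ≤ v r * v (1 + l) := by
    by_contra hcon
    rw [not_le] at hcon
    have h1 : (v r * v (1 + l)) * (v r * v (1 + l)) < v n * v n :=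
      g_mul_lt_of_lt_of_lt hcon hcon
    have h3 : v n * v n = v x₁ * v x₂ * v x₃ := by
      rw [← map_mul, ← sq, ← hq, map_mul, map_mul, map_mul, h4, one_mul]
    have h5 : v x₁ * v x₂ * v x₃ ≤ (v r * v (1 + l)) * (v r * v (1 + l)) := by
      rw [← hω2]
      calc v x₁ * v x₂ * (v (1 + l) * v (1 + l)) ≤ v r * v r * (v (1 + l) * v (1 + l)) :=
            mul_le_mul' (mul_le_mul' hx1 hx2) le_rfl
        _ = (v r * v (1 + l)) * (v r * v (1 + l)) := by ac_rfl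
    rw [h3] at h1
    exact absurd h1 (not_lt.mpr h5)
  have hle_ρω : v r ≤ v r * v (1 + l) := by
    calc v r = v r * 1 := (mul_one _).symm
      _ ≤ v r * v (1 + l) := mul_le_mul' le_rfl hω1
  have hnp : v (n + 2 * r) ≤ v r * v (1 + l) := v.map_add_le hn (h2r.le.trans hle_ρω)
  have hnm : v (n - 2 * r) ≤ v r * v (1 + l) := v.map_sub_le hn (h2r.le.trans hle_ρω)
  -- `|y₁| ≤ |r|`
  have hx1m4r : v (x₁ - 4 * r) ≤ v r := v.map_sub_le hx1 h4r.le
  have hY1 : v (l * x₁ + n) ≤ v r := by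
    by_contra hcon
    rw [not_le] at hcon
    have h1 : v r * v r < v (l * x₁ + n) * v (l * x₁ + n) := g_mul_lt_of_lt_of_lt hcon hcon
    have h3 : v (l * x₁ + n) * v (l * x₁ + n) = v x₁ * v (x₁ - 4 * r) * v (4 * x₁ + 1) := by
      rw [← map_mul, ← sq, c1, map_mul, map_mul]
    have h41 : v (4 * x₁ + 1) ≤ 1 := by
      refine v.map_add_le ?_ (le_of_eq v.map_one)
      rw [map_mul, h4, one_mul]; exact hx1.trans hr.le
    have h5 : v x₁ * v (x₁ - 4 * r) * v (4 * x₁ + 1) ≤ v r * v r := by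
      calc v x₁ * v (x₁ - 4 * r) * v (4 * x₁ + 1) ≤ v r * v r * 1 :=
            mul_le_mul' (mul_le_mul' hx1 hx1m4r) h41
        _ = v r * v r := mul_one _
    rw [h3] at h1
    exact absurd h1 (not_lt.mpr h5)
  have hA1 : v (x₁ + (l * x₁ + n) - 2 * r) ≤ v r :=
    v.map_sub_le (v.map_add_le hx1 hY1) h2r.le
  -- `|A₃| = ω³`
  have hA3 : v (x₃ + (l * x₃ + n) - 2 * r) = v (1 + l) * v x₃ := by
    have e : x₃ + (l * x₃ + n) - 2 * r = (1 + l) * x₃ + n + -(2 * r) := by ring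
    refine (dom3 v e ?_ ?_).trans (map_mul _ _ _)
    · rw [map_mul]
      calc v n ≤ v r * v (1 + l) := hn
        _ < 1 * v (1 + l) := mul_lt_mul_of_pos_right hr (g_pos hω0)
        _ = v (1 + l) * 1 := by rw [one_mul, mul_one]
        _ ≤ v (1 + l) * v x₃ := mul_le_mul' le_rfl hx3
    · rw [v.map_neg, h2r, map_mul]
      calc v r < 1 := hr
        _ = 1 * 1 := (one_mul 1).symm
        _ ≤ v (1 + l) * v x₃ := mul_le_mul' hω1 hx3
  have hA30 : x₃ + (l * x₃ + n) - 2 * r ≠ 0 := by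
    rw [← v.ne_zero_iff, hA3]; exact mul_ne_zero hω0 hx30
  have h20 : (2 : K) ≠ 0 := by rw [← v.ne_zero_iff, h2]; exact one_ne_zero
  -- the identities
  have idT := idT_mid (A₁ := x₁ + (l * x₁ + n) - 2 * r) (A₂ := x₂ + (l * x₂ + n) - 2 * r)
    (B := x₃ - (l * x₃ + n) - 2 * r) (r := r) h20 hA30
  have idN : (x₁ + (l * x₁ + n) - 2 * r) * (x₂ + (l * x₂ + n) - 2 * r) * (x₃ - (l * x₃ + n) - 2 * r)
      + 4 * r ^ 2 * (x₃ + (l * x₃ + n) - 2 * r)
      = (x₁ + (l * x₁ + n) - 2 * r) * (n ^ 2 + (16 * r - 4 * x₁ - 4 * x₂) * x₃ * (x₁ + x₂)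
          - (n + 2 * r) * (1 + l) * x₂ + (n - 2 * r) * (1 - l) * x₁
          - 2 * (n - 2 * r) * (n + 2 * r))
        + 4 * (x₃ + (l * x₃ + n) - 2 * r) * (x₁ * x₁) * (x₁ - 4 * r) := by
    linear_combination (x₁ + (l * x₁ + n) - 2 * r) * x₃ * (x₁ + x₂) * hs
      - 2 * (x₁ + (l * x₁ + n) - 2 * r) * x₃ * hp + (x₁ + (l * x₁ + n) - 2 * r) * hq
      + (x₃ + (l * x₃ + n) - 2 * r) * c1
  -- bounds
  have hS : v (16 * r - 4 * x₁ - 4 * x₂) ≤ v r := by
    refine v.map_sub_le (v.map_sub_le ?_ ?_) ?_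
    · rw [map_mul, h16, one_mul]
    · rw [map_mul, h4, one_mul]; exact hx1
    · rw [map_mul, h4, one_mul]; exact hx2
  have hJ : v (n ^ 2 + (16 * r - 4 * x₁ - 4 * x₂) * x₃ * (x₁ + x₂)
          - (n + 2 * r) * (1 + l) * x₂ + (n - 2 * r) * (1 - l) * x₁
          - 2 * (n - 2 * r) * (n + 2 * r))
      ≤ v r * v r * (v (1 + l) * v (1 + l)) := by
    refine v.map_sub_le (v.map_add_le (v.map_sub_le (v.map_add_le ?_ ?_) ?_) ?_) ?_
    · rw [sq, map_mul]
      calc v n * v n ≤ (v r * v (1 + l)) * (v r * v (1 + l)) := mul_le_mul' hn hn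
        _ = v r * v r * (v (1 + l) * v (1 + l)) := by ac_rfl
    · rw [map_mul, map_mul, ← hω2]
      calc v (16 * r - 4 * x₁ - 4 * x₂) * (v (1 + l) * v (1 + l)) * v (x₁ + x₂)
          ≤ v r * (v (1 + l) * v (1 + l)) * v r :=
            mul_le_mul' (mul_le_mul' hS le_rfl) (v.map_add_le hx1 hx2)
        _ = v r * v r * (v (1 + l) * v (1 + l)) := by ac_rfl
    · rw [map_mul, map_mul]
      calc v (n + 2 * r) * v (1 + l) * v x₂ ≤ (v r * v (1 + l)) * v (1 + l) * v r :=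
            mul_le_mul' (mul_le_mul' hnp le_rfl) hx2
        _ = v r * v r * (v (1 + l) * v (1 + l)) := by ac_rfl
    · rw [map_mul, map_mul, hω]
      calc v (n - 2 * r) * v (1 + l) * v x₁ ≤ (v r * v (1 + l)) * v (1 + l) * v r :=
            mul_le_mul' (mul_le_mul' hnm le_rfl) hx1
        _ = v r * v r * (v (1 + l) * v (1 + l)) := by ac_rfl
    · rw [map_mul, map_mul, h2, one_mul]
      calc v (n - 2 * r) * v (n + 2 * r) ≤ (v r * v (1 + l)) * (v r * v (1 + l)) :=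
            mul_le_mul' hnm hnp
        _ = v r * v r * (v (1 + l) * v (1 + l)) := by ac_rfl
  have hNum : v ((x₁ + (l * x₁ + n) - 2 * r) * (n ^ 2 + (16 * r - 4 * x₁ - 4 * x₂) * x₃ * (x₁ + x₂)
          - (n + 2 * r) * (1 + l) * x₂ + (n - 2 * r) * (1 - l) * x₁
          - 2 * (n - 2 * r) * (n + 2 * r))
        + 4 * (x₃ + (l * x₃ + n) - 2 * r) * (x₁ * x₁) * (x₁ - 4 * r))
      < v r * v r * (v (1 + l) * v x₃) := by
    have hpos : v r * v r * (v (1 + l) * v (1 + l)) ≠ 0 :=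
      mul_ne_zero (mul_ne_zero hρ0 hρ0) (mul_ne_zero hω0 hω0)
    refine v.map_add_lt ?_ ?_
    · rw [map_mul]
      calc v (x₁ + (l * x₁ + n) - 2 * r) * v (n ^ 2 + (16 * r - 4 * x₁ - 4 * x₂) * x₃ * (x₁ + x₂)
              - (n + 2 * r) * (1 + l) * x₂ + (n - 2 * r) * (1 - l) * x₁
              - 2 * (n - 2 * r) * (n + 2 * r))
          ≤ v r * (v r * v r * (v (1 + l) * v (1 + l))) := mul_le_mul' hA1 hJ
        _ < 1 * (v r * v r * (v (1 + l) * v (1 + l))) :=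
            mul_lt_mul_of_pos_right hr (g_pos hpos)
        _ = v r * v r * (1 * (v (1 + l) * v (1 + l))) := by rw [one_mul, one_mul]
        _ ≤ v r * v r * (v (1 + l) * (v (1 + l) * v (1 + l))) :=
            mul_le_mul' le_rfl (mul_le_mul' hω1 le_rfl)
        _ = v r * v r * (v (1 + l) * v x₃) := by rw [hω2]
    · rw [map_mul, map_mul, map_mul, map_mul, h4, one_mul, hA3]
      calc v (1 + l) * v x₃ * (v x₁ * v x₁) * v (x₁ - 4 * r)
          ≤ v (1 + l) * v x₃ * (v r * v r) * v r :=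
            mul_le_mul' (mul_le_mul' le_rfl (mul_le_mul' hx1 hx1)) hx1m4r
        _ < v (1 + l) * v x₃ * (v r * v r) * 1 :=
            mul_lt_mul_of_pos_left hr
              (g_pos (mul_ne_zero (mul_ne_zero hω0 hx30) (mul_ne_zero hρ0 hρ0)))
        _ = v r * v r * (v (1 + l) * v x₃) := by rw [mul_one]; ac_rfl
  have hr2 : v (r ^ 2) = v r * v r := by rw [sq, map_mul]
  rw [idT, idN, map_div₀, v.map_neg, map_mul, h4, one_mul, hA3, hr2,
    div_lt_iff₀ (g_pos (mul_ne_zero hω0 hx30))]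
  exact hNum

end Core

variable {K : Type*} [Field K]

theorem lamT_mid {A : ValuationSubring K} {r x y : K} (hx : x ∈ A.nonunits) (hm : x / r ∈ A) :
    lamT A r x y = (x + y - 2 * r) / 2 := by
  unfold lamT
  rw [if_neg (not_not.mpr hx), if_pos hm]

end ACT2b

variable {K : Type*} [Field K]

open ACT2a ACT2b in
theorem act2b {A : ValuationSubring K} {r x₁ y₁ x₂ y₂ x₃ y₃ l n : K} (hN : NodeHyp A r)
    (h : Collinear3 r x₁ y₁ x₂ y₂ x₃ y₃ l n)
    (h₁ : x₁ ∈ A.nonunits) (h₂ : x₂ ∈ A.nonunits) (h₃ : x₃ ∉ A.nonunits)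
    (hm : x₁ / r ∈ A) :
    InU A r (lamT A r x₁ y₁ * lamT A r x₂ y₂ * lamT A r x₃ y₃) := by
  obtain ⟨on₁, on₂, -, rfl, rfl, rfl, hv1, hv2, hv3⟩ := h
  obtain ⟨h2, hr, hr0⟩ := hN
  have h4 : A.valuation 4 = 1 := v_four _ h2
  have h20 : (2 : K) ≠ 0 := by
    rw [← (A.valuation).ne_zero_iff, h2]; exact one_ne_zero
  have h40 : (4 : K) ≠ 0 := by
    rw [← (A.valuation).ne_zero_iff, h4]; exact one_ne_zero
  have hs : 4 * (x₁ + x₂ + x₃) = l ^ 2 - 1 + 16 * r := by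
    rw [hv1]; field_simp
  have hp : 2 * (x₁ * x₂ + x₁ * x₃ + x₂ * x₃) = -(2 * r) - l * n := by
    rw [hv2]; field_simp
  have hq : 4 * x₁ * x₂ * x₃ = n ^ 2 := by
    have e : 4 * x₁ * x₂ * x₃ = 4 * (x₁ * x₂ * x₃) := by ring
    rw [e, hv3]; field_simp
  have hx1 : A.valuation x₁ < 1 := A.mem_nonunits_iff.mp h₁
  have hx2 : A.valuation x₂ < 1 := A.mem_nonunits_iff.mp h₂
  have hx3 : 1 ≤ A.valuation x₃ := not_lt.mp (fun hlt => h₃ (A.mem_nonunits_iff.mpr hlt))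
  have hr1 : A.valuation r < 1 := A.mem_nonunits_iff.mp hr
  have hvr0 : A.valuation r ≠ 0 := (A.valuation).ne_zero_iff.mpr hr0
  have hx1r : A.valuation x₁ ≤ A.valuation r := by
    rw [← A.valuation_le_one_iff, map_div₀, div_le_one₀ (g_pos hvr0)] at hm
    exact hm
  obtain ⟨hω, hω2, hω1, -⟩ := omega A.valuation h2 hr1 hs hx1 hx2 hx3
  have hω0 : A.valuation (1 + l) ≠ 0 := ne_of_gt (lt_of_lt_of_le zero_lt_one hω1)
  have c1 : (l * x₁ + n) ^ 2 = x₁ * (x₁ - 4 * r) * (4 * x₁ + 1) := on₁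
  have c2 : (l * x₂ + n) ^ 2 = x₂ * (x₂ - 4 * r) * (4 * x₂ + 1) := on₂
  have hx2r : A.valuation x₂ ≤ A.valuation r := by
    by_contra hcon
    rw [not_le] at hcon
    have hx20 : A.valuation x₂ ≠ 0 := ne_of_gt (lt_of_le_of_lt zero_le hcon)
    have hn := nu_abs A.valuation hω hω1 (branch A.valuation h2 hr1 c2 hx2 hcon)
    have hnsq : A.valuation n ^ 2 = A.valuation x₁ * A.valuation x₂ * A.valuation x₃ := by
      rw [← map_pow, ← hq, map_mul, map_mul, map_mul, h4, one_mul]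
    rw [hn, ← hω2] at hnsq
    have e : (A.valuation x₂ * (A.valuation (1 + l) * A.valuation (1 + l))) * A.valuation x₂
        = (A.valuation x₂ * (A.valuation (1 + l) * A.valuation (1 + l))) * A.valuation x₁ := by
      calc (A.valuation x₂ * (A.valuation (1 + l) * A.valuation (1 + l))) * A.valuation x₂
          = (A.valuation (1 + l) * A.valuation x₂) ^ 2 := by rw [sq]; ac_rfl
        _ = A.valuation x₁ * A.valuation x₂ * (A.valuation (1 + l) * A.valuation (1 + l)) := hnsq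
        _ = (A.valuation x₂ * (A.valuation (1 + l) * A.valuation (1 + l))) * A.valuation x₁ := by
            ac_rfl
    have h21 := mul_left_cancel₀ (mul_ne_zero hx20 (mul_ne_zero hω0 hω0)) e
    rw [h21] at hcon
    exact absurd hcon (not_lt.mpr hx1r)
  have hm2 : x₂ / r ∈ A := by
    rw [← A.valuation_le_one_iff, map_div₀, div_le_one₀ (g_pos hvr0)]
    exact hx2r
  rw [lamT_mid (y := l * x₁ + n) h₁ hm, lamT_mid (y := l * x₂ + n) h₂ hm2,
    lamT_out (A := A) (r := r) (y := l * x₃ + n) h₃]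
  exact inU_of_lt hr0 (mid_T A.valuation h2 hr1 hr0 hs hp hq c1 hω hω2 hω1 hx1r hx2r)

end Fermat.Agent.S05
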