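/-
S05 team, Plan A, block ACT3a (owner: helper2): three node-reducing points, none on the middle component.
-/
import Fermat.Agent.S05.ACTDefs

set_option autoImplicit false

namespace Fermat.Agent.S05

variable {K : Type*} [Field K]

namespace ACT3aAux

section Val

variable {Γ : Type*} [LinearOrderedCommGroupWithZero Γ] (v : Valuation K Γ)

theorem val_four (h2 : v 2 = 1) : v 4 = 1 := by
  have : (4 : K) = 2 * 2 := by norm_num
  rw [this, map_mul, h2, mul_one]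

theorem val_eight (h2 : v 2 = 1) : v 8 = 1 := by
  have : (8 : K) = 2 * 2 * 2 := by norm_num
  rw [this, map_mul, map_mul, h2, mul_one, mul_one]

theorem val_pos {x : K} (hx : x ≠ 0) : 0 < v x :=
  zero_lt_iff.mpr (v.ne_zero_iff.mpr hx)

theorem mul_lt_self_of_lt_one {a b : Γ} (ha : a < 1) (hb : 0 < b) : a * b < b := by
  calc a * b < 1 * b := mul_lt_mul_of_pos_right ha hb
  _ = b := one_mul _

/-- `v (a - b) < v b → v a = v b`. -/
theorem val_eq_of_sub_lt {a b : K} (h : v (a - b) < v b) : v a = v b := by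
  have h' : v (a - b + b) = v b := v.map_add_eq_of_lt_right h
  rwa [sub_add_cancel] at h'

theorem ratio_sub_one_lt {a b : K} (h : v (a - b) < v b) : v (a / b - 1) < 1 := by
  have hb : b ≠ 0 := by
    rintro rfl
    simp at h
  have hvb : 0 < v b := val_pos v hb
  have : a / b - 1 = (a - b) / b := by field_simp
  rw [this, map_div₀]
  exact (div_lt_one₀ hvb).mpr h

theorem ratio_sub_one_lt' {a b : K} (h : v (a - b) < v b) : v (b / a - 1) < 1 := by
  have hab : v a = v b := val_eq_of_sub_lt v h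
  have h' : v (b - a) < v a := by rw [hab, v.map_sub_swap]; exact h
  exact ratio_sub_one_lt v h'

/-- Two points of "disagreeing" type are impossible. -/
theorem two_disagree_false {x₁ x₂ x₃ n : K} (h2 : v 2 = 1) (h1 : v x₁ < 1) (hx₂ : x₂ ≠ 0)
    (hv3 : x₁ * x₂ * x₃ = n ^ 2 / 4) (e2 : v n = v x₂) (e3 : v n = v x₃) : False := by
  have h4 : v 4 = 1 := val_four v h2
  have hprod := congrArg v hv3
  rw [map_div₀, map_pow, h4, div_one, map_mul, map_mul, ← e2, ← e3, pow_two, mul_assoc] at hprod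
  have hn : 0 < v n := by rw [e2]; exact val_pos v hx₂
  have : v x₁ * (v n * v n) < v n * v n := mul_lt_self_of_lt_one h1 (mul_pos hn hn)
  exact absurd hprod this.ne

/-- Exactly one point (`x₃`) of "disagreeing" type. -/
theorem one_disagree {x₁ x₂ x₃ n d : K} (h2 : v 2 = 1) (hd : d = 1 ∨ d = -1) (hx₃ : x₃ ≠ 0)
    (hv3 : x₁ * x₂ * x₃ = n ^ 2 / 4) (hdis : v (n + 2 * d * x₃) < v x₃) :
    v (x₁ * x₂ - x₃) < v x₃ := by
  have h4 : v 4 = 1 := val_four v h2
  have h4' : (4 : K) ≠ 0 := by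
    intro h; rw [h, map_zero] at h4; exact zero_ne_one h4
  have hd2 : d ^ 2 = 1 := by rcases hd with rfl | rfl <;> ring
  have hvd : v d = 1 := by rcases hd with rfl | rfl <;> simp
  have h3 : 0 < v x₃ := val_pos v hx₃
  have key : (x₁ * x₂ - x₃) * (4 * x₃) = (n - 2 * d * x₃) * (n + 2 * d * x₃) := by
    have e1 : (n - 2 * d * x₃) * (n + 2 * d * x₃) = n ^ 2 - 4 * d ^ 2 * x₃ ^ 2 := by ring
    have e2 : n ^ 2 = 4 * (x₁ * x₂ * x₃) := by rw [hv3]; field_simp
    rw [e1, hd2, e2]; ring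
  have hle : v (n - 2 * d * x₃) ≤ v x₃ := by
    have : n - 2 * d * x₃ = (n + 2 * d * x₃) - 4 * d * x₃ := by ring
    rw [this]
    apply v.map_sub_le hdis.le
    rw [map_mul, map_mul, h4, hvd, one_mul, one_mul]
  have hk := congrArg v key
  rw [map_mul, map_mul, map_mul, h4, one_mul] at hk
  have hlt : v (x₁ * x₂ - x₃) * v x₃ < v x₃ * v x₃ := by
    rw [hk]
    exact mul_lt_mul_of_le_of_lt_of_nonneg_of_pos hle hdis zero_le h3
  exact lt_of_mul_lt_mul_right hlt zero_le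

/-- All three points of "agreeing" type. -/
theorem all_agree {r x₁ x₂ x₃ l n : K} (h2 : v 2 = 1)
    (hx₁ : x₁ ≠ 0) (hx₂ : x₂ ≠ 0) (hx₃ : x₃ ≠ 0)
    (hl : v (l ^ 2 - 1) < 1)
    (hv2 : x₁ * x₂ + x₁ * x₃ + x₂ * x₃ = -r - l * n / 2)
    (hv3 : x₁ * x₂ * x₃ = n ^ 2 / 4)
    (hn1 : v n < v x₁) (hn2 : v n < v x₂) (hn3 : v n < v x₃) :
    v (x₁ * x₂ * x₃ - r ^ 2) < v r ^ 2 := by
  have h4 : v 4 = 1 := val_four v h2
  have h8 : v 8 = 1 := val_eight v h2
  have h4' : (4 : K) ≠ 0 := by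
    intro h; rw [h, map_zero] at h4; exact zero_ne_one h4
  have h2' : (2 : K) ≠ 0 := by
    intro h; rw [h, map_zero] at h2; exact zero_ne_one h2
  have hn0 : n ≠ 0 := by
    rintro rfl
    have : x₁ * x₂ * x₃ = 0 := by rw [hv3]; simp
    simp [hx₁, hx₂, hx₃] at this
  have hn : 0 < v n := val_pos v hn0
  have hprod : v x₁ * v x₂ * v x₃ = v n * v n := by
    have := congrArg v hv3
    rwa [map_div₀, map_pow, h4, div_one, map_mul, map_mul, pow_two] at this
  have p12 : v (x₁ * x₂) < v n := by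
    rw [map_mul]
    have : v x₁ * v x₂ * v x₃ < v n * v x₃ := by
      rw [hprod]; exact mul_lt_mul_of_pos_left hn3 hn
    exact lt_of_mul_lt_mul_right this zero_le
  have p13 : v (x₁ * x₃) < v n := by
    rw [map_mul]
    have : v x₁ * v x₃ * v x₂ < v n * v x₂ := by
      rw [mul_right_comm, hprod]; exact mul_lt_mul_of_pos_left hn2 hn
    exact lt_of_mul_lt_mul_right this zero_le
  have p23 : v (x₂ * x₃) < v n := by
    rw [map_mul]
    have : v x₂ * v x₃ * v x₁ < v n * v x₁ := by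
      rw [mul_comm, ← mul_assoc, hprod]; exact mul_lt_mul_of_pos_left hn1 hn
    exact lt_of_mul_lt_mul_right this zero_le
  have he : v (x₁ * x₂ + x₁ * x₃ + x₂ * x₃) < v n := v.map_add_lt (v.map_add_lt p12 p13) p23
  generalize x₁ * x₂ + x₁ * x₃ + x₂ * x₃ = e₂ at hv2 he
  have hln : l * n = -2 * (r + e₂) := by
    rw [hv2]; field_simp; ring
  have hsq : (l * n) ^ 2 = 4 * (r + e₂) ^ 2 := by rw [hln]; ring
  have hl1 : v ((l ^ 2 - 1) * n ^ 2) < v n * v n := by
    rw [map_mul, map_pow, pow_two (v n)]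
    exact mul_lt_self_of_lt_one hl (mul_pos hn hn)
  have hvsq : v (r + e₂) * v (r + e₂) = v n * v n := by
    have e : (l * n) ^ 2 = n ^ 2 + (l ^ 2 - 1) * n ^ 2 := by ring
    have h1 : v ((l * n) ^ 2) = v (n ^ 2) := by
      rw [e]; apply v.map_add_eq_of_lt_left
      rw [map_pow, pow_two (v n)]; exact hl1
    rw [hsq, map_mul, h4, one_mul, map_pow, map_pow, pow_two, pow_two] at h1
    exact h1
  have hnr : v n ≤ v r := by
    by_contra hlt
    push Not at hlt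
    have h1 : v (r + e₂) < v n := v.map_add_lt hlt he
    have : v (r + e₂) * v (r + e₂) < v n * v n :=
      mul_lt_mul'' h1 h1 zero_le zero_le
    exact absurd hvsq this.ne
  have hr : 0 < v r := lt_of_lt_of_le hn hnr
  have her : v e₂ < v r := lt_of_lt_of_le he hnr
  have key : x₁ * x₂ * x₃ - r ^ 2 = (8 * r * e₂ + 4 * e₂ ^ 2 - (l ^ 2 - 1) * n ^ 2) / 4 := by
    rw [hv3]
    field_simp
    linear_combination hsq
  rw [key, map_div₀, h4, div_one]
  apply v.map_sub_lt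
  · apply v.map_add_lt
    · rw [map_mul, map_mul, h8, one_mul, pow_two]; exact mul_lt_mul_of_pos_left her hr
    · rw [map_mul, h4, one_mul, map_pow, pow_two, pow_two]
      exact mul_lt_mul'' her her zero_le zero_le
  · rw [pow_two (v r)]
    exact lt_of_lt_of_le hl1 (mul_le_mul' hnr hnr)

/-- A point with `|r| < |x| < 1` has `y ≈ x` or `y ≈ -x`. -/
theorem point_dichotomy {r x y : K} (h2 : v 2 = 1) (hr : v r < 1) (hrx : v r < v x)
    (hx : v x < 1) (h : OnNode r x y) : v (y - x) < v x ∨ v (y + x) < v x := by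
  have h4 : v 4 = 1 := val_four v h2
  have hx0 : 0 < v x := lt_of_le_of_lt zero_le hrx
  have key : (y - x) * (y + x) = 4 * x * (x ^ 2 - 4 * r * x - r) := by
    unfold OnNode at h
    linear_combination h
  have hlt : v ((y - x) * (y + x)) < v x * v x := by
    rw [key, map_mul, map_mul, h4, one_mul]
    apply mul_lt_mul_of_pos_left _ hx0
    apply v.map_sub_lt
    · apply v.map_sub_lt
      · rw [map_pow, pow_two]
        exact mul_lt_self_of_lt_one hx hx0
      · rw [map_mul, map_mul, h4, one_mul]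
        exact mul_lt_self_of_lt_one hr hx0
    · exact hrx
  rw [map_mul] at hlt
  by_contra hcon
  push Not at hcon
  exact absurd (mul_le_mul' hcon.1 hcon.2) (not_le.mpr hlt)

theorem agree_of {x y l n d : K} (hline : y = l * x + n) (hl : v (l - d) < 1) (hx : x ≠ 0)
    (h : v (y - d * x) < v x) : v n < v x := by
  have hx0 : 0 < v x := val_pos v hx
  have : n = (y - d * x) - (l - d) * x := by rw [hline]; ring
  rw [this]
  apply v.map_sub_lt h
  rw [map_mul]
  exact mul_lt_self_of_lt_one hl hx0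

theorem disagree_of {x y l n d : K} (hline : y = l * x + n) (hl : v (l - d) < 1) (hx : x ≠ 0)
    (h : v (y + d * x) < v x) : v (n + 2 * d * x) < v x := by
  have hx0 : 0 < v x := val_pos v hx
  have : n + 2 * d * x = (y + d * x) - (l - d) * x := by rw [hline]; ring
  rw [this]
  apply v.map_sub_lt h
  rw [map_mul]
  exact mul_lt_self_of_lt_one hl hx0

theorem val_n_of_disagree {x n d : K} (h2 : v 2 = 1) (hd : d = 1 ∨ d = -1)
    (h : v (n + 2 * d * x) < v x) : v n = v x := by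
  have hvd : v d = 1 := by rcases hd with rfl | rfl <;> simp
  have e : v (2 * d * x) = v x := by rw [map_mul, map_mul, h2, hvd, one_mul, one_mul]
  have h' : v (n + 2 * d * x - 2 * d * x) = v (2 * d * x) :=
    v.map_sub_eq_of_lt_right (by rw [e]; exact h)
  rwa [add_sub_cancel_right, e] at h'

theorem l_dichotomy {l : K} (hl : v (l ^ 2 - 1) < 1) : v (l - 1) < 1 ∨ v (l + 1) < 1 := by
  have e : l ^ 2 - 1 = (l - 1) * (l + 1) := by ring
  rw [e, map_mul] at hl
  by_contra hcon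
  push Not at hcon
  have : (1 : Γ) * 1 ≤ v (l - 1) * v (l + 1) := mul_le_mul' hcon.1 hcon.2
  rw [one_mul] at this
  exact absurd this (not_le.mpr hl)

end Val

theorem inU_of_eq_mul {A : ValuationSubring K} {r u w : K} (j : ℤ) (hr : r ≠ 0)
    (hw : A.valuation (w - 1) < 1) (hu : u = w * (r ^ 2) ^ j) : InU A r u := by
  refine ⟨-j, ?_⟩
  have h0 : (r ^ 2) ^ j ≠ 0 := zpow_ne_zero _ (pow_ne_zero 2 hr)
  have : u * (r ^ 2) ^ (-j) - 1 = w - 1 := by
    rw [hu, zpow_neg, mul_assoc, mul_inv_cancel₀ h0, mul_one]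
  rw [this]
  exact A.mem_nonunits_iff.mpr hw

/-- Evaluation of `lamT` at a node-reducing point off the middle component. -/
theorem lamT_cases {A : ValuationSubring K} {r x y : K} (hN : NodeHyp A r) (h : OnNode r x y)
    (hx : x ∈ A.nonunits) (hm : x / r ∉ A) :
    (lamT A r x y = x ∧ A.valuation (y - x) < A.valuation x) ∨
    (lamT A r x y = r ^ 2 / x ∧ A.valuation (y + x) < A.valuation x) := by
  have hr1 : A.valuation r < 1 := A.mem_nonunits_iff.mp hN.r_mem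
  have hr0 : 0 < A.valuation r := val_pos _ hN.r_ne
  have hx1 : A.valuation x < 1 := A.mem_nonunits_iff.mp hx
  have hrx : A.valuation r < A.valuation x := by
    rw [← A.valuation_le_one_iff, map_div₀, not_le, one_lt_div₀ hr0] at hm
    exact hm
  have hx0 : 0 < A.valuation x := lt_trans hr0 hrx
  have hiff : (y - x) / x ∈ A.nonunits ↔ A.valuation (y - x) < A.valuation x := by
    rw [A.mem_nonunits_iff, map_div₀, div_lt_one₀ hx0]
  by_cases hp : (y - x) / x ∈ A.nonunits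
  · left
    refine ⟨?_, hiff.mp hp⟩
    simp only [lamT, hx, hm, hp, not_true_eq_false, if_false, if_true]
  · right
    refine ⟨?_, ?_⟩
    · simp only [lamT, hx, hm, hp, not_true_eq_false, if_false]
    · rcases point_dichotomy _ hN.two hr1 hrx hx1 h with h' | h'
      · exact absurd (hiff.mpr h') hp
      · exact h'

/-- Core case analysis, uniform in the sign `d` of the slope (`l ≈ d`). `P` is the parameter
of a point of agreeing type, `M` that of a point of disagreeing type. -/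
theorem core {A : ValuationSubring K} {r x₁ x₂ x₃ l n d : K} (hN : NodeHyp A r)
    (hd : d = 1 ∨ d = -1)
    (h₁ : A.valuation x₁ < 1) (h₂ : A.valuation x₂ < 1) (h₃ : A.valuation x₃ < 1)
    (hx₁ : x₁ ≠ 0) (hx₂ : x₂ ≠ 0) (hx₃ : x₃ ≠ 0)
    (hl : A.valuation (l ^ 2 - 1) < 1)
    (hv2 : x₁ * x₂ + x₁ * x₃ + x₂ * x₃ = -r - l * n / 2)
    (hv3 : x₁ * x₂ * x₃ = n ^ 2 / 4)
    {P M : K → K}
    (hPM : (∀ x, P x = x ∧ M x = r ^ 2 / x) ∨ (∀ x, P x = r ^ 2 / x ∧ M x = x))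
    {L₁ L₂ L₃ : K}
    (t₁ : (A.valuation n < A.valuation x₁ ∧ L₁ = P x₁) ∨
      (A.valuation (n + 2 * d * x₁) < A.valuation x₁ ∧ L₁ = M x₁))
    (t₂ : (A.valuation n < A.valuation x₂ ∧ L₂ = P x₂) ∨
      (A.valuation (n + 2 * d * x₂) < A.valuation x₂ ∧ L₂ = M x₂))
    (t₃ : (A.valuation n < A.valuation x₃ ∧ L₃ = P x₃) ∨
      (A.valuation (n + 2 * d * x₃) < A.valuation x₃ ∧ L₃ = M x₃)) :
    InU A r (L₁ * L₂ * L₃) := by
  have h2 := hN.two
  have hr := hN.r_ne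
  rcases t₁ with ⟨a₁, rfl⟩ | ⟨a₁, rfl⟩ <;> rcases t₂ with ⟨a₂, rfl⟩ | ⟨a₂, rfl⟩ <;>
    rcases t₃ with ⟨a₃, rfl⟩ | ⟨a₃, rfl⟩
  · -- all agree
    have key := all_agree _ h2 hx₁ hx₂ hx₃ hl hv2 hv3 a₁ a₂ a₃
    rw [← map_pow] at key
    rcases hPM with hPM | hPM
    · rw [(hPM x₁).1, (hPM x₂).1, (hPM x₃).1]
      refine inU_of_eq_mul 1 hr (ratio_sub_one_lt _ key) ?_
      rw [zpow_one]; field_simp
    · rw [(hPM x₁).1, (hPM x₂).1, (hPM x₃).1]
      refine inU_of_eq_mul 2 hr (ratio_sub_one_lt' _ key) ?_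
      rw [zpow_ofNat]; field_simp
  · -- x₃ disagrees
    have key := one_disagree _ h2 hd hx₃ hv3 a₃
    rcases hPM with hPM | hPM
    · rw [(hPM x₁).1, (hPM x₂).1, (hPM x₃).2]
      refine inU_of_eq_mul 1 hr (ratio_sub_one_lt _ key) ?_
      rw [zpow_one]; field_simp
    · rw [(hPM x₁).1, (hPM x₂).1, (hPM x₃).2]
      refine inU_of_eq_mul 2 hr (ratio_sub_one_lt' _ key) ?_
      rw [zpow_ofNat]; field_simp
  · -- x₂ disagrees
    have hv3' : x₁ * x₃ * x₂ = n ^ 2 / 4 := by rw [← hv3]; ring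
    have key := one_disagree _ h2 hd hx₂ hv3' a₂
    rcases hPM with hPM | hPM
    · rw [(hPM x₁).1, (hPM x₂).2, (hPM x₃).1]
      refine inU_of_eq_mul 1 hr (ratio_sub_one_lt _ key) ?_
      rw [zpow_one]; field_simp
    · rw [(hPM x₁).1, (hPM x₂).2, (hPM x₃).1]
      refine inU_of_eq_mul 2 hr (ratio_sub_one_lt' _ key) ?_
      rw [zpow_ofNat]; field_simp
  · -- x₂, x₃ disagree
    exact (two_disagree_false _ h2 h₁ hx₂ hv3 (val_n_of_disagree _ h2 hd a₂)
      (val_n_of_disagree _ h2 hd a₃)).elim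
  · -- x₁ disagrees
    have hv3' : x₂ * x₃ * x₁ = n ^ 2 / 4 := by rw [← hv3]; ring
    have key := one_disagree _ h2 hd hx₁ hv3' a₁
    rcases hPM with hPM | hPM
    · rw [(hPM x₁).2, (hPM x₂).1, (hPM x₃).1]
      refine inU_of_eq_mul 1 hr (ratio_sub_one_lt _ key) ?_
      rw [zpow_one]; field_simp
    · rw [(hPM x₁).2, (hPM x₂).1, (hPM x₃).1]
      refine inU_of_eq_mul 2 hr (ratio_sub_one_lt' _ key) ?_
      rw [zpow_ofNat]; field_simp
  · -- x₁, x₃ disagree
    have hv3' : x₂ * x₁ * x₃ = n ^ 2 / 4 := by rw [← hv3]; ring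
    exact (two_disagree_false _ h2 h₂ hx₁ hv3' (val_n_of_disagree _ h2 hd a₁)
      (val_n_of_disagree _ h2 hd a₃)).elim
  · -- x₁, x₂ disagree
    have hv3' : x₃ * x₁ * x₂ = n ^ 2 / 4 := by rw [← hv3]; ring
    exact (two_disagree_false _ h2 h₃ hx₁ hv3' (val_n_of_disagree _ h2 hd a₁)
      (val_n_of_disagree _ h2 hd a₂)).elim
  · -- all disagree
    exact (two_disagree_false _ h2 h₁ hx₂ hv3 (val_n_of_disagree _ h2 hd a₂)
      (val_n_of_disagree _ h2 hd a₃)).elim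

end ACT3aAux

open ACT3aAux in
theorem act3a {A : ValuationSubring K} {r x₁ y₁ x₂ y₂ x₃ y₃ l n : K} (hN : NodeHyp A r)
    (h : Collinear3 r x₁ y₁ x₂ y₂ x₃ y₃ l n)
    (h₁ : x₁ ∈ A.nonunits) (h₂ : x₂ ∈ A.nonunits) (h₃ : x₃ ∈ A.nonunits)
    (hm₁ : x₁ / r ∉ A) (hm₂ : x₂ / r ∉ A) (hm₃ : x₃ / r ∉ A) :
    InU A r (lamT A r x₁ y₁ * lamT A r x₂ y₂ * lamT A r x₃ y₃) := by
  have h2 := hN.two
  have h4 : A.valuation 4 = 1 := val_four _ h2
  have h16 : A.valuation 16 = 1 := by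
    have : (16 : K) = 4 * 4 := by norm_num
    rw [this, map_mul, h4, mul_one]
  have hr1 : A.valuation r < 1 := A.mem_nonunits_iff.mp hN.r_mem
  have hv₁ : A.valuation x₁ < 1 := A.mem_nonunits_iff.mp h₁
  have hv₂ : A.valuation x₂ < 1 := A.mem_nonunits_iff.mp h₂
  have hv₃ : A.valuation x₃ < 1 := A.mem_nonunits_iff.mp h₃
  have hx₁ : x₁ ≠ 0 := by
    rintro rfl; exact hm₁ (by rw [zero_div]; exact A.zero_mem)
  have hx₂ : x₂ ≠ 0 := by
    rintro rfl; exact hm₂ (by rw [zero_div]; exact A.zero_mem)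
  have hx₃ : x₃ ≠ 0 := by
    rintro rfl; exact hm₃ (by rw [zero_div]; exact A.zero_mem)
  have hl : A.valuation (l ^ 2 - 1) < 1 := by
    have e : l ^ 2 - 1 = 4 * (x₁ + x₂ + x₃) - 16 * r := by
      rw [h.vieta₁]
      have h4' : (4 : K) ≠ 0 := by
        intro h'; rw [h', map_zero] at h4; exact zero_ne_one h4
      field_simp; ring
    rw [e]
    apply Valuation.map_sub_lt
    · rw [map_mul, h4, one_mul]
      exact Valuation.map_add_lt _ (Valuation.map_add_lt _ hv₁ hv₂) hv₃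
    · rw [map_mul, h16, one_mul]; exact hr1
  rcases l_dichotomy _ hl with hl1 | hl1
  · -- `l ≈ 1`: plus = agree, minus = disagree
    have hl1' : A.valuation (l - 1) < 1 := hl1
    refine core (d := 1) (P := fun x => x) (M := fun x => r ^ 2 / x) hN (Or.inl rfl)
      hv₁ hv₂ hv₃ hx₁ hx₂ hx₃ hl h.vieta₂ h.vieta₃ (Or.inl fun x => ⟨rfl, rfl⟩) ?_ ?_ ?_
    · refine (lamT_cases hN h.on₁ h₁ hm₁).imp (fun ⟨e, p⟩ => ⟨?_, e⟩) (fun ⟨e, p⟩ => ⟨?_, e⟩)
      · exact agree_of _ h.line₁ hl1' hx₁ (by rwa [one_mul])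
      · exact disagree_of _ h.line₁ hl1' hx₁ (by rwa [one_mul])
    · refine (lamT_cases hN h.on₂ h₂ hm₂).imp (fun ⟨e, p⟩ => ⟨?_, e⟩) (fun ⟨e, p⟩ => ⟨?_, e⟩)
      · exact agree_of _ h.line₂ hl1' hx₂ (by rwa [one_mul])
      · exact disagree_of _ h.line₂ hl1' hx₂ (by rwa [one_mul])
    · refine (lamT_cases hN h.on₃ h₃ hm₃).imp (fun ⟨e, p⟩ => ⟨?_, e⟩) (fun ⟨e, p⟩ => ⟨?_, e⟩)
      · exact agree_of _ h.line₃ hl1' hx₃ (by rwa [one_mul])
      · exact disagree_of _ h.line₃ hl1' hx₃ (by rwa [one_mul])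
  · -- `l ≈ -1`: minus = agree, plus = disagree
    have hl1' : A.valuation (l - (-1)) < 1 := by rwa [sub_neg_eq_add]
    refine core (d := -1) (P := fun x => r ^ 2 / x) (M := fun x => x) hN (Or.inr rfl)
      hv₁ hv₂ hv₃ hx₁ hx₂ hx₃ hl h.vieta₂ h.vieta₃ (Or.inr fun x => ⟨rfl, rfl⟩) ?_ ?_ ?_
    · refine (lamT_cases hN h.on₁ h₁ hm₁).symm.imp (fun ⟨e, p⟩ => ⟨?_, e⟩)
        (fun ⟨e, p⟩ => ⟨?_, e⟩)
      · exact agree_of _ h.line₁ hl1' hx₁ (by rwa [neg_one_mul, sub_neg_eq_add])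
      · exact disagree_of _ h.line₁ hl1' hx₁ (by rwa [neg_one_mul, ← sub_eq_add_neg])
    · refine (lamT_cases hN h.on₂ h₂ hm₂).symm.imp (fun ⟨e, p⟩ => ⟨?_, e⟩)
        (fun ⟨e, p⟩ => ⟨?_, e⟩)
      · exact agree_of _ h.line₂ hl1' hx₂ (by rwa [neg_one_mul, sub_neg_eq_add])
      · exact disagree_of _ h.line₂ hl1' hx₂ (by rwa [neg_one_mul, ← sub_eq_add_neg])
    · refine (lamT_cases hN h.on₃ h₃ hm₃).symm.imp (fun ⟨e, p⟩ => ⟨?_, e⟩)
        (fun ⟨e, p⟩ => ⟨?_, e⟩)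
      · exact agree_of _ h.line₃ hl1' hx₃ (by rwa [neg_one_mul, sub_neg_eq_add])
      · exact disagree_of _ h.line₃ hl1' hx₃ (by rwa [neg_one_mul, ← sub_eq_add_neg])

end Fermat.Agent.S05
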