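/-
S05 team, Plan A, block ACT3b (owner: helper30): three node-reducing points, the third on the middle component.
-/
import Fermat.Agent.S05.ACTDefs

set_option autoImplicit false

namespace Fermat.Agent.S05

variable {K : Type*} [Field K]

namespace ACT3b

variable {A : ValuationSubring K}

/-- `m ⊆ A`. -/
lemma mem_of_mem_m {a : K} (ha : a ∈ A.nonunits) : a ∈ A :=
  ValuationSubring.nonunits_subset ha

/-- `A · m ⊆ m`. -/
lemma mul_mem_m {a b : K} (ha : a ∈ A) (hb : b ∈ A.nonunits) : a * b ∈ A.nonunits := by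
  rw [ValuationSubring.mem_nonunits_iff] at hb ⊢
  rw [map_mul]
  have ha' : A.valuation a ≤ 1 := (A.valuation_le_one_iff a).2 ha
  calc A.valuation a * A.valuation b ≤ 1 * A.valuation b := mul_le_mul_left ha' _
    _ = A.valuation b := one_mul _
    _ < 1 := hb

/-- `m · A ⊆ m`. -/
lemma mul_mem_m' {a b : K} (ha : a ∈ A.nonunits) (hb : b ∈ A) : a * b ∈ A.nonunits := by
  rw [mul_comm]; exact mul_mem_m hb ha

lemma one_not_mem_m : (1 : K) ∉ A.nonunits := by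
  rw [ValuationSubring.mem_nonunits_iff, map_one]; exact lt_irrefl _

/-- `A` is integrally closed (square roots). -/
lemma mem_of_sq_mem {a : K} (h : a ^ 2 ∈ A) : a ∈ A := by
  rw [← A.valuation_le_one_iff] at h ⊢
  rw [map_pow] at h
  exact (pow_le_one_iff (two_ne_zero)).1 h

/-- `m` is radical (square roots). -/
lemma mem_m_of_sq_mem {a : K} (h : a ^ 2 ∈ A.nonunits) : a ∈ A.nonunits := by
  rw [ValuationSubring.mem_nonunits_iff] at h ⊢
  rw [map_pow] at h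
  exact (pow_lt_one_iff (two_ne_zero)).1 h

/-- `m` is prime. -/
lemma mem_m_or_of_mul {a b : K} (ha : a ∈ A) (hb : b ∈ A) (h : a * b ∈ A.nonunits) :
    a ∈ A.nonunits ∨ b ∈ A.nonunits := by
  by_contra hcon
  obtain ⟨h1, h2⟩ := not_or.mp hcon
  rw [ValuationSubring.mem_nonunits_iff, not_lt] at h1 h2
  rw [ValuationSubring.mem_nonunits_iff, map_mul] at h
  have ha' : A.valuation a = 1 := le_antisymm ((A.valuation_le_one_iff a).2 ha) h1
  have hb' : A.valuation b = 1 := le_antisymm ((A.valuation_le_one_iff b).2 hb) h2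
  rw [ha', hb', one_mul] at h
  exact lt_irrefl _ h

/-- Elements of `A` outside `m` are units of `A`. -/
lemma inv_mem_of_not_mem_m {a : K} (h : a ∉ A.nonunits) : a⁻¹ ∈ A := by
  rw [ValuationSubring.mem_nonunits_iff_or] at h
  exact not_not.mp (not_or.mp h).2

lemma inv_two_mem (h2 : A.valuation (2 : K) = 1) : (2 : K)⁻¹ ∈ A := by
  apply inv_mem_of_not_mem_m
  rw [ValuationSubring.mem_nonunits_iff, h2]; exact lt_irrefl _

lemma two_mem : (2 : K) ∈ A := by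
  have : (2 : K) = 1 + 1 := by norm_num
  rw [this]; exact A.add_mem _ _ A.one_mem A.one_mem

end ACT3b

open ACT3b in
theorem act3b {A : ValuationSubring K} {r x₁ y₁ x₂ y₂ x₃ y₃ l n : K} (hN : NodeHyp A r)
    (h : Collinear3 r x₁ y₁ x₂ y₂ x₃ y₃ l n)
    (h₁ : x₁ ∈ A.nonunits) (h₂ : x₂ ∈ A.nonunits) (h₃ : x₃ ∈ A.nonunits)
    (hm₃ : x₃ / r ∈ A) :
    InU A r (lamT A r x₁ y₁ * lamT A r x₂ y₂ * lamT A r x₃ y₃) := by
  obtain ⟨h2, hr, hr0⟩ := hN
  obtain ⟨-, -, on₃, ln₁, ln₂, ln₃, v₁, v₂, v₃⟩ := h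
  have h2ne : (2 : K) ≠ 0 := by
    intro h0; rw [h0, map_zero] at h2; exact zero_ne_one h2
  have h2A : (2 : K) ∈ A := two_mem
  have h2inv : (2 : K)⁻¹ ∈ A := inv_two_mem h2
  have h2m : (2 : K) ∉ A.nonunits := by
    rw [ValuationSubring.mem_nonunits_iff, h2]; exact lt_irrefl _
  have hx₁A : x₁ ∈ A := mem_of_mem_m h₁
  have hx₂A : x₂ ∈ A := mem_of_mem_m h₂
  have hx₃A : x₃ ∈ A := mem_of_mem_m h₃
  have hrA : r ∈ A := mem_of_mem_m hr
  -- `l ∈ A`
  have h4ne : (4 : K) ≠ 0 := by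
    have : (4 : K) = 2 * 2 := by norm_num
    rw [this]; exact mul_ne_zero h2ne h2ne
  have hl2 : l ^ 2 = 1 - (2 * 2 * 2 * 2) * r + (2 * 2) * (x₁ + x₂ + x₃) := by
    have hv : 4 * (x₁ + x₂ + x₃) = l ^ 2 - 1 + 16 * r := by
      rw [v₁]; exact mul_div_cancel₀ _ h4ne
    linear_combination -hv
  have hlA : l ∈ A := by
    apply mem_of_sq_mem
    rw [hl2]
    exact A.add_mem _ _ (A.sub_mem A.one_mem (A.mul_mem _ _ (A.mul_mem _ _ (A.mul_mem _ _
      (A.mul_mem _ _ h2A h2A) h2A) h2A) hrA))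
      (A.mul_mem _ _ (A.mul_mem _ _ h2A h2A) (A.add_mem _ _ (A.add_mem _ _ hx₁A hx₂A) hx₃A))
  -- `(l - 1) (l + 1) ∈ m`
  have hl1 : (l - 1) * (l + 1) ∈ A.nonunits := by
    have : (l - 1) * (l + 1) = (2 * 2) * (x₁ + x₂ + x₃) - (2 * 2 * 2 * 2) * r := by
      linear_combination hl2
    rw [this]
    exact sub_mem (mul_mem_m (A.mul_mem _ _ h2A h2A) (add_mem (add_mem h₁ h₂) h₃))
      (mul_mem_m (A.mul_mem _ _ (A.mul_mem _ _ (A.mul_mem _ _ h2A h2A) h2A) h2A) hr)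
  -- coordinates `ξ = x₃ / r`, `θ = n / (2 r)`
  obtain ⟨ξ, hξ⟩ : ∃ ξ : K, ξ = x₃ / r := ⟨_, rfl⟩
  have hξA : ξ ∈ A := hξ ▸ hm₃
  have hx₃ : x₃ = r * ξ := by rw [hξ]; field_simp
  obtain ⟨η, hη⟩ : ∃ η : K, η = y₃ / r := ⟨_, rfl⟩
  have hy₃ : y₃ = r * η := by rw [hη]; field_simp
  have hηA : η ∈ A := by
    apply mem_of_sq_mem
    have hη2 : η ^ 2 = ξ * (ξ - 2 * 2) * (2 * 2 * x₃ + 1) := by
      have h3 := on₃
      unfold OnNode at h3
      rw [hy₃, hx₃] at h3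
      have : r ^ 2 * η ^ 2 = r ^ 2 * (ξ * (ξ - 2 * 2) * (2 * 2 * (r * ξ) + 1)) := by
        linear_combination h3
      rw [hx₃]
      exact mul_left_cancel₀ (pow_ne_zero 2 hr0) this
    rw [hη2]
    exact A.mul_mem _ _ (A.mul_mem _ _ hξA (A.sub_mem hξA (A.mul_mem _ _ h2A h2A)))
      (A.add_mem _ _ (A.mul_mem _ _ (A.mul_mem _ _ h2A h2A) hx₃A) A.one_mem)
  obtain ⟨θ, hθ⟩ : ∃ θ : K, θ = (η - l * ξ) * 2⁻¹ := ⟨_, rfl⟩
  have hθA : θ ∈ A := by
    rw [hθ]; exact A.mul_mem _ _ (A.sub_mem hηA (A.mul_mem _ _ hlA hξA)) h2inv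
  have hn : n = 2 * r * θ := by
    rw [hθ]
    have : n = y₃ - l * x₃ := by rw [ln₃]; ring
    rw [this, hy₃, hx₃]; field_simp
  -- the unit `c`
  obtain ⟨c, hc⟩ : ∃ c : K, c = 1 + l * θ + ξ * (x₁ + x₂) := ⟨_, rfl⟩
  have hεm : ξ * (x₁ + x₂) ∈ A.nonunits := mul_mem_m hξA (add_mem h₁ h₂)
  have hcA : c ∈ A := by
    rw [hc]
    exact A.add_mem _ _ (A.add_mem _ _ A.one_mem (A.mul_mem _ _ hlA hθA)) (mem_of_mem_m hεm)
  have hV2 : x₁ * x₂ = -r * c := by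
    rw [hc]
    have := v₂
    rw [hx₃, hn] at this
    have e : l * (2 * r * θ) / 2 = l * r * θ := by field_simp
    rw [e] at this
    linear_combination this
  have hcξ : c * ξ = -θ ^ 2 := by
    have := v₃
    rw [hx₃, hn, hV2] at this
    have e : (2 * r * θ) ^ 2 / 4 = r ^ 2 * θ ^ 2 := by field_simp; ring
    rw [e] at this
    have h' : r ^ 2 * (c * ξ) = r ^ 2 * (-θ ^ 2) := by linear_combination -this
    exact mul_left_cancel₀ (pow_ne_zero 2 hr0) h'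
  have hcm : c ∉ A.nonunits := by
    intro hcm
    have hθm : θ ∈ A.nonunits := by
      apply mem_m_of_sq_mem
      have : θ ^ 2 = -(c * ξ) := by rw [hcξ]; ring
      rw [this]
      exact neg_mem (mul_mem_m' hcm hξA)
    have : (1 : K) = c - l * θ - ξ * (x₁ + x₂) := by rw [hc]; ring
    apply one_not_mem_m (A := A)
    rw [this]
    exact sub_mem (sub_mem hcm (mul_mem_m hlA hθm)) hεm
  have hc0 : c ≠ 0 := by
    rintro rfl; exact hcm (zero_mem _)
  have hcinv : c⁻¹ ∈ A := inv_mem_of_not_mem_m hcm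
  -- points 1 and 2 are not on the middle component
  have hm₁ : x₁ / r ∉ A := by
    intro hm
    apply hcm
    have : c = -(x₁ / r * x₂) := by
      have : r * c = r * -(x₁ / r * x₂) := by
        have e : r * -(x₁ / r * x₂) = -(x₁ * x₂) := by field_simp
        rw [e, hV2]; ring
      exact mul_left_cancel₀ hr0 this
    rw [this]
    exact neg_mem (mul_mem_m hm h₂)
  have hm₂ : x₂ / r ∉ A := by
    intro hm
    apply hcm
    have : c = -(x₂ / r * x₁) := by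
      have : r * c = r * -(x₂ / r * x₁) := by
        have e : r * -(x₂ / r * x₁) = -(x₁ * x₂) := by field_simp
        rw [e, hV2]; ring
      exact mul_left_cancel₀ hr0 this
    rw [this]
    exact neg_mem (mul_mem_m hm h₁)
  have hx₁0 : x₁ ≠ 0 := by
    rintro rfl; apply hm₁; rw [zero_div]; exact A.zero_mem
  have hx₂0 : x₂ ≠ 0 := by
    rintro rfl; apply hm₂; rw [zero_div]; exact A.zero_mem
  have hrx₁ : r / x₁ ∈ A.nonunits := by
    have : r / x₁ = (x₁ / r)⁻¹ := by rw [inv_div]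
    rw [this, ValuationSubring.inv_mem_nonunits_iff]; exact Or.inr hm₁
  have hrx₂ : r / x₂ ∈ A.nonunits := by
    have : r / x₂ = (x₂ / r)⁻¹ := by rw [inv_div]
    rw [this, ValuationSubring.inv_mem_nonunits_iff]; exact Or.inr hm₂
  have hnx₁ : n / x₁ ∈ A.nonunits := by
    have : n / x₁ = 2 * θ * (r / x₁) := by rw [hn]; field_simp
    rw [this]; exact mul_mem_m (A.mul_mem _ _ h2A hθA) hrx₁
  have hnx₂ : n / x₂ ∈ A.nonunits := by
    have : n / x₂ = 2 * θ * (r / x₂) := by rw [hn]; field_simp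
    rw [this]; exact mul_mem_m (A.mul_mem _ _ h2A hθA) hrx₂
  have hyx₁ : (y₁ - x₁) / x₁ = (l - 1) + n / x₁ := by rw [ln₁]; field_simp; ring
  have hyx₂ : (y₂ - x₂) / x₂ = (l - 1) + n / x₂ := by rw [ln₂]; field_simp; ring
  -- the parameter of the middle point
  have hlam₃ : lamT A r x₃ y₃ = r * ((1 + l) * ξ * 2⁻¹ + θ - 1) := by
    unfold lamT
    rw [if_neg (not_not.mpr h₃), if_pos hm₃, ln₃, hn, hx₃]
    field_simp; ring
  rcases mem_m_or_of_mul (A.sub_mem hlA A.one_mem) (A.add_mem _ _ hlA A.one_mem) hl1 with hl | hl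
  · -- `l ≡ 1`: points 1, 2 are on the plus side
    have hlam₁ : lamT A r x₁ y₁ = x₁ := by
      unfold lamT
      rw [if_neg (not_not.mpr h₁), if_neg hm₁, if_pos (by rw [hyx₁]; exact add_mem hl hnx₁)]
    have hlam₂ : lamT A r x₂ y₂ = x₂ := by
      unfold lamT
      rw [if_neg (not_not.mpr h₂), if_neg hm₂, if_pos (by rw [hyx₂]; exact add_mem hl hnx₂)]
    refine ⟨-1, ?_⟩
    rw [hlam₁, hlam₂, hlam₃, hV2, zpow_neg_one]
    have key : -r * c * (r * ((1 + l) * ξ * 2⁻¹ + θ - 1)) * (r ^ 2)⁻¹ - 1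
        = (l - 1) * (θ - θ ^ 2 * 2⁻¹) - ξ * (x₁ + x₂) * (θ - 1) := by
      have e1 : -r * c * (r * ((1 + l) * ξ * 2⁻¹ + θ - 1)) * (r ^ 2)⁻¹
          = -c * ((1 + l) * ξ * 2⁻¹ + θ - 1) := by field_simp
      rw [e1, hc]
      rw [hc] at hcξ
      have h22 : (2 : K)⁻¹ * 2 = 1 := inv_mul_cancel₀ h2ne
      linear_combination (-(1 + l) * 2⁻¹) * hcξ + (l * θ ^ 2) * h22
    rw [key]
    exact sub_mem (mul_mem_m' hl (A.sub_mem hθA (A.mul_mem _ _ (A.pow_mem hθA 2) h2inv)))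
      (mul_mem_m' hεm (A.sub_mem hθA A.one_mem))
  · -- `l ≡ -1`: points 1, 2 are on the minus side
    have hnot : ∀ t : K, t ∈ A.nonunits → (l - 1) + t ∉ A.nonunits := by
      intro t ht hcon
      apply h2m
      have : (2 : K) = (l + 1) + t - ((l - 1) + t) := by ring
      rw [this]
      exact sub_mem (add_mem hl ht) hcon
    have hlam₁ : lamT A r x₁ y₁ = r ^ 2 / x₁ := by
      unfold lamT
      rw [if_neg (not_not.mpr h₁), if_neg hm₁, if_neg (by rw [hyx₁]; exact hnot _ hnx₁)]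
    have hlam₂ : lamT A r x₂ y₂ = r ^ 2 / x₂ := by
      unfold lamT
      rw [if_neg (not_not.mpr h₂), if_neg hm₂, if_neg (by rw [hyx₂]; exact hnot _ hnx₂)]
    refine ⟨-2, ?_⟩
    rw [hlam₁, hlam₂, hlam₃]
    have key : r ^ 2 / x₁ * (r ^ 2 / x₂) * (r * ((1 + l) * ξ * 2⁻¹ + θ - 1)) * (r ^ 2) ^ (-2 : ℤ) - 1
        = -(((l + 1) * (ξ * 2⁻¹ + θ) + ξ * (x₁ + x₂)) * c⁻¹) := by
      have e0 : (r ^ 2) ^ (-2 : ℤ) = (r ^ 4)⁻¹ := by
        rw [zpow_neg]; norm_cast; rw [← pow_mul]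
      have e1 : r ^ 2 / x₁ * (r ^ 2 / x₂) * (r * ((1 + l) * ξ * 2⁻¹ + θ - 1)) * (r ^ 4)⁻¹
          = r * ((1 + l) * ξ * 2⁻¹ + θ - 1) * (x₁ * x₂)⁻¹ := by field_simp
      rw [e0, e1, hV2]
      have e2 : r * ((1 + l) * ξ * 2⁻¹ + θ - 1) * (-r * c)⁻¹
          = -(((1 + l) * ξ * 2⁻¹ + θ - 1) * c⁻¹) := by field_simp
      rw [e2]
      have e3 : (1 : K) = c * c⁻¹ := by field_simp
      have e4 : (1 + l) * ξ * 2⁻¹ + θ - 1 + c = (l + 1) * (ξ * 2⁻¹ + θ) + ξ * (x₁ + x₂) := by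
        rw [hc]; ring
      rw [← e4]
      linear_combination (-1 : K) * e3
    rw [key]
    exact neg_mem (mul_mem_m' (add_mem (mul_mem_m' hl
      (A.add_mem _ _ (A.mul_mem _ _ hξA h2inv) hθA)) hεm) hcinv)

end Fermat.Agent.S05
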