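/-
S05 team, Plan A, block ACT (owner: helper18): the abstract collinear triple theorem, glued from
the cases `act0`, `act1`, `act2a`, `act2b`, `act3a`, `act3b` (using the symmetry of `Collinear3`
under permutations of the three points).
-/
import Fermat.Agent.S05.ACTBasic
import Fermat.Agent.S05.ACT0
import Fermat.Agent.S05.ACT1
import Fermat.Agent.S05.ACT2a
import Fermat.Agent.S05.ACT2b
import Fermat.Agent.S05.ACT3a
import Fermat.Agent.S05.ACT3b

set_option autoImplicit false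

namespace Fermat.Agent.S05

variable {K : Type*} [Field K]

/-- Symmetry of `Collinear3`: exchange the last two points. -/
theorem Collinear3.swap23 {r x₁ y₁ x₂ y₂ x₃ y₃ l n : K}
    (h : Collinear3 r x₁ y₁ x₂ y₂ x₃ y₃ l n) : Collinear3 r x₁ y₁ x₃ y₃ x₂ y₂ l n where
  on₁ := h.on₁
  on₂ := h.on₃
  on₃ := h.on₂
  line₁ := h.line₁
  line₂ := h.line₃
  line₃ := h.line₂
  vieta₁ := by rw [← h.vieta₁]; ring
  vieta₂ := by rw [← h.vieta₂]; ring
  vieta₃ := by rw [← h.vieta₃]; ring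

/-- Symmetry of `Collinear3`: exchange the first two points. -/
theorem Collinear3.swap12 {r x₁ y₁ x₂ y₂ x₃ y₃ l n : K}
    (h : Collinear3 r x₁ y₁ x₂ y₂ x₃ y₃ l n) : Collinear3 r x₂ y₂ x₁ y₁ x₃ y₃ l n where
  on₁ := h.on₂
  on₂ := h.on₁
  on₃ := h.on₃
  line₁ := h.line₂
  line₂ := h.line₁
  line₃ := h.line₃
  vieta₁ := by rw [← h.vieta₁]; ring
  vieta₂ := by rw [← h.vieta₂]; ring
  vieta₃ := by rw [← h.vieta₃]; ring

theorem act {A : ValuationSubring K} {r x₁ y₁ x₂ y₂ x₃ y₃ l n : K} (hN : NodeHyp A r)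
    (h : Collinear3 r x₁ y₁ x₂ y₂ x₃ y₃ l n) :
    InU A r (lamT A r x₁ y₁ * lamT A r x₂ y₂ * lamT A r x₃ y₃) := by
  -- the six orderings of the product
  have e132 : lamT A r x₁ y₁ * lamT A r x₃ y₃ * lamT A r x₂ y₂
      = lamT A r x₁ y₁ * lamT A r x₂ y₂ * lamT A r x₃ y₃ := by ring
  have e213 : lamT A r x₂ y₂ * lamT A r x₁ y₁ * lamT A r x₃ y₃
      = lamT A r x₁ y₁ * lamT A r x₂ y₂ * lamT A r x₃ y₃ := by ring
  have e231 : lamT A r x₂ y₂ * lamT A r x₃ y₃ * lamT A r x₁ y₁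
      = lamT A r x₁ y₁ * lamT A r x₂ y₂ * lamT A r x₃ y₃ := by ring
  have e312 : lamT A r x₃ y₃ * lamT A r x₁ y₁ * lamT A r x₂ y₂
      = lamT A r x₁ y₁ * lamT A r x₂ y₂ * lamT A r x₃ y₃ := by ring
  have e321 : lamT A r x₃ y₃ * lamT A r x₂ y₂ * lamT A r x₁ y₁
      = lamT A r x₁ y₁ * lamT A r x₂ y₂ * lamT A r x₃ y₃ := by ring
  -- the permuted configurations
  have c132 : Collinear3 r x₁ y₁ x₃ y₃ x₂ y₂ l n := h.swap23
  have c213 : Collinear3 r x₂ y₂ x₁ y₁ x₃ y₃ l n := h.swap12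
  have c231 : Collinear3 r x₂ y₂ x₃ y₃ x₁ y₁ l n := h.swap12.swap23
  have c312 : Collinear3 r x₃ y₃ x₁ y₁ x₂ y₂ l n := h.swap23.swap12
  have c321 : Collinear3 r x₃ y₃ x₂ y₂ x₁ y₁ l n := h.swap23.swap12.swap23
  by_cases h₁ : x₁ ∈ A.nonunits
  · by_cases h₂ : x₂ ∈ A.nonunits
    · by_cases h₃ : x₃ ∈ A.nonunits
      · -- all three reduce to the node
        by_cases hm₃ : x₃ / r ∈ A
        · exact act3b hN h h₁ h₂ h₃ hm₃
        · by_cases hm₂ : x₂ / r ∈ A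
          · rw [← e132]; exact act3b hN c132 h₁ h₃ h₂ hm₂
          · by_cases hm₁ : x₁ / r ∈ A
            · rw [← e231]; exact act3b hN c231 h₂ h₃ h₁ hm₁
            · exact act3a hN h h₁ h₂ h₃ hm₁ hm₂ hm₃
      · -- points 1, 2 reduce to the node
        by_cases hm₁ : x₁ / r ∈ A
        · exact act2b hN h h₁ h₂ h₃ hm₁
        · exact act2a hN h h₁ h₂ h₃ hm₁
    · by_cases h₃ : x₃ ∈ A.nonunits
      · -- points 1, 3 reduce to the node
        rw [← e132]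
        by_cases hm₁ : x₁ / r ∈ A
        · exact act2b hN c132 h₁ h₃ h₂ hm₁
        · exact act2a hN c132 h₁ h₃ h₂ hm₁
      · exact (act1 hN h h₁ h₂ h₃).elim
  · by_cases h₂ : x₂ ∈ A.nonunits
    · by_cases h₃ : x₃ ∈ A.nonunits
      · -- points 2, 3 reduce to the node
        rw [← e231]
        by_cases hm₂ : x₂ / r ∈ A
        · exact act2b hN c231 h₂ h₃ h₁ hm₂
        · exact act2a hN c231 h₂ h₃ h₁ hm₂
      · exact (act1 hN c213 h₂ h₁ h₃).elim
    · by_cases h₃ : x₃ ∈ A.nonunits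
      · exact (act1 hN c312 h₃ h₁ h₂).elim
      · exact act0 hN h h₁ h₂ h₃

end Fermat.Agent.S05
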