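/-
S05 team, block Vieta (owner: helper85): Vieta bridge for Mathlib's chord-tangent law.

For two affine points `P₁ = (x₁, y₁)`, `P₂ = (x₂, y₂)` of a Weierstrass curve over a field which
are not opposite, with `l` the slope of Mathlib's addition law and `n := y₁ - l * x₁`, the three
intersection points of the line `y = l * x + n` with the curve are `P₁`, `P₂` and
`(x₃, y₃) = -(P₁ + P₂)`, where `x₃ = addX x₁ x₂ l`, `y₃ = negAddY x₁ x₂ y₁ l`, and the elementary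
symmetric functions of `x₁, x₂, x₃` are given by Vieta's formulas.
-/
import Mathlib.AlgebraicGeometry.EllipticCurve.Affine.Point

set_option autoImplicit false

namespace Fermat.Agent.S05

namespace Vieta

open WeierstrassCurve Polynomial

variable {F : Type*} [Field F] [DecidableEq F] (W : WeierstrassCurve F)

/-- The second point lies on the chord/tangent line `y = l * x + n`, `n = y₁ - l * x₁`. -/
theorem line {x₁ x₂ y₁ y₂ : F} (h₁ : W.toAffine.Equation x₁ y₁)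
    (h₂ : W.toAffine.Equation x₂ y₂) (hxy : ¬(x₁ = x₂ ∧ y₁ = W.toAffine.negY x₂ y₂)) :
    y₂ = W.toAffine.slope x₁ x₂ y₁ y₂ * x₂ + (y₁ - W.toAffine.slope x₁ x₂ y₁ y₂ * x₁) := by
  by_cases hx : x₁ = x₂
  · have hy : y₁ ≠ W.toAffine.negY x₂ y₂ := fun h => hxy ⟨hx, h⟩
    have := Affine.Y_eq_of_Y_ne h₁ h₂ hx hy
    subst hx; subst this; ring
  · rw [Affine.slope_of_X_ne hx]
    have hx' : x₁ - x₂ ≠ 0 := sub_ne_zero.mpr hx
    field_simp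
    ring

omit [DecidableEq F] in
/-- The third point lies on the line `y = l * x + n`, `n = y₁ - l * x₁`. -/
theorem negAddY_eq (x₁ x₂ y₁ l : F) :
    W.toAffine.negAddY x₁ x₂ y₁ l = l * W.toAffine.addX x₁ x₂ l + (y₁ - l * x₁) := by
  simp only [Affine.negAddY, Affine.addX]; ring

omit [DecidableEq F] in
/-- First Vieta relation (holds by definition of `addX`). -/
theorem sum (x₁ x₂ l : F) :
    x₁ + x₂ + W.toAffine.addX x₁ x₂ l = l ^ 2 + W.a₁ * l - W.a₂ := by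
  simp only [Affine.addX]; ring

/-- Comparison of the coefficients of the cubic `W(x, l x + n)` with `(x - x₁)(x - x₂)(x - x₃)`. -/
theorem cubic {x₁ x₂ y₁ y₂ : F} (h₁ : W.toAffine.Equation x₁ y₁)
    (h₂ : W.toAffine.Equation x₂ y₂) (hxy : ¬(x₁ = x₂ ∧ y₁ = W.toAffine.negY x₂ y₂)) :
    (⟨1, -(W.toAffine.slope x₁ x₂ y₁ y₂) ^ 2 - W.a₁ * W.toAffine.slope x₁ x₂ y₁ y₂ + W.a₂,
      2 * x₁ * (W.toAffine.slope x₁ x₂ y₁ y₂) ^ 2 +
        (W.a₁ * x₁ - 2 * y₁ - W.a₃) * W.toAffine.slope x₁ x₂ y₁ y₂ + (-W.a₁ * y₁ + W.a₄),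
      -x₁ ^ 2 * (W.toAffine.slope x₁ x₂ y₁ y₂) ^ 2 +
        (2 * x₁ * y₁ + W.a₃ * x₁) * W.toAffine.slope x₁ x₂ y₁ y₂ -
          (y₁ ^ 2 + W.a₃ * y₁ - W.a₆)⟩ : Cubic F) =
    ⟨1, -(x₁ + x₂ + W.toAffine.addX x₁ x₂ (W.toAffine.slope x₁ x₂ y₁ y₂)),
      x₁ * x₂ + x₁ * W.toAffine.addX x₁ x₂ (W.toAffine.slope x₁ x₂ y₁ y₂) +
        x₂ * W.toAffine.addX x₁ x₂ (W.toAffine.slope x₁ x₂ y₁ y₂),
      -(x₁ * x₂ * W.toAffine.addX x₁ x₂ (W.toAffine.slope x₁ x₂ y₁ y₂))⟩ := by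
  have h := Affine.addPolynomial_slope h₁ h₂ hxy
  rw [Affine.addPolynomial_eq, neg_inj, Cubic.prod_X_sub_C_eq] at h
  exact (Cubic.toPoly_injective _ _).mp h

/-- Second Vieta relation, `n = y₁ - l * x₁`:
`x₁ x₂ + x₁ x₃ + x₂ x₃ = a₄ - 2 l n - a₁ n - a₃ l`. -/
theorem pair {x₁ x₂ y₁ y₂ : F} (h₁ : W.toAffine.Equation x₁ y₁)
    (h₂ : W.toAffine.Equation x₂ y₂) (hxy : ¬(x₁ = x₂ ∧ y₁ = W.toAffine.negY x₂ y₂)) :
    x₁ * x₂ + x₁ * W.toAffine.addX x₁ x₂ (W.toAffine.slope x₁ x₂ y₁ y₂) +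
        x₂ * W.toAffine.addX x₁ x₂ (W.toAffine.slope x₁ x₂ y₁ y₂) =
      W.a₄ - 2 * W.toAffine.slope x₁ x₂ y₁ y₂ * (y₁ - W.toAffine.slope x₁ x₂ y₁ y₂ * x₁) -
        W.a₁ * (y₁ - W.toAffine.slope x₁ x₂ y₁ y₂ * x₁) -
        W.a₃ * W.toAffine.slope x₁ x₂ y₁ y₂ := by
  have h := congrArg Cubic.c (cubic W h₁ h₂ hxy)
  simp only at h
  rw [← h]; ring

/-- Third Vieta relation, `n = y₁ - l * x₁`: `x₁ x₂ x₃ = n² + a₃ n - a₆`. -/
theorem prod {x₁ x₂ y₁ y₂ : F} (h₁ : W.toAffine.Equation x₁ y₁)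
    (h₂ : W.toAffine.Equation x₂ y₂) (hxy : ¬(x₁ = x₂ ∧ y₁ = W.toAffine.negY x₂ y₂)) :
    x₁ * x₂ * W.toAffine.addX x₁ x₂ (W.toAffine.slope x₁ x₂ y₁ y₂) =
      (y₁ - W.toAffine.slope x₁ x₂ y₁ y₂ * x₁) ^ 2 +
        W.a₃ * (y₁ - W.toAffine.slope x₁ x₂ y₁ y₂ * x₁) - W.a₆ := by
  have h := congrArg Cubic.d (cubic W h₁ h₂ hxy)
  simp only at h
  linear_combination h

/-- Mathlib's sum of two non-opposite affine points is the negative of the third intersection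
point `(addX, negAddY)` of the chord/tangent line. -/
theorem add_eq_neg {x₁ x₂ y₁ y₂ : F} (h₁ : W.toAffine.Nonsingular x₁ y₁)
    (h₂ : W.toAffine.Nonsingular x₂ y₂) (hxy : ¬(x₁ = x₂ ∧ y₁ = W.toAffine.negY x₂ y₂)) :
    Affine.Point.some _ _ h₁ + Affine.Point.some _ _ h₂ =
      -Affine.Point.some _ _ (Affine.nonsingular_negAdd h₁ h₂ hxy) :=
  Affine.Point.add_some hxy

end Vieta

end Fermat.Agent.S05
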