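/-
S05 team, Plan A, block LamHom (owner: helper85): the approximate Tate parameter of points of
`y² = x (x - e₁) (x - e₂)` is a homomorphism modulo `U = (1 + m) r^(2ℤ)`, `r = -e₁ / (16 e₂)`.
Glue of `act`, `lamT_neg` with Mathlib's group law via `Vieta.lean`.
-/
import Fermat.Agent.S05.ACT
import Fermat.Agent.S05.Vieta

set_option autoImplicit false

namespace Fermat.Agent.S05

open WeierstrassCurve

variable {K : Type*} [Field K] [DecidableEq K]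

/-- The parameter of a point of `y² = x (x - e₁) (x - e₂)`; `b` is a square root of `-e₂`. -/
noncomputable def lamP (A : ValuationSubring K) (e₁ e₂ b : K) :
    (shortCurve (-(e₁ + e₂)) (e₁ * e₂)).toAffine.Point → K
  | .zero => 1
  | .some X Y _ => lamT A (-e₁ / (16 * e₂)) (-X / (4 * e₂)) (-Y / (4 * b * e₂))

namespace LamHom

omit [DecidableEq K] in
theorem ne_zero_of_val_one {A : ValuationSubring K} {x : K} (h : A.valuation x = 1) : x ≠ 0 := by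
  rintro rfl
  simp at h

omit [DecidableEq K] in
/-- The standing hypotheses of the normalised nodal model hold for `r = -e₁ / (16 e₂)`. -/
theorem nodeHyp {A : ValuationSubring K} {e₁ e₂ : K} (hA2 : A.valuation (2 : K) = 1)
    (he₁ : e₁ ∈ A.nonunits) (he₁0 : e₁ ≠ 0) (he₂ : A.valuation e₂ = 1) :
    NodeHyp A (-e₁ / (16 * e₂)) := by
  have h16 : A.valuation (16 * e₂) = 1 := by
    have h : (16 : K) = 2 ^ 4 := by norm_num
    rw [map_mul, h, map_pow, hA2, he₂]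
    simp
  refine ⟨hA2, ?_, ?_⟩
  · rw [ValuationSubring.mem_nonunits_iff] at he₁ ⊢
    rw [map_div₀, h16, div_one, Valuation.map_neg]
    exact he₁
  · exact div_ne_zero (neg_ne_zero.mpr he₁0) (ne_zero_of_val_one h16)

omit [DecidableEq K] in
theorem short_equation_iff (α β X Y : K) :
    (shortCurve α β).toAffine.Equation X Y ↔ Y ^ 2 = X ^ 3 + α * X ^ 2 + β * X := by
  rw [Affine.equation_iff]
  simp only [shortCurve]
  constructor
  · intro h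
    linear_combination h
  · intro h
    linear_combination h

omit [DecidableEq K] in
/-- A point of `Y² = X (X - e₁) (X - e₂)` gives a point of the normalised nodal model. -/
theorem onNode {e₁ e₂ b X Y : K} (h2 : (2 : K) ≠ 0) (he₂ : e₂ ≠ 0) (hb : b ^ 2 = -e₂)
    (h : (shortCurve (-(e₁ + e₂)) (e₁ * e₂)).toAffine.Equation X Y) :
    OnNode (-e₁ / (16 * e₂)) (-X / (4 * e₂)) (-Y / (4 * b * e₂)) := by
  rw [short_equation_iff] at h
  have h4 : (4 : K) ≠ 0 := by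
    have : (4 : K) = 2 ^ 2 := by norm_num
    rw [this]; exact pow_ne_zero _ h2
  have h16 : (16 : K) ≠ 0 := by
    have : (16 : K) = 2 ^ 4 := by norm_num
    rw [this]; exact pow_ne_zero _ h2
  have hb0 : b ≠ 0 := by
    rintro rfl
    apply he₂
    have : (0 : K) ^ 2 = -e₂ := hb
    simpa using this.symm
  unfold OnNode
  have e1 : (-Y / (4 * b * e₂)) ^ 2 = -(Y ^ 2) / (16 * e₂ ^ 3) := by
    have : (-Y / (4 * b * e₂)) ^ 2 = Y ^ 2 / (16 * b ^ 2 * e₂ ^ 2) := by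
      field_simp
      ring
    rw [this, hb]
    field_simp
  rw [e1, h]
  field_simp
  ring

omit [DecidableEq K] in
/-- Collinear triples of `Y² = X (X - e₁) (X - e₂)` (with the three Vieta relations) are collinear
triples of the normalised nodal model. -/
theorem collinear3 {e₁ e₂ b X₁ Y₁ X₂ Y₂ X₃ Y₃ l n : K} (h2 : (2 : K) ≠ 0) (he₂ : e₂ ≠ 0)
    (hb : b ^ 2 = -e₂)
    (h₁ : (shortCurve (-(e₁ + e₂)) (e₁ * e₂)).toAffine.Equation X₁ Y₁)
    (h₂ : (shortCurve (-(e₁ + e₂)) (e₁ * e₂)).toAffine.Equation X₂ Y₂)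
    (h₃ : (shortCurve (-(e₁ + e₂)) (e₁ * e₂)).toAffine.Equation X₃ Y₃)
    (hl₁ : Y₁ = l * X₁ + n) (hl₂ : Y₂ = l * X₂ + n) (hl₃ : Y₃ = l * X₃ + n)
    (hv₁ : X₁ + X₂ + X₃ = l ^ 2 + (e₁ + e₂))
    (hv₂ : X₁ * X₂ + X₁ * X₃ + X₂ * X₃ = e₁ * e₂ - 2 * l * n)
    (hv₃ : X₁ * X₂ * X₃ = n ^ 2) :
    Collinear3 (-e₁ / (16 * e₂)) (-X₁ / (4 * e₂)) (-Y₁ / (4 * b * e₂)) (-X₂ / (4 * e₂))
      (-Y₂ / (4 * b * e₂)) (-X₃ / (4 * e₂)) (-Y₃ / (4 * b * e₂)) (l / b) (-n / (4 * b * e₂)) := by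
  have h4 : (4 : K) ≠ 0 := by
    have : (4 : K) = 2 ^ 2 := by norm_num
    rw [this]; exact pow_ne_zero _ h2
  have h16 : (16 : K) ≠ 0 := by
    have : (16 : K) = 2 ^ 4 := by norm_num
    rw [this]; exact pow_ne_zero _ h2
  have h64 : (64 : K) ≠ 0 := by
    have : (64 : K) = 2 ^ 6 := by norm_num
    rw [this]; exact pow_ne_zero _ h2
  have hb0 : b ≠ 0 := by
    rintro rfl
    apply he₂
    have : (0 : K) ^ 2 = -e₂ := hb
    simpa using this.symm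
  have hbinv : (l / b) ^ 2 = -(l ^ 2) / e₂ := by
    rw [div_pow, hb]
    field_simp
  have hbb : ∀ z : K, l / b * (-n / (4 * b * e₂)) * z = l * n * z / (4 * e₂ ^ 2) := by
    intro z
    have : l / b * (-n / (4 * b * e₂)) * z = -(l * n * z) / (4 * b ^ 2 * e₂) := by
      field_simp
    rw [this, hb]
    field_simp
  have hnn : (-n / (4 * b * e₂)) ^ 2 = -(n ^ 2) / (16 * e₂ ^ 3) := by
    have : (-n / (4 * b * e₂)) ^ 2 = n ^ 2 / (16 * b ^ 2 * e₂ ^ 2) := by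
      field_simp
      ring
    rw [this, hb]
    field_simp
  refine ⟨onNode h2 he₂ hb h₁, onNode h2 he₂ hb h₂, onNode h2 he₂ hb h₃, ?_, ?_, ?_, ?_, ?_, ?_⟩
  · rw [hl₁]
    field_simp
    ring
  · rw [hl₂]
    field_simp
    ring
  · rw [hl₃]
    field_simp
    ring
  · rw [hbinv]
    have : -X₁ / (4 * e₂) + -X₂ / (4 * e₂) + -X₃ / (4 * e₂) = -(X₁ + X₂ + X₃) / (4 * e₂) := by
      ring
    rw [this, hv₁]
    field_simp
    ring
  · have hz := hbb 1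
    rw [mul_one] at hz
    have : -X₁ / (4 * e₂) * (-X₂ / (4 * e₂)) + -X₁ / (4 * e₂) * (-X₃ / (4 * e₂)) +
        -X₂ / (4 * e₂) * (-X₃ / (4 * e₂)) = (X₁ * X₂ + X₁ * X₃ + X₂ * X₃) / (16 * e₂ ^ 2) := by
      field_simp
      ring
    rw [this, hv₂, hz]
    field_simp
    ring
  · have : -X₁ / (4 * e₂) * (-X₂ / (4 * e₂)) * (-X₃ / (4 * e₂)) =
        -(X₁ * X₂ * X₃) / (64 * e₂ ^ 3) := by
      field_simp
      ring
    rw [this, hv₃, hnn]
    field_simp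
    ring

end LamHom

variable {A : ValuationSubring K} {e₁ e₂ b : K}

theorem lamP_ne_zero (hA2 : A.valuation (2 : K) = 1) (he₁ : e₁ ∈ A.nonunits) (he₁0 : e₁ ≠ 0)
    (he₂ : A.valuation e₂ = 1) (hb : b ^ 2 = -e₂)
    (P : (shortCurve (-(e₁ + e₂)) (e₁ * e₂)).toAffine.Point) : lamP A e₁ e₂ b P ≠ 0 := by
  rcases P with _ | ⟨X, Y, h⟩
  · exact one_ne_zero
  · exact lamT_ne_zero (LamHom.nodeHyp hA2 he₁ he₁0 he₂)
      (LamHom.onNode (LamHom.ne_zero_of_val_one hA2) (LamHom.ne_zero_of_val_one he₂) hb h.1)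

theorem lamP_neg (hA2 : A.valuation (2 : K) = 1) (he₁ : e₁ ∈ A.nonunits) (he₁0 : e₁ ≠ 0)
    (he₂ : A.valuation e₂ = 1) (hb : b ^ 2 = -e₂)
    (P : (shortCurve (-(e₁ + e₂)) (e₁ * e₂)).toAffine.Point) :
    InU A (-e₁ / (16 * e₂)) (lamP A e₁ e₂ b P * lamP A e₁ e₂ b (-P)) := by
  rcases P with _ | ⟨X, Y, h⟩
  · change InU A (-e₁ / (16 * e₂)) (1 * 1)
    rw [one_mul]
    exact InU.one A _
  · rw [Affine.Point.neg_some]
    change InU A (-e₁ / (16 * e₂)) (lamT A (-e₁ / (16 * e₂)) (-X / (4 * e₂)) (-Y / (4 * b * e₂)) *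
      lamT A (-e₁ / (16 * e₂)) (-X / (4 * e₂))
        (-((shortCurve (-(e₁ + e₂)) (e₁ * e₂)).toAffine.negY X Y) / (4 * b * e₂)))
    have hneg : -((shortCurve (-(e₁ + e₂)) (e₁ * e₂)).toAffine.negY X Y) / (4 * b * e₂) =
        -(-Y / (4 * b * e₂)) := by
      simp only [Affine.negY, shortCurve]
      ring
    rw [hneg]
    exact lamT_neg (LamHom.nodeHyp hA2 he₁ he₁0 he₂)
      (LamHom.onNode (LamHom.ne_zero_of_val_one hA2) (LamHom.ne_zero_of_val_one he₂) hb h.1)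

theorem lamP_add (hA2 : A.valuation (2 : K) = 1) (he₁ : e₁ ∈ A.nonunits) (he₁0 : e₁ ≠ 0)
    (he₂ : A.valuation e₂ = 1) (hb : b ^ 2 = -e₂)
    (P Q : (shortCurve (-(e₁ + e₂)) (e₁ * e₂)).toAffine.Point) :
    InU A (-e₁ / (16 * e₂)) (lamP A e₁ e₂ b (P + Q) / (lamP A e₁ e₂ b P * lamP A e₁ e₂ b Q)) := by
  have hN := LamHom.nodeHyp hA2 he₁ he₁0 he₂
  have he₂0 := LamHom.ne_zero_of_val_one he₂
  rcases P with _ | ⟨X₁, Y₁, h₁⟩
  · change InU A (-e₁ / (16 * e₂)) (lamP A e₁ e₂ b (0 + Q) / (1 * lamP A e₁ e₂ b Q))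
    rw [zero_add, one_mul, div_self (lamP_ne_zero hA2 he₁ he₁0 he₂ hb Q)]
    exact InU.one A _
  rcases Q with _ | ⟨X₂, Y₂, h₂⟩
  · change InU A (-e₁ / (16 * e₂)) (lamP A e₁ e₂ b (Affine.Point.some X₁ Y₁ h₁ + 0) /
      (lamP A e₁ e₂ b (Affine.Point.some X₁ Y₁ h₁) * 1))
    rw [add_zero, mul_one, div_self (lamP_ne_zero hA2 he₁ he₁0 he₂ hb _)]
    exact InU.one A _
  by_cases hxy : X₁ = X₂ ∧ Y₁ = (shortCurve (-(e₁ + e₂)) (e₁ * e₂)).toAffine.negY X₂ Y₂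
  · have hQ : Affine.Point.some X₁ Y₁ h₁ = -Affine.Point.some X₂ Y₂ h₂ := by
      rw [Affine.Point.neg_some]
      obtain ⟨hx, hy⟩ := hxy
      subst hx; subst hy
      rfl
    rw [hQ, neg_add_cancel]
    change InU A (-e₁ / (16 * e₂)) (1 / (lamP A e₁ e₂ b (-Affine.Point.some X₂ Y₂ h₂) *
      lamP A e₁ e₂ b (Affine.Point.some X₂ Y₂ h₂)))
    have hinv := InU.inv hN (lamP_neg hA2 he₁ he₁0 he₂ hb (Affine.Point.some X₂ Y₂ h₂))
    rwa [one_div, mul_comm (lamP A e₁ e₂ b (-Affine.Point.some X₂ Y₂ h₂))]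
  · rw [Vieta.add_eq_neg _ h₁ h₂ hxy]
    set l := (shortCurve (-(e₁ + e₂)) (e₁ * e₂)).toAffine.slope X₁ X₂ Y₁ Y₂ with hl
    set X₃ := (shortCurve (-(e₁ + e₂)) (e₁ * e₂)).toAffine.addX X₁ X₂ l with hX₃
    set Y₃ := (shortCurve (-(e₁ + e₂)) (e₁ * e₂)).toAffine.negAddY X₁ X₂ Y₁ l with hY₃
    have h₃ := Affine.nonsingular_negAdd h₁ h₂ hxy
    have hcol : Collinear3 (-e₁ / (16 * e₂)) (-X₁ / (4 * e₂)) (-Y₁ / (4 * b * e₂))
        (-X₂ / (4 * e₂)) (-Y₂ / (4 * b * e₂)) (-X₃ / (4 * e₂)) (-Y₃ / (4 * b * e₂)) (l / b)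
        (-(Y₁ - l * X₁) / (4 * b * e₂)) := by
      refine LamHom.collinear3 (LamHom.ne_zero_of_val_one hA2) he₂0 hb h₁.1 h₂.1 h₃.1 (by ring)
        ?_ ?_ ?_ ?_ ?_
      · exact Vieta.line _ h₁.1 h₂.1 hxy
      · exact Vieta.negAddY_eq _ X₁ X₂ Y₁ l
      · have := Vieta.sum (shortCurve (-(e₁ + e₂)) (e₁ * e₂)) X₁ X₂ l
        simp only [shortCurve_a₁, shortCurve_a₂] at this
        rw [hX₃, this]
        ring
      · have := Vieta.pair _ h₁.1 h₂.1 hxy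
        simp only [shortCurve_a₁, shortCurve_a₃, shortCurve_a₄] at this
        rw [hX₃, hl, this]
        ring
      · have := Vieta.prod _ h₁.1 h₂.1 hxy
        simp only [shortCurve_a₃, shortCurve_a₆] at this
        rw [hX₃, hl, this]
        ring
    have hact := act hN hcol
    have hneg := lamP_neg hA2 he₁ he₁0 he₂ hb (Affine.Point.some X₃ Y₃ h₃)
    have h1 := lamP_ne_zero hA2 he₁ he₁0 he₂ hb (Affine.Point.some X₁ Y₁ h₁)
    have h2 := lamP_ne_zero hA2 he₁ he₁0 he₂ hb (Affine.Point.some X₂ Y₂ h₂)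
    have h3 := lamP_ne_zero hA2 he₁ he₁0 he₂ hb (Affine.Point.some X₃ Y₃ h₃)
    have key : lamP A e₁ e₂ b (-Affine.Point.some X₃ Y₃ h₃) /
        (lamP A e₁ e₂ b (Affine.Point.some X₁ Y₁ h₁) *
          lamP A e₁ e₂ b (Affine.Point.some X₂ Y₂ h₂)) =
        (lamP A e₁ e₂ b (Affine.Point.some X₃ Y₃ h₃) *
            lamP A e₁ e₂ b (-Affine.Point.some X₃ Y₃ h₃)) *
          (lamP A e₁ e₂ b (Affine.Point.some X₁ Y₁ h₁) *
            lamP A e₁ e₂ b (Affine.Point.some X₂ Y₂ h₂) *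
            lamP A e₁ e₂ b (Affine.Point.some X₃ Y₃ h₃))⁻¹ := by
      field_simp
    rw [key]
    exact InU.mul hN hneg (InU.inv hN hact)

theorem lamP_nsmul (hA2 : A.valuation (2 : K) = 1) (he₁ : e₁ ∈ A.nonunits) (he₁0 : e₁ ≠ 0)
    (he₂ : A.valuation e₂ = 1) (hb : b ^ 2 = -e₂) (n : ℕ)
    (P : (shortCurve (-(e₁ + e₂)) (e₁ * e₂)).toAffine.Point) :
    InU A (-e₁ / (16 * e₂)) (lamP A e₁ e₂ b (n • P) / (lamP A e₁ e₂ b P) ^ n) := by
  have hN := LamHom.nodeHyp hA2 he₁ he₁0 he₂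
  induction n with
  | zero =>
    rw [zero_smul, pow_zero]
    change InU A (-e₁ / (16 * e₂)) (1 / 1)
    rw [div_one]
    exact InU.one A _
  | succ n ih =>
    have hadd := lamP_add hA2 he₁ he₁0 he₂ hb (n • P) P
    have h1 := lamP_ne_zero hA2 he₁ he₁0 he₂ hb P
    have h2 := lamP_ne_zero hA2 he₁ he₁0 he₂ hb (n • P)
    have key : lamP A e₁ e₂ b ((n + 1) • P) / (lamP A e₁ e₂ b P) ^ (n + 1) =
        (lamP A e₁ e₂ b (n • P + P) / (lamP A e₁ e₂ b (n • P) * lamP A e₁ e₂ b P)) *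
          (lamP A e₁ e₂ b (n • P) / (lamP A e₁ e₂ b P) ^ n) := by
      rw [succ_nsmul]
      field_simp
      ring
    rw [key]
    exact InU.mul hN hadd ih

theorem lamP_kernel (hA2 : A.valuation (2 : K) = 1) (he₁ : e₁ ∈ A.nonunits) (he₁0 : e₁ ≠ 0)
    (he₂ : A.valuation e₂ = 1) (hb : b ^ 2 = -e₂)
    (P : (shortCurve (-(e₁ + e₂)) (e₁ * e₂)).toAffine.Point)
    (hP : InU A (-e₁ / (16 * e₂)) (lamP A e₁ e₂ b P)) : InE1 A P := by
  rcases P with _ | ⟨X, Y, h⟩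
  · trivial
  · have hx : -X / (4 * e₂) ∉ A :=
      lamT_kernel (LamHom.nodeHyp hA2 he₁ he₁0 he₂)
        (LamHom.onNode (LamHom.ne_zero_of_val_one hA2) (LamHom.ne_zero_of_val_one he₂) hb h.1) hP
    change X ∉ A
    intro hX
    apply hx
    have h4 : A.valuation (4 * e₂) = 1 := by
      have h : (4 : K) = 2 ^ 2 := by norm_num
      rw [map_mul, h, map_pow, hA2, he₂]
      simp
    rw [← ValuationSubring.valuation_le_one_iff] at hX ⊢
    rw [map_div₀, h4, div_one, Valuation.map_neg]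
    exact hX

end Fermat.Agent.S05
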