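/-
S05 team, Plan A, block MultA (proved by helper37; statement by helper5): the multiplicative case
from `LamHom` + `F1`.  Complete given the `LamHom`, `ACTBasic` and `FormalGroup` interfaces.
-/
import Fermat.Agent.S05.LamHom
import Fermat.Agent.S05.FormalGroup

set_option autoImplicit false

namespace Fermat.Agent.S05

open WeierstrassCurve

variable {K : Type*} [Field K]

namespace MultA

/-- The valuation of a numeral power of two is one when `2` is a unit. -/
theorem val_sixteen {A : ValuationSubring K} (hA2 : A.valuation (2 : K) = 1) :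
    A.valuation (16 : K) = 1 := by
  have h : (16 : K) = 2 ^ 4 := by norm_num
  rw [h, map_pow, hA2, one_pow]

theorem val_four {A : ValuationSubring K} (hA2 : A.valuation (2 : K) = 1) :
    A.valuation (4 : K) = 1 := by
  have h : (4 : K) = 2 ^ 2 := by norm_num
  rw [h, map_pow, hA2, one_pow]

/-- The parameter `r = -e₁ / (16 e₂)` satisfies the standing hypotheses. -/
theorem nodeHyp {A : ValuationSubring K} (hA2 : A.valuation (2 : K) = 1)
    {e₁ e₂ : K} (he₁ : e₁ ∈ A.nonunits) (he₁0 : e₁ ≠ 0) (he₂ : A.valuation e₂ = 1) :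
    NodeHyp A (-e₁ / (16 * e₂)) := by
  have he₂0 : e₂ ≠ 0 := by
    intro h
    rw [h, map_zero] at he₂
    exact zero_ne_one he₂
  have h2 : (2 : K) ≠ 0 := by
    intro h
    rw [h, map_zero] at hA2
    exact zero_ne_one hA2
  refine ⟨hA2, ?_, ?_⟩
  · rw [ValuationSubring.mem_nonunits_iff] at he₁ ⊢
    rw [map_div₀, map_mul, val_sixteen hA2, he₂, Valuation.map_neg, mul_one, div_one]
    exact he₁
  · have h16 : (16 : K) ≠ 0 := by
      have h : (16 : K) = 2 ^ 4 := by norm_num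
      rw [h]
      exact pow_ne_zero _ h2
    exact div_ne_zero (neg_ne_zero.mpr he₁0) (mul_ne_zero h16 he₂0)

/-- A unit `μ` of `A` satisfies `σ μ / μ ∈ 1 + m` for inertia-like `σ`. -/
theorem sigma_div_sub_one_mem {A : ValuationSubring K} {σ : K →+* K} (hσ : InertiaLike A σ)
    {μ : K} (hμ : A.valuation μ = 1) : σ μ / μ - 1 ∈ A.nonunits := by
  have hμ0 : μ ≠ 0 := by
    intro h
    rw [h, map_zero] at hμ
    exact zero_ne_one hμ
  have hμA : μ ∈ A := by
    rw [← ValuationSubring.valuation_le_one_iff, hμ]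
  have h1 := hσ.sub_mem μ hμA
  rw [ValuationSubring.mem_nonunits_iff] at h1 ⊢
  have h2 : σ μ / μ - 1 = (σ μ - μ) / μ := by
    field_simp
  rw [h2, map_div₀, hμ, div_one]
  exact h1

end MultA

variable [DecidableEq K]

theorem mult_case_short_A (A : ValuationSubring K) (hA2 : A.valuation (2 : K) = 1)
    (e₁ e₂ : K) (he₁ : e₁ ∈ A.nonunits) (he₁0 : e₁ ≠ 0) (he₂ : A.valuation e₂ = 1)
    (hsqrt : ∀ u : K, ∃ t : K, t ^ 2 = u)
    (n : ℕ) (_hprime : n.Prime) (hn : A.valuation (n : K) = 1) (hodd : Odd n) (ρ : K)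
    (hρ : e₁ = ρ ^ n)
    (σ : K →+* K) (hσ : InertiaLike A σ) (hσρ : σ ρ = ρ) (hσe₂ : σ e₂ = e₂)
    {x y : K} (h : (shortCurve (-(e₁ + e₂)) (e₁ * e₂)).toAffine.Nonsingular x y)
    (h' : (shortCurve (-(e₁ + e₂)) (e₁ * e₂)).toAffine.Nonsingular (σ x) (σ y))
    (htors : n • (Affine.Point.some x y h) = 0)
    (htors' : n • (Affine.Point.some (σ x) (σ y) h') = 0) :
    σ x = x ∧ σ y = y := by
  obtain ⟨b, hb⟩ := hsqrt (-e₂)
  have hN : NodeHyp A (-e₁ / (16 * e₂)) := MultA.nodeHyp hA2 he₁ he₁0 he₂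
  have hn0 : n ≠ 0 := hodd.pos.ne'
  have hρ0 : ρ ≠ 0 := by
    rintro rfl
    exact he₁0 (by rw [hρ, zero_pow hn0])
  -- `b` is a unit fixed by `σ`
  have hbv : A.valuation b = 1 := by
    have h1 : A.valuation b ^ 2 = 1 := by rw [← map_pow, hb, Valuation.map_neg, he₂]
    exact (pow_eq_one_iff_of_nonneg zero_le two_ne_zero).mp h1
  have hbA : b ∈ A := by rw [← ValuationSubring.valuation_le_one_iff, hbv]
  have hσb : σ b = b := by
    have h1 : (σ b) ^ 2 = b ^ 2 := by rw [← map_pow, hb, map_neg, hσe₂]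
    have h2 : (σ b - b) * (σ b + b) = 0 := by linear_combination h1
    rcases mul_eq_zero.mp h2 with h3 | h3
    · exact sub_eq_zero.mp h3
    · exfalso
      have h4 := hσ.sub_mem b hbA
      have h5 : σ b - b = -(2 * b) := by linear_combination h3
      rw [h5, ValuationSubring.mem_nonunits_iff, Valuation.map_neg, map_mul, hA2, hbv,
        one_mul] at h4
      exact lt_irrefl _ h4
  have hσe₁ : σ e₁ = e₁ := by rw [hρ, map_pow, hσρ]
  have hσr : σ (-e₁ / (16 * e₂)) = -e₁ / (16 * e₂) := by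
    rw [map_div₀, map_neg, map_mul, hσe₁, hσe₂, map_ofNat]
  -- the two points and their parameters
  have hlam' : lamP A e₁ e₂ b (Affine.Point.some (σ x) (σ y) h')
      = σ (lamP A e₁ e₂ b (Affine.Point.some x y h)) := by
    show lamT A (-e₁ / (16 * e₂)) (-(σ x) / (4 * e₂)) (-(σ y) / (4 * b * e₂))
      = σ (lamT A (-e₁ / (16 * e₂)) (-x / (4 * e₂)) (-y / (4 * b * e₂)))
    rw [← lamT_map σ hσ.mem_iff, hσr]
    congr 1
    · rw [map_div₀, map_neg, map_mul, hσe₂, map_ofNat]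
    · rw [map_div₀, map_neg, map_mul, map_mul, hσe₂, hσb, map_ofNat]
  generalize hPdef : Affine.Point.some x y h = P at htors hlam'
  generalize hP'def : Affine.Point.some (σ x) (σ y) h' = P' at htors' hlam'
  have hl0 : lamP A e₁ e₂ b P ≠ 0 := lamP_ne_zero hA2 he₁ he₁0 he₂ hb P
  have hl'0 : lamP A e₁ e₂ b P' ≠ 0 := lamP_ne_zero hA2 he₁ he₁0 he₂ hb P'
  have hnl0 : lamP A e₁ e₂ b (-P) ≠ 0 := lamP_ne_zero hA2 he₁ he₁0 he₂ hb (-P)
  -- torsion: `λ ^ n ∈ U`, hence `λ = ρ ^ (2 j) * unit`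
  obtain ⟨j, hj⟩ := lamP_nsmul hA2 he₁ he₁0 he₂ hb n P
  rw [htors] at hj
  have hlam0 : lamP A e₁ e₂ b (0 : (shortCurve (-(e₁ + e₂)) (e₁ * e₂)).toAffine.Point) = 1 := rfl
  rw [hlam0] at hj
  set lam := lamP A e₁ e₂ b P with hlamdef
  have hu : A.valuation (1 / lam ^ n * ((-e₁ / (16 * e₂)) ^ 2) ^ j) = 1 := by
    rw [ValuationSubring.mem_nonunits_iff] at hj
    have h1 := Valuation.map_one_add_of_lt (v := A.valuation) hj
    rwa [add_sub_cancel] at h1
  have hVr : A.valuation (-e₁ / (16 * e₂)) = A.valuation ρ ^ n := by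
    rw [map_div₀, map_mul, MultA.val_sixteen hA2, he₂, Valuation.map_neg, mul_one, div_one, hρ,
      map_pow]
  have hw : A.valuation ρ ≠ 0 := (Valuation.ne_zero_iff _).mpr hρ0
  have hVl : A.valuation lam ≠ 0 := (Valuation.ne_zero_iff _).mpr hl0
  have hμ : A.valuation (lam * ρ ^ (-(2 * j))) = 1 := by
    have h1 : (A.valuation (lam * ρ ^ (-(2 * j)))) ^ n = 1 := by
      rw [map_mul, map_zpow₀, mul_pow]
      rw [map_mul, map_div₀, map_one, map_pow, map_zpow₀, map_pow, hVr] at hu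
      have h2 : A.valuation lam ^ n = ((A.valuation ρ ^ n) ^ 2) ^ j := by
        have h3 : A.valuation lam ^ n ≠ 0 := pow_ne_zero _ hVl
        field_simp at hu
        exact hu.symm
      rw [h2, ← zpow_natCast (A.valuation ρ ^ (-(2 * j))) n, ← zpow_mul, ← pow_mul,
        ← zpow_natCast (A.valuation ρ) (n * 2), ← zpow_mul, ← zpow_add₀ hw]
      have h4 : (↑(n * 2) : ℤ) * j + -(2 * j) * ↑n = 0 := by push_cast; ring
      rw [h4, zpow_zero]
    exact (pow_eq_one_iff_of_nonneg zero_le hn0).mp h1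
  have hσl : σ lam / lam - 1 ∈ A.nonunits := by
    have h1 := MultA.sigma_div_sub_one_mem hσ hμ
    have h2 : ρ ^ (-(2 * j)) ≠ 0 := zpow_ne_zero _ hρ0
    have h3 : σ (lam * ρ ^ (-(2 * j))) / (lam * ρ ^ (-(2 * j))) = σ lam / lam := by
      rw [map_mul, map_zpow₀, hσρ]
      field_simp
    rwa [h3] at h1
  -- the difference `P' - P` has trivial parameter
  have hratio : InU A (-e₁ / (16 * e₂)) (lamP A e₁ e₂ b P' / lam) :=
    InU.of_sub_one_mem (by rw [hlam']; exact hσl)
  have hadd := lamP_add hA2 he₁ he₁0 he₂ hb P' (-P)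
  have hneg := lamP_neg hA2 he₁ he₁0 he₂ hb P
  have hQ : InU A (-e₁ / (16 * e₂)) (lamP A e₁ e₂ b (P' + -P)) := by
    have h1 := InU.mul hN (InU.mul hN hadd hneg) hratio
    have h2 : lamP A e₁ e₂ b (P' + -P) / (lamP A e₁ e₂ b P' * lamP A e₁ e₂ b (-P))
        * (lamP A e₁ e₂ b P * lamP A e₁ e₂ b (-P)) * (lamP A e₁ e₂ b P' / lam)
        = lamP A e₁ e₂ b (P' + -P) := by
      rw [← hlamdef]
      field_simp
    rwa [h2] at h1
  have hE1 := lamP_kernel hA2 he₁ he₁0 he₂ hb (P' + -P) hQ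
  have htQ : n • (P' + -P) = 0 := by
    rw [smul_add, smul_neg, htors, htors', neg_zero, add_zero]
  -- `F1`: the kernel of reduction has no `n`-torsion
  have hαA : -(e₁ + e₂) ∈ A := by
    apply A.neg_mem
    apply A.add_mem
    · exact A.nonunits_subset he₁
    · rw [← ValuationSubring.valuation_le_one_iff, he₂]
  have hβA : e₁ * e₂ ∈ A := by
    apply A.mul_mem
    · exact A.nonunits_subset he₁
    · rw [← ValuationSubring.valuation_le_one_iff, he₂]
  have hQ0 : P' + -P = 0 := by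
    generalize P' + -P = Q at hE1 htQ
    cases Q with
    | zero => rfl
    | some X Y hXY => exact absurd htQ (F1_short A _ _ hαA hβA n hn hXY hE1)
  have hPP : P' = P := by rwa [← sub_eq_add_neg, sub_eq_zero] at hQ0
  rw [← hPdef, ← hP'def] at hPP
  simpa using hPP

end Fermat.Agent.S05
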