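/-
S05 team, the multiplicative reduction case (owner of this file: helper5).
Three independent routes were developed for this statement (Plan A: `MultA.lean`, via the
approximate Tate parameter `lamT` and the collinear-triple theorem `act`; Plans B/C: `PB_*.lean`,
`PC_Tent.lean`).  Plan A was completed first and is the one used here.
-/
import Fermat.Agent.S05.Defs
import Fermat.Agent.S05.FormalGroup
import Fermat.Agent.S05.MultA

set_option autoImplicit false

namespace Fermat.Agent.S05

open WeierstrassCurve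

variable {K : Type*} [Field K] [DecidableEq K]

/-- **MULT case**: on `y² = x (x - e₁) (x - e₂)` with `e₁ ∈ m`, `e₁ ≠ 0`, `e₂` a unit
(node at `(0,0)` mod `m`), where `e₁ = ρ ^ n` with `ρ` fixed by `σ`, an `n`-torsion point
(`n` odd, a unit of `A`) is fixed by every inertia-like `σ` fixing `e₂`.
`hsqrt`: `K` is quadratically closed (true for `AlgebraicClosure ℚ`). -/
theorem mult_case_short (A : ValuationSubring K) (hA2 : A.valuation (2 : K) = 1)
    (e₁ e₂ : K) (he₁ : e₁ ∈ A.nonunits) (he₁0 : e₁ ≠ 0) (he₂ : A.valuation e₂ = 1)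
    (hsqrt : ∀ u : K, ∃ t : K, t ^ 2 = u)
    (n : ℕ) (hprime : n.Prime) (hn : A.valuation (n : K) = 1) (hodd : Odd n) (ρ : K)
    (hρ : e₁ = ρ ^ n)
    (σ : K →+* K) (hσ : InertiaLike A σ) (hσρ : σ ρ = ρ) (hσe₂ : σ e₂ = e₂)
    {x y : K} (h : (shortCurve (-(e₁ + e₂)) (e₁ * e₂)).toAffine.Nonsingular x y)
    (h' : (shortCurve (-(e₁ + e₂)) (e₁ * e₂)).toAffine.Nonsingular (σ x) (σ y))
    (htors : n • (Affine.Point.some x y h) = 0)
    (htors' : n • (Affine.Point.some (σ x) (σ y) h') = 0) :
    σ x = x ∧ σ y = y :=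
  mult_case_short_A A hA2 e₁ e₂ he₁ he₁0 he₂ hsqrt n hprime hn hodd ρ hρ σ hσ hσρ hσe₂ h h'
    htors htors'

end Fermat.Agent.S05
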