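/-
S05 team, block R (owner: helper77): F2 and the good reduction case.

`F2`: two points of a Weierstrass curve with integral coefficients which are coordinatewise
congruent modulo the maximal ideal to an integral point with nonsingular reduction differ by `0`
or by a point with non-integral `x`-coordinate (chord/tangent slope is not integral).

`good_case_short`: the good reduction case for `y² = x³ + αx² + βx`.
-/
import Fermat.Agent.S05.Defs
import Fermat.Agent.S05.FormalGroup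

set_option autoImplicit false

namespace Fermat.Agent.S05

open WeierstrassCurve WeierstrassCurve.Affine

namespace Reduction

variable {K : Type*} [Field K]

theorem mul_mem_nonunits (A : ValuationSubring K) {a b : K} (ha : a ∈ A)
    (hb : b ∈ A.nonunits) : a * b ∈ A.nonunits := by
  rw [ValuationSubring.mem_nonunits_iff] at hb ⊢
  rw [map_mul]
  exact mul_lt_one_of_nonneg_of_lt_one_right ((A.valuation_le_one_iff a).mpr ha) zero_le hb

theorem mul_mem_nonunits' (A : ValuationSubring K) {a b : K} (ha : a ∈ A.nonunits)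
    (hb : b ∈ A) : a * b ∈ A.nonunits := by
  rw [mul_comm]; exact mul_mem_nonunits A hb ha

/-- If `ℓ ∉ A` then `ℓ ^ 2 + a * ℓ - c ∉ A` for `a, c ∈ A`. -/
theorem sq_add_mul_sub_not_mem (A : ValuationSubring K) {ℓ a c : K} (ha : a ∈ A) (hc : c ∈ A)
    (hℓ : ℓ ∉ A) : ℓ ^ 2 + a * ℓ - c ∉ A := by
  intro h
  have hℓ0 : ℓ ≠ 0 := fun h0 => hℓ (h0 ▸ A.zero_mem)
  have hinv : ℓ⁻¹ ∈ A := (A.mem_or_inv_mem ℓ).resolve_left hℓ
  apply hℓ
  have : ℓ = (ℓ ^ 2 + a * ℓ - c + c) * ℓ⁻¹ - a := by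
    field_simp
    ring
  rw [this]
  exact sub_mem (mul_mem (add_mem h hc) hinv) ha

end Reduction

open Reduction in
/-- **F2**. Two nonsingular points that are coordinatewise congruent modulo the maximal ideal to
an integral point with nonsingular reduction differ by `0` or by a point with non-integral
`x`-coordinate. -/
theorem F2 {K : Type*} [Field K] [DecidableEq K] (A : ValuationSubring K)
    (W : WeierstrassCurve K)
    (ha₁ : W.a₁ ∈ A) (ha₂ : W.a₂ ∈ A)
    {x₁ y₁ x₂ y₂ : K} (h₁ : W.toAffine.Nonsingular x₁ y₁) (h₂ : W.toAffine.Nonsingular x₂ y₂)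
    (hx₁ : x₁ ∈ A) (hx : x₁ - x₂ ∈ A.nonunits) (hy : y₁ - y₂ ∈ A.nonunits)
    (hns : 2 * y₁ + W.a₁ * x₁ + W.a₃ ∉ A.nonunits ∨
      3 * x₁ ^ 2 + 2 * W.a₂ * x₁ + W.a₄ - W.a₁ * y₁ ∉ A.nonunits) :
    Point.some x₁ y₁ h₁ - Point.some x₂ y₂ h₂ = 0 ∨
      ∃ x₃ y₃, ∃ h₃ : W.toAffine.Nonsingular x₃ y₃,
        Point.some x₁ y₁ h₁ - Point.some x₂ y₂ h₂ = Point.some x₃ y₃ h₃ ∧ x₃ ∉ A := by
  have hx₂ : x₂ ∈ A := by
    have : x₂ = x₁ - (x₁ - x₂) := by ring
    rw [this]; exact sub_mem hx₁ (A.nonunits_subset hx)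
  rw [sub_eq_add_neg, Point.neg_some]
  by_cases hxy : x₁ = x₂ ∧ y₁ = W.toAffine.negY x₂ (W.toAffine.negY x₂ y₂)
  · left; exact Point.add_of_Y_eq hxy.1 hxy.2
  · right
    refine ⟨_, _, _, Point.add_some hxy, ?_⟩
    -- it suffices to show that the slope is not integral
    have key : W.toAffine.slope x₁ x₂ y₁ (W.toAffine.negY x₂ y₂) ∉ A := by
      intro hℓ
      have e₁ := (Affine.equation_iff _ _).mp h₁.1
      have e₂ := (Affine.equation_iff _ _).mp h₂.1
      by_cases hxx : x₁ = x₂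
      · -- tangent case
        have hyy : y₁ ≠ W.toAffine.negY x₂ (W.toAffine.negY x₂ y₂) := fun h => hxy ⟨hxx, h⟩
        rw [Affine.slope_of_Y_ne hxx hyy] at hℓ
        rw [Affine.negY_negY] at hyy
        subst hxx
        have hy₁ : y₁ = W.toAffine.negY x₁ y₂ := by
          rcases Affine.Y_eq_of_X_eq h₁.1 h₂.1 rfl with h | h
          · exact absurd h hyy
          · exact h
        have hη : y₁ - W.toAffine.negY x₁ y₁ = y₁ - y₂ := by
          rw [hy₁, Affine.negY_negY]
        rw [hη] at hℓ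
        have hne : y₁ - y₂ ≠ 0 := sub_ne_zero.mpr hyy
        have hg : 3 * x₁ ^ 2 + 2 * W.a₂ * x₁ + W.a₄ - W.a₁ * y₁ ∈ A.nonunits := by
          have := mul_mem_nonunits A hℓ hy
          rwa [div_mul_cancel₀ _ hne] at this
        have hη' : 2 * y₁ + W.a₁ * x₁ + W.a₃ ∈ A.nonunits := by
          have : 2 * y₁ + W.a₁ * x₁ + W.a₃ = y₁ - y₂ := by
            rw [← hη]; simp only [Affine.negY]; ring
          rw [this]; exact hy
        rcases hns with h | h
        · exact h hη'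
        · exact h hg
      · -- secant case
        rw [Affine.slope_of_X_ne hxx] at hℓ
        have hne : x₁ - x₂ ≠ 0 := sub_ne_zero.mpr hxx
        generalize hℓdef : (y₁ - W.toAffine.negY x₂ y₂) / (x₁ - x₂) = ℓ at hℓ
        have hℓ₁ : ℓ * (x₁ - x₂) = y₁ - W.toAffine.negY x₂ y₂ := by
          rw [← hℓdef, div_mul_cancel₀ _ hne]
        have hm₁ : ℓ * (x₁ - x₂) ∈ A.nonunits := mul_mem_nonunits A hℓ hx
        have hm₂ : W.a₁ * (x₁ - x₂) ∈ A.nonunits := mul_mem_nonunits A ha₁ hx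
        have hη : 2 * y₁ + W.a₁ * x₁ + W.a₃ ∈ A.nonunits := by
          have : 2 * y₁ + W.a₁ * x₁ + W.a₃ = ℓ * (x₁ - x₂) + (y₁ - y₂) + W.a₁ * (x₁ - x₂) := by
            rw [hℓ₁]; simp only [Affine.negY]; ring
          rw [this]
          exact add_mem (add_mem hm₁ hy) hm₂
        have hg : 3 * x₁ ^ 2 + 2 * W.a₂ * x₁ + W.a₄ - W.a₁ * y₁ ∈ A.nonunits := by
          have hD : (y₁ - y₂) + W.a₁ * (x₁ - x₂) ∈ A.nonunits := add_mem hy hm₂
          have hℓD : ℓ * ((y₁ - y₂) + W.a₁ * (x₁ - x₂)) ∈ A.nonunits := mul_mem_nonunits A hℓ hD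
          have h3 : (2 * x₁ + x₂ + W.a₂) * (x₁ - x₂) ∈ A.nonunits :=
            mul_mem_nonunits A (add_mem (add_mem (mul_mem (by
              have : (2 : K) = 1 + 1 := by norm_num
              rw [this]; exact add_mem A.one_mem A.one_mem) hx₁) hx₂) ha₂) hx
          have h4 : W.a₁ * (2 * y₁ + W.a₁ * x₁ + W.a₃) ∈ A.nonunits := mul_mem_nonunits A ha₁ hη
          have h5 : W.a₁ * ((y₁ - y₂) + W.a₁ * (x₁ - x₂)) ∈ A.nonunits :=
            mul_mem_nonunits A ha₁ hD
          have : 3 * x₁ ^ 2 + 2 * W.a₂ * x₁ + W.a₄ - W.a₁ * y₁ =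
              ℓ * ((y₁ - y₂) + W.a₁ * (x₁ - x₂)) + (2 * x₁ + x₂ + W.a₂) * (x₁ - x₂)
                - W.a₁ * (2 * y₁ + W.a₁ * x₁ + W.a₃)
                + W.a₁ * ((y₁ - y₂) + W.a₁ * (x₁ - x₂)) := by
            have hℓ₂ : ℓ * ((y₁ - y₂) + W.a₁ * (x₁ - x₂)) * (x₁ - x₂) =
                (y₁ - W.toAffine.negY x₂ y₂) * ((y₁ - y₂) + W.a₁ * (x₁ - x₂)) := by
              rw [← hℓ₁]; ring
            apply mul_right_cancel₀ hne
            simp only [Affine.negY] at hℓ₂
            linear_combination -hℓ₂ - e₁ + e₂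
          rw [this]
          exact add_mem (sub_mem (add_mem hℓD h3) h4) h5
        rcases hns with h | h
        · exact h hη
        · exact h hg
    simp only [Affine.addX]
    have := sq_add_mul_sub_not_mem A ha₁ (add_mem (add_mem ha₂ hx₁) hx₂) key
    convert this using 2
    ring

/-- `F2`, phrased with the kernel of reduction `InE1`. -/
theorem F2_inE1 {K : Type*} [Field K] [DecidableEq K] (A : ValuationSubring K)
    (W : WeierstrassCurve K)
    (ha₁ : W.a₁ ∈ A) (ha₂ : W.a₂ ∈ A)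
    {x₁ y₁ x₂ y₂ : K} (h₁ : W.toAffine.Nonsingular x₁ y₁) (h₂ : W.toAffine.Nonsingular x₂ y₂)
    (hx₁ : x₁ ∈ A) (hx : x₁ - x₂ ∈ A.nonunits) (hy : y₁ - y₂ ∈ A.nonunits)
    (hns : 2 * y₁ + W.a₁ * x₁ + W.a₃ ∉ A.nonunits ∨
      3 * x₁ ^ 2 + 2 * W.a₂ * x₁ + W.a₄ - W.a₁ * y₁ ∉ A.nonunits) :
    InE1 A (Point.some x₁ y₁ h₁ - Point.some x₂ y₂ h₂) := by
  rcases F2 A W ha₁ ha₂ h₁ h₂ hx₁ hx hy hns with h | ⟨x₃, y₃, h₃, h, hx₃⟩
  · rw [h]; trivial
  · rw [h]; exact hx₃

namespace Reduction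

variable {K : Type*} [Field K]

/-- The reduction of an integral point of `y² = x³ + αx² + βx` is nonsingular when
`β² (α² - 4β)` and `2` are units. -/
theorem short_nonsingular_mod (A : ValuationSubring K) (hA2 : A.valuation (2 : K) = 1)
    {α β : K} (hα : α ∈ A) (hβ : A.valuation β = 1) (hdisc : A.valuation (α ^ 2 - 4 * β) = 1)
    {x y : K} (hx : x ∈ A) (heq : y ^ 2 = x ^ 3 + α * x ^ 2 + β * x) :
    2 * y ∉ A.nonunits ∨ 3 * x ^ 2 + 2 * α * x + β ∉ A.nonunits := by
  by_contra hcon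
  rw [not_or, not_not, not_not] at hcon
  obtain ⟨h2y, hg⟩ := hcon
  have hβA : β ∈ A := (A.valuation_le_one_iff β).mp hβ.le
  have h3 : (3 : K) ∈ A := by
    have : (3 : K) = 1 + 1 + 1 := by norm_num
    rw [this]; exact add_mem (add_mem A.one_mem A.one_mem) A.one_mem
  have h4 : (4 : K) ∈ A := by
    have : (4 : K) = 1 + 1 + 1 + 1 := by norm_num
    rw [this]; exact add_mem (add_mem (add_mem A.one_mem A.one_mem) A.one_mem) A.one_mem
  have h18 : (18 : K) ∈ A := by
    have : (18 : K) = ((18 : ℕ) : K) := by norm_num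
    rw [this]; exact natCast_mem A 18
  have h27 : (27 : K) ∈ A := by
    have : (27 : K) = ((27 : ℕ) : K) := by norm_num
    rw [this]; exact natCast_mem A 27
  have hy : y ∈ A.nonunits := by
    rw [ValuationSubring.mem_nonunits_iff] at h2y ⊢
    rwa [map_mul, hA2, one_mul] at h2y
  have hyA : y ∈ A := A.nonunits_subset hy
  have hf : x ^ 3 + α * x ^ 2 + β * x ∈ A.nonunits := by
    rw [← heq, pow_two]; exact mul_mem_nonunits A hyA hy
  have hfA := A.nonunits_subset hf
  have hgA := A.nonunits_subset hg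
  have hs : α + 3 * x ∈ A := add_mem hα (mul_mem h3 hx)
  have key : β ^ 2 * (α ^ 2 - 4 * β) =
      ((α + 3 * x) ^ 2 * (3 * x ^ 2 + 2 * α * x + β) - 4 * (3 * x ^ 2 + 2 * α * x + β) ^ 2
        + 18 * (α + 3 * x) * (x ^ 3 + α * x ^ 2 + β * x)) * (3 * x ^ 2 + 2 * α * x + β)
      + (-(4 * (α + 3 * x) ^ 3) - 27 * (x ^ 3 + α * x ^ 2 + β * x))
        * (x ^ 3 + α * x ^ 2 + β * x) := by ring
  have hmem : β ^ 2 * (α ^ 2 - 4 * β) ∈ A.nonunits := by
    rw [key]
    refine add_mem (mul_mem_nonunits A ?_ hg) (mul_mem_nonunits A ?_ hf)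
    · exact add_mem (sub_mem (mul_mem (pow_mem hs 2) hgA) (mul_mem h4 (pow_mem hgA 2)))
        (mul_mem (mul_mem h18 hs) hfA)
    · exact sub_mem (neg_mem (mul_mem h4 (pow_mem hs 3))) (mul_mem h27 hfA)
  rw [ValuationSubring.mem_nonunits_iff, map_mul, map_pow, hβ, hdisc, one_pow, one_mul] at hmem
  exact lt_irrefl _ hmem

end Reduction

open Reduction in
/-- **GOOD case**: on `y² = x³ + αx² + βx` with good reduction at `A` (discriminant
`16 β² (α² - 4β)` a unit), an `n`-torsion point (`n` odd, a unit of `A`) is fixed by every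
inertia-like `σ` fixing the coefficients. `h'`, `htors'` say that the conjugate point is again an
`n`-torsion point (supplied by `Point.map` in the application). -/
theorem good_case_short {K : Type*} [Field K] [DecidableEq K]
    (A : ValuationSubring K) (hA2 : A.valuation (2 : K) = 1)
    (α β : K) (hα : α ∈ A) (hβ : A.valuation β = 1) (hdisc : A.valuation (α ^ 2 - 4 * β) = 1)
    (n : ℕ) (hn : A.valuation (n : K) = 1) (hodd : Odd n)
    (σ : K →+* K) (hσ : InertiaLike A σ) (hσα : σ α = α) (hσβ : σ β = β)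
    {x y : K} (h : (shortCurve α β).toAffine.Nonsingular x y)
    (h' : (shortCurve α β).toAffine.Nonsingular (σ x) (σ y))
    (htors : n • (Affine.Point.some x y h) = 0)
    (htors' : n • (Affine.Point.some (σ x) (σ y) h') = 0) :
    σ x = x ∧ σ y = y := by
  have hβA : β ∈ A := (A.valuation_le_one_iff β).mp hβ.le
  -- the torsion point is integral
  have hx : x ∈ A := by
    by_contra hx
    exact F1_short A α β hα hβA n hn h hx htors
  have heq : y ^ 2 = x ^ 3 + α * x ^ 2 + β * x := by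
    have := (Affine.equation_iff _ _).mp h.1
    simp only [shortCurve_a₁, shortCurve_a₂, shortCurve_a₃, shortCurve_a₄, shortCurve_a₆] at this
    linear_combination this
  have hy : y ∈ A := by
    have hy2 : y ^ 2 ∈ A := by
      rw [heq]
      exact add_mem (add_mem (pow_mem hx 3) (mul_mem hα (pow_mem hx 2))) (mul_mem hβA hx)
    rw [← A.valuation_le_one_iff] at hy2 ⊢
    rw [map_pow] at hy2
    exact (pow_le_one_iff_of_nonneg zero_le (by norm_num)).mp hy2
  -- the conjugate point is congruent to it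
  have hxσ : x - σ x ∈ A.nonunits := by
    have := neg_mem (hσ.sub_mem x hx)
    rwa [neg_sub] at this
  have hyσ : y - σ y ∈ A.nonunits := by
    have := neg_mem (hσ.sub_mem y hy)
    rwa [neg_sub] at this
  have hns := short_nonsingular_mod A hA2 hα hβ hdisc hx heq
  have hns' : 2 * y + (shortCurve α β).a₁ * x + (shortCurve α β).a₃ ∉ A.nonunits ∨
      3 * x ^ 2 + 2 * (shortCurve α β).a₂ * x + (shortCurve α β).a₄ - (shortCurve α β).a₁ * y
        ∉ A.nonunits := by
    simpa only [shortCurve_a₁, shortCurve_a₂, shortCurve_a₃, shortCurve_a₄, zero_mul, add_zero,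
      sub_zero] using hns
  have htors'' : n • (Affine.Point.some x y h - Affine.Point.some (σ x) (σ y) h') = 0 := by
    rw [smul_sub, htors, htors', sub_zero]
  rcases F2 A (shortCurve α β) (by simp [A.zero_mem]) (by simpa using hα) h h' hx hxσ hyσ hns'
    with h0 | ⟨x₃, y₃, h₃, h3, hx₃⟩
  · have := sub_eq_zero.mp h0
    simp only [Affine.Point.some.injEq] at this
    exact ⟨this.1.symm, this.2.symm⟩
  · rw [h3] at htors''
    exact absurd htors'' (F1_short A α β hα hβA n hn h₃ hx₃)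

end Fermat.Agent.S05
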