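import Fermat.Agent.S05.Defs

/-
S05 team, block Transfer (owner: helper29): from a curve `y² + xy = x³ + a₂x² + a₄x + a₆`
to the short model via `(x, y) ↦ (4x - r, 8y + 4x)`.
-/

set_option autoImplicit false

namespace Fermat.Agent.S05

namespace Transfer

open WeierstrassCurve WeierstrassCurve.Affine

variable {K : Type*} [Field K]

/-- Hypotheses relating the two models. -/
structure Hyp (W : WeierstrassCurve K) (r α β : K) : Prop where
  a₁ : W.a₁ = 1
  a₃ : W.a₃ = 0
  two : (2 : K) ≠ 0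
  h₂ : 4 * W.a₂ + 1 = α - 3 * r
  h₄ : 16 * W.a₄ = 3 * r ^ 2 - 2 * α * r + β
  h₆ : 64 * W.a₆ = -r ^ 3 + α * r ^ 2 - β * r

variable {W : WeierstrassCurve K} {r α β : K}


theorem equation_iff (h : Hyp W r α β) (x y : K) :
    (shortCurve α β).toAffine.Equation (4 * x - r) (8 * y + 4 * x) ↔ W.toAffine.Equation x y := by
  rw [Affine.equation_iff, Affine.equation_iff, shortCurve_a₁, shortCurve_a₂, shortCurve_a₃,
    shortCurve_a₄, shortCurve_a₆, h.a₁, h.a₃]
  have h2 := h.two
  have h64 : (64 : K) ≠ 0 := by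
    have : (64 : K) = 2 ^ 6 := by norm_num
    rw [this]; exact pow_ne_zero _ h2
  have e₂ := h.h₂
  have e₄ := h.h₄
  have e₆ := h.h₆
  constructor
  · intro H
    have : 64 * (y ^ 2 + 1 * x * y + 0 * y - (x ^ 3 + W.a₂ * x ^ 2 + W.a₄ * x + W.a₆)) = 0 := by
      linear_combination H - 16 * x ^ 2 * e₂ - 4 * x * e₄ - e₆
    have := (mul_eq_zero.mp this).resolve_left h64
    linear_combination this
  · intro H
    linear_combination 64 * H + 16 * x ^ 2 * e₂ + 4 * x * e₄ + e₆

theorem nonsingular_of_nonsingular (h : Hyp W r α β) {x y : K}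
    (hxy : W.toAffine.Nonsingular x y) :
    (shortCurve α β).toAffine.Nonsingular (4 * x - r) (8 * y + 4 * x) := by
  rw [Affine.nonsingular_iff'] at hxy ⊢
  refine ⟨(equation_iff h x y).mpr hxy.1, ?_⟩
  rw [shortCurve_a₁, shortCurve_a₂, shortCurve_a₃, shortCurve_a₄]
  have h2 := h.two
  have e₂ := h.h₂
  have e₄ := h.h₄
  rw [h.a₁, h.a₃] at hxy
  by_cases hY : 2 * y + 1 * x + 0 = 0
  · left
    have hX := hxy.2.resolve_right (not_not.mpr hY)
    intro H
    apply hX
    have h16 : (16 : K) ≠ 0 := by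
      have : (16 : K) = 2 ^ 4 := by norm_num
      rw [this]; exact pow_ne_zero _ h2
    have : 16 * (1 * y - (3 * x ^ 2 + 2 * W.a₂ * x + W.a₄)) = 0 := by
      linear_combination H + 8 * hY - 8 * x * e₂ - e₄
    exact (mul_eq_zero.mp this).resolve_left h16
  · right
    intro H
    apply hY
    have h8 : (8 : K) ≠ 0 := by
      have : (8 : K) = 2 ^ 3 := by norm_num
      rw [this]; exact pow_ne_zero _ h2
    have : 8 * (2 * y + 1 * x + 0) = 0 := by linear_combination H
    exact (mul_eq_zero.mp this).resolve_left h8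

variable [DecidableEq K]

/-- The underlying function of the transfer map. -/
noncomputable def toFun (h : Hyp W r α β) :
    W.toAffine.Point → (shortCurve α β).toAffine.Point
  | .zero => .zero
  | .some x y hxy => .some (4 * x - r) (8 * y + 4 * x) (nonsingular_of_nonsingular h hxy)

omit [DecidableEq K] in
theorem toFun_zero (h : Hyp W r α β) : toFun h (0 : W.toAffine.Point) = 0 := rfl

omit [DecidableEq K] in
theorem toFun_some (h : Hyp W r α β) {x y : K} (hxy : W.toAffine.Nonsingular x y) :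
    toFun h (.some x y hxy) =
      .some (4 * x - r) (8 * y + 4 * x) (nonsingular_of_nonsingular h hxy) := rfl

theorem toFun_add (h : Hyp W r α β) (P Q : W.toAffine.Point) :
    toFun h (P + Q) = toFun h P + toFun h Q := by
  have h2 := h.two
  have h4 : (4 : K) ≠ 0 := by
    have : (4 : K) = 2 ^ 2 := by norm_num
    rw [this]; exact pow_ne_zero _ h2
  have h8 : (8 : K) ≠ 0 := by
    have : (8 : K) = 2 ^ 3 := by norm_num
    rw [this]; exact pow_ne_zero _ h2
  have e₂ := h.h₂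
  have e₄ := h.h₄
  rcases P with _ | ⟨x₁, y₁, h₁⟩
  · change toFun h (0 + Q) = 0 + toFun h Q
    rw [zero_add, zero_add]
  rcases Q with _ | ⟨x₂, y₂, h₂⟩
  · change toFun h (Point.some x₁ y₁ h₁ + 0) = toFun h (Point.some x₁ y₁ h₁) + 0
    rw [add_zero, add_zero]
  by_cases hxy : x₁ = x₂ ∧ y₁ = W.toAffine.negY x₂ y₂
  · -- opposite points
    rw [Point.add_of_Y_eq hxy.1 hxy.2, toFun_zero, toFun_some, toFun_some]
    symm
    obtain ⟨hx, hy⟩ := hxy
    subst hx
    apply Point.add_of_Y_eq rfl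
    rw [hy]
    simp only [Affine.negY, shortCurve_a₁, shortCurve_a₃, h.a₁, h.a₃]
    ring
  · have hxy' : ¬ (4 * x₁ - r = 4 * x₂ - r ∧
        8 * y₁ + 4 * x₁ = (shortCurve α β).toAffine.negY (4 * x₂ - r) (8 * y₂ + 4 * x₂)) := by
      rintro ⟨hx, hy⟩
      have hx' : x₁ = x₂ := by
        have : 4 * (x₁ - x₂) = 0 := by linear_combination hx
        exact sub_eq_zero.mp ((mul_eq_zero.mp this).resolve_left h4)
      refine hxy ⟨hx', ?_⟩
      simp only [Affine.negY, shortCurve_a₁, shortCurve_a₃, h.a₁, h.a₃] at hy ⊢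
      have : 8 * (y₁ - (-y₂ - 1 * x₂ - 0)) = 0 := by linear_combination hy - 4 * hx'
      exact sub_eq_zero.mp ((mul_eq_zero.mp this).resolve_left h8)
    rw [Point.add_some hxy, toFun_some, toFun_some, toFun_some, Point.add_some hxy']
    -- slopes
    have hslope : (shortCurve α β).toAffine.slope (4 * x₁ - r) (4 * x₂ - r) (8 * y₁ + 4 * x₁)
        (8 * y₂ + 4 * x₂) = 2 * W.toAffine.slope x₁ x₂ y₁ y₂ + 1 := by
      by_cases hx : x₁ = x₂
      · have hy : y₁ ≠ W.toAffine.negY x₂ y₂ := fun hy => hxy ⟨hx, hy⟩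
        have hy' : 8 * y₁ + 4 * x₁ ≠
            (shortCurve α β).toAffine.negY (4 * x₂ - r) (8 * y₂ + 4 * x₂) :=
          fun hy' => hxy' ⟨by rw [hx], hy'⟩
        have hyy : y₁ = y₂ := Affine.Y_eq_of_Y_ne h₁.1 h₂.1 hx hy
        subst hx hyy
        rw [Affine.slope_of_Y_ne rfl hy, Affine.slope_of_Y_ne rfl hy']
        simp only [Affine.negY, shortCurve_a₁, shortCurve_a₂, shortCurve_a₃, shortCurve_a₄,
          h.a₁, h.a₃] at hy hy' ⊢
        have hd : y₁ - (-y₁ - 1 * x₁ - 0) ≠ 0 := sub_ne_zero.mpr hy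
        have hd' : 8 * y₁ + 4 * x₁ - (-(8 * y₁ + 4 * x₁) - 0 * (4 * x₁ - r) - 0) ≠ 0 :=
          sub_ne_zero.mpr hy'
        have key : 3 * (4 * x₁ - r) ^ 2 + 2 * α * (4 * x₁ - r) + β - 0 * (8 * y₁ + 4 * x₁) =
            16 * (3 * x₁ ^ 2 + 2 * W.toAffine.a₂ * x₁ + W.a₄ - 1 * y₁) +
              8 * (y₁ - (-y₁ - 1 * x₁ - 0)) := by
          linear_combination (-8 * x₁) * e₂ - e₄
        have hd'' : 8 * y₁ + 4 * x₁ - (-(8 * y₁ + 4 * x₁) - 0 * (4 * x₁ - r) - 0) =
            8 * (y₁ - (-y₁ - 1 * x₁ - 0)) := by ring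
        rw [key, hd'']
        generalize y₁ - (-y₁ - 1 * x₁ - 0) = d at hd
        generalize 3 * x₁ ^ 2 + 2 * W.toAffine.a₂ * x₁ + W.a₄ - 1 * y₁ = N
        field_simp
        ring
      · have hx' : 4 * x₁ - r ≠ 4 * x₂ - r := by
          intro hx'
          apply hx
          have : 4 * (x₁ - x₂) = 0 := by linear_combination hx'
          exact sub_eq_zero.mp ((mul_eq_zero.mp this).resolve_left h4)
        rw [Affine.slope_of_X_ne hx, Affine.slope_of_X_ne hx']
        have hd : x₁ - x₂ ≠ 0 := sub_ne_zero.mpr hx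
        have hd' : 4 * x₁ - r - (4 * x₂ - r) ≠ 0 := sub_ne_zero.mpr hx'
        rw [div_eq_iff hd']
        field_simp
        ring
    have hX : (shortCurve α β).toAffine.addX (4 * x₁ - r) (4 * x₂ - r)
        ((shortCurve α β).toAffine.slope (4 * x₁ - r) (4 * x₂ - r) (8 * y₁ + 4 * x₁)
          (8 * y₂ + 4 * x₂)) =
        4 * W.toAffine.addX x₁ x₂ (W.toAffine.slope x₁ x₂ y₁ y₂) - r := by
      rw [hslope]
      simp only [Affine.addX, shortCurve_a₁, shortCurve_a₂, h.a₁]
      linear_combination e₂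
    have hYY : (shortCurve α β).toAffine.addY (4 * x₁ - r) (4 * x₂ - r) (8 * y₁ + 4 * x₁)
        ((shortCurve α β).toAffine.slope (4 * x₁ - r) (4 * x₂ - r) (8 * y₁ + 4 * x₁)
          (8 * y₂ + 4 * x₂)) =
        8 * W.toAffine.addY x₁ x₂ y₁ (W.toAffine.slope x₁ x₂ y₁ y₂) +
          4 * W.toAffine.addX x₁ x₂ (W.toAffine.slope x₁ x₂ y₁ y₂) := by
      simp only [Affine.addY, Affine.negAddY, Affine.negY, hX]
      rw [hslope]
      simp only [shortCurve_a₁, shortCurve_a₃, h.a₁, h.a₃]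
      ring
    simp only [hX, hYY]

omit [DecidableEq K] in
theorem toFun_injective (h : Hyp W r α β) : Function.Injective (toFun h) := by
  have h2 := h.two
  have h4 : (4 : K) ≠ 0 := by
    have : (4 : K) = 2 ^ 2 := by norm_num
    rw [this]; exact pow_ne_zero _ h2
  have h8 : (8 : K) ≠ 0 := by
    have : (8 : K) = 2 ^ 3 := by norm_num
    rw [this]; exact pow_ne_zero _ h2
  rintro (_ | ⟨x₁, y₁, h₁⟩) (_ | ⟨x₂, y₂, h₂⟩) hPQ
  · rfl
  · simp [toFun] at hPQ
  · simp [toFun] at hPQ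
  · simp only [toFun, Point.some.injEq] at hPQ
    obtain ⟨hx, hy⟩ := hPQ
    have hx' : x₁ = x₂ := by
      have : 4 * (x₁ - x₂) = 0 := by linear_combination hx
      exact sub_eq_zero.mp ((mul_eq_zero.mp this).resolve_left h4)
    have hy' : y₁ = y₂ := by
      have : 8 * (y₁ - y₂) = 0 := by linear_combination hy - 4 * hx'
      exact sub_eq_zero.mp ((mul_eq_zero.mp this).resolve_left h8)
    subst hx' hy'
    rfl

end Transfer

open WeierstrassCurve in
/-- **Transfer**: an injective additive map from the points of `y² + xy = x³ + a₂x² + a₄x + a₆`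
to the points of the short model `Y² = X³ + αX² + βX`, given by `(x, y) ↦ (4x - r, 8y + 4x)`. -/
theorem exists_toShort {K : Type*} [Field K] [DecidableEq K] (W : WeierstrassCurve K)
    (ha₁ : W.a₁ = 1) (ha₃ : W.a₃ = 0)
    (h2 : (2 : K) ≠ 0) (r α β : K)
    (h₂ : 4 * W.a₂ + 1 = α - 3 * r) (h₄ : 16 * W.a₄ = 3 * r ^ 2 - 2 * α * r + β)
    (h₆ : 64 * W.a₆ = -r ^ 3 + α * r ^ 2 - β * r) :
    ∃ Φ : W.toAffine.Point →+ (shortCurve α β).toAffine.Point, Function.Injective Φ ∧
      ∀ (x y : K) (h : W.toAffine.Nonsingular x y),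
        ∃ h' : (shortCurve α β).toAffine.Nonsingular (4 * x - r) (8 * y + 4 * x),
          Φ (Affine.Point.some x y h) = Affine.Point.some (4 * x - r) (8 * y + 4 * x) h' := by
  have H : Transfer.Hyp W r α β := ⟨ha₁, ha₃, h2, h₂, h₄, h₆⟩
  refine ⟨⟨⟨Transfer.toFun H, rfl⟩, Transfer.toFun_add H⟩, Transfer.toFun_injective H, ?_⟩
  intro x y h
  exact ⟨Transfer.nonsingular_of_nonsingular H h, rfl⟩

end Fermat.Agent.S05
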