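/-
S05 team, block Main (owner: helper36): assembly.

For a Frey package `P` and a prime `q ≠ 2, p`, every element `σ` of an inertia group above `q`
fixes every `p`-torsion point of the Frey curve over `AlgebraicClosure ℚ`:
move the point to the short model `Y² = X (X - e₁) (X - e₂)` by the injective homomorphism of
`Transfer.lean` (`X = 4x - r`, `Y = 8y + 4x`, with `r, e₁, e₂` rational integers, so the map
commutes with `σ` on coordinates), and apply the good / multiplicative case there.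
-/
import Fermat.Agent.S05.Inertia
import Fermat.Agent.S05.Transfer
import Fermat.Agent.S05.Reduction
import Fermat.Agent.S05.Mult
import Fermat.Agent.S05.Frey

set_option autoImplicit false

namespace Fermat.Agent.S05

open WeierstrassCurve WeierstrassCurve.Affine WeierstrassCurve.Affine.Point

local notation "Qbar" => AlgebraicClosure ℚ

/-- An inertia element at `q ≠ 2, p` fixes every `p`-torsion point of the Frey curve. -/
theorem frey_point_fixed (P : FreyPackage) {q : ℕ} (hq : q.Prime) (hq2 : q ≠ 2) (hqp : q ≠ P.p)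
    (A : ValuationSubring Qbar) (hA : A.LiesOverPrime q) (σ : Qbar ≃ₐ[ℚ] Qbar)
    (hσ : σ ∈ A.inertiaSubgroupIn ℚ)
    (Pt : (P.freyCurve⁄Qbar).Point) (htors : P.p • Pt = 0) : σ • Pt = Pt := by
  rcases Pt with _ | ⟨x, y, h⟩
  · rfl
  obtain ⟨r, ρ, e₂, ⟨h₂, h₄, h₆⟩, hcase⟩ := frey_cases P A hq hA
  obtain ⟨Φ, hinj, hΦ⟩ :
      ∃ Φ : (P.freyCurve⁄Qbar).Point →+
          (shortCurve (-((ρ : Qbar) ^ P.p + (e₂ : Qbar))) ((ρ : Qbar) ^ P.p * (e₂ : Qbar))).toAffine.Point,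
        Function.Injective Φ ∧
        ∀ (x y : Qbar) (h : (P.freyCurve⁄Qbar).Nonsingular x y),
          ∃ h' : (shortCurve (-((ρ : Qbar) ^ P.p + (e₂ : Qbar)))
              ((ρ : Qbar) ^ P.p * (e₂ : Qbar))).toAffine.Nonsingular
                (4 * x - (r : Qbar)) (8 * y + 4 * x),
            Φ (Affine.Point.some x y h)
              = Affine.Point.some (4 * x - (r : Qbar)) (8 * y + 4 * x) h' :=
    exists_toShort (freyBar P) (freyBar_a₁ P) (freyBar_a₃ P) qbar_two_ne_zero (r : Qbar)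
      (-((ρ : Qbar) ^ P.p + (e₂ : Qbar))) ((ρ : Qbar) ^ P.p * (e₂ : Qbar)) h₂ h₄ h₆
  have hσI := inertiaLike_of_mem A σ hσ
  -- the conjugate point
  obtain ⟨hs, hmap⟩ : ∃ hs : (P.freyCurve⁄Qbar).Nonsingular (σ x) (σ y),
      σ • (Point.some x y h : (P.freyCurve⁄Qbar).Point) = Point.some (σ x) (σ y) hs := ⟨_, rfl⟩
  have htorsσ : P.p • (Point.some (σ x) (σ y) hs : (P.freyCurve⁄Qbar).Point) = 0 := by
    rw [← hmap, algEquiv_smul_def, ← map_nsmul, htors, _root_.map_zero]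
  -- images on the short model
  obtain ⟨h1, hΦ1⟩ := hΦ x y h
  obtain ⟨h2, hΦ2⟩ := hΦ (σ x) (σ y) hs
  have hX : (σ : Qbar →+* Qbar) (4 * x - (r : Qbar)) = 4 * σ x - (r : Qbar) := by
    show σ (4 * x - (r : Qbar)) = 4 * σ x - (r : Qbar)
    rw [map_sub, map_mul, map_ofNat, map_intCast]
  have hY : (σ : Qbar →+* Qbar) (8 * y + 4 * x) = 8 * σ y + 4 * σ x := by
    show σ (8 * y + 4 * x) = 8 * σ y + 4 * σ x
    rw [map_add, map_mul, map_mul, map_ofNat, map_ofNat]
  have h2' : (shortCurve (-((ρ : Qbar) ^ P.p + (e₂ : Qbar)))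
      ((ρ : Qbar) ^ P.p * (e₂ : Qbar))).toAffine.Nonsingular
        ((σ : Qbar →+* Qbar) (4 * x - (r : Qbar))) ((σ : Qbar →+* Qbar) (8 * y + 4 * x)) := by
    rw [hX, hY]; exact h2
  have hcongr : (Affine.Point.some _ _ h2' : (shortCurve (-((ρ : Qbar) ^ P.p + (e₂ : Qbar)))
      ((ρ : Qbar) ^ P.p * (e₂ : Qbar))).toAffine.Point) = Affine.Point.some _ _ h2 := by
    simp only [Affine.Point.some.injEq]
    exact ⟨hX, hY⟩
  have ht1 : P.p • (Affine.Point.some _ _ h1 : (shortCurve (-((ρ : Qbar) ^ P.p + (e₂ : Qbar)))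
      ((ρ : Qbar) ^ P.p * (e₂ : Qbar))).toAffine.Point) = 0 := by
    rw [← hΦ1, ← map_nsmul, htors, _root_.map_zero]
  have ht2 : P.p • (Affine.Point.some _ _ h2' : (shortCurve (-((ρ : Qbar) ^ P.p + (e₂ : Qbar)))
      ((ρ : Qbar) ^ P.p * (e₂ : Qbar))).toAffine.Point) = 0 := by
    rw [hcongr, ← hΦ2, ← map_nsmul, htorsσ, _root_.map_zero]
  have hfix : (σ : Qbar →+* Qbar) (4 * x - (r : Qbar)) = 4 * x - (r : Qbar) ∧
      (σ : Qbar →+* Qbar) (8 * y + 4 * x) = 8 * y + 4 * x := by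
    rcases hcase with ⟨hα, hβ, hdisc⟩ | ⟨he₁, he₁0, he₂⟩
    · exact good_case_short A (frey_val_two A hq hq2 hA) _ _ hα hβ hdisc P.p
        (frey_val_p P A hq hqp hA) P.hp_odd (σ : Qbar →+* Qbar) hσI (by simp) (by simp)
        h1 h2' ht1 ht2
    · exact mult_case_short A (frey_val_two A hq hq2 hA) _ _ he₁ he₁0 he₂ qbar_exists_sq P.p
        P.pp (frey_val_p P A hq hqp hA) P.hp_odd (ρ : Qbar) rfl (σ : Qbar →+* Qbar) hσI
        (by simp) (by simp) h1 h2' ht1 ht2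
  apply hinj
  rw [hmap, hΦ1, hΦ2]
  simp only [Affine.Point.some.injEq]
  exact ⟨hX.symm.trans hfix.1, hY.symm.trans hfix.2⟩

theorem frey_unramified (P : FreyPackage) {q : ℕ} (hq : q.Prime) (hq2 : q ≠ 2) (hqp : q ≠ P.p) :
    P.GaloisRepUnramifiedAt q := by
  unfold FreyPackage.GaloisRepUnramifiedAt WeierstrassCurve.Affine.Point.GaloisRepUnramifiedAt
  intro A hA σ hσ x
  apply Subtype.ext
  have hx : ((P.p : ℕ) : ℤ) • x.1 = 0 := (Submodule.mem_torsionBy_iff _ _).1 x.2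
  rw [Nat.cast_smul_eq_nsmul] at hx
  exact frey_point_fixed P hq hq2 hqp A hA σ hσ x.1 hx

end Fermat.Agent.S05
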