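/-
S05 team, block F1 (hedge by helper78): the kernel of reduction of `y² = x³ + αx² + βx` has no
torsion prime to the residue characteristic.

Route: for three collinear points of the curve (Vieta relations, via `Vieta.lean`), if two of them
have non-integral `x`, so has the third, and `z = x / y` satisfies
`|z₁ + z₂ + z₃| < max |z_i|`; then induction on `k` for `k • P`.
-/
import Fermat.Agent.S05.Defs
import Fermat.Agent.S05.Vieta

set_option autoImplicit false

namespace Fermat.Agent.S05

namespace F1Line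

section Core

variable {K : Type*} [Field K] {Γ : Type*} [LinearOrderedCommGroupWithZero Γ] (v : Valuation K Γ)

theorem g_pos {a : Γ} (h : a ≠ 0) : 0 < a := zero_lt_iff.mpr h

theorem g_mul_lt_of_lt_of_le {a b c d : Γ} (h1 : a < b) (h2 : c ≤ d) (hd : d ≠ 0) :
    a * c < b * d :=
  lt_of_le_of_lt (mul_le_mul' le_rfl h2) (mul_lt_mul_of_pos_right h1 (g_pos hd))

theorem g_mul_lt_of_lt_of_lt {a b c d : Γ} (h1 : a < b) (h2 : c < d) : a * c < b * d :=
  g_mul_lt_of_lt_of_le h1 h2.le (ne_of_gt (lt_of_le_of_lt zero_le h2))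

theorem g_eq_of_mul_self_eq {a b : Γ} (h : a * a = b * b) : a = b := by
  rcases lt_trichotomy a b with h1 | h1 | h1
  · exact absurd h (ne_of_lt (g_mul_lt_of_lt_of_lt h1 h1))
  · exact h1
  · exact absurd h.symm (ne_of_lt (g_mul_lt_of_lt_of_lt h1 h1))

/-- `|y|² = |x|³` for a point with `|x| > 1`. -/
theorem ysq {α β x y : K} (hα : v α ≤ 1) (hβ : v β ≤ 1)
    (c : y * y = x * x * x + α * (x * x) + β * x) (hx : 1 < v x) :
    v y * v y = v x * v x * v x := by
  have hx0 : v x ≠ 0 := ne_of_gt (lt_trans zero_lt_one hx)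
  have hxx : v x * v x ≠ 0 := mul_ne_zero hx0 hx0
  have hsmall : v (α * (x * x) + β * x) < v (x * x * x) := by
    rw [map_mul, map_mul]
    refine v.map_add_lt ?_ ?_
    · rw [map_mul, map_mul]
      calc v α * (v x * v x) ≤ 1 * (v x * v x) := mul_le_mul' hα le_rfl
        _ < v x * (v x * v x) := mul_lt_mul_of_pos_right hx (g_pos hxx)
        _ = v x * v x * v x := (mul_assoc _ _ _).symm
    · rw [map_mul]
      calc v β * v x ≤ 1 * v x := mul_le_mul' hβ le_rfl
        _ = 1 * 1 * v x := by simp only [one_mul]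
        _ < v x * v x * v x :=
            mul_lt_mul_of_pos_right (g_mul_lt_of_lt_of_lt hx hx) (g_pos hx0)
  rw [← map_mul, c, add_assoc, v.map_add_eq_of_lt_left hsmall, map_mul, map_mul]

/-- Three collinear points of the curve, two of them in the kernel of reduction. -/
theorem line_lemma {α β x₁ y₁ x₂ y₂ x₃ y₃ l n : K} (hα : v α ≤ 1) (hβ : v β ≤ 1)
    (c₁ : y₁ * y₁ = x₁ * x₁ * x₁ + α * (x₁ * x₁) + β * x₁)
    (c₂ : y₂ * y₂ = x₂ * x₂ * x₂ + α * (x₂ * x₂) + β * x₂)
    (c₃ : y₃ * y₃ = x₃ * x₃ * x₃ + α * (x₃ * x₃) + β * x₃)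
    (l₁ : y₁ = l * x₁ + n) (l₂ : y₂ = l * x₂ + n) (l₃ : y₃ = l * x₃ + n)
    (V₁ : x₁ + x₂ + x₃ = l * l - α)
    (V₂ : x₁ * x₂ + x₁ * x₃ + x₂ * x₃ = β - 2 * l * n)
    (V₃ : x₁ * x₂ * x₃ = n * n)
    (hb : 1 < v x₂) (hab : v x₂ ≤ v x₁) :
    v x₂ ≤ v x₃ ∧ v (x₁ / y₁ + x₂ / y₂ + x₃ / y₃) < v (x₂ / y₂) := by
  have h2 : v 2 ≤ 1 := by
    have e : (2 : K) = 1 + 1 := by norm_num
    rw [e]; exact v.map_add_le (le_of_eq v.map_one) (le_of_eq v.map_one)
  have ha : 1 < v x₁ := lt_of_lt_of_le hb hab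
  have ha0 : v x₁ ≠ 0 := ne_of_gt (lt_trans zero_lt_one ha)
  have hb0 : v x₂ ≠ 0 := ne_of_gt (lt_trans zero_lt_one hb)
  have hN : v n * v n = v x₁ * v x₂ * v x₃ := by
    rw [← map_mul, ← V₃, map_mul, map_mul]
  have hL : v l * v l ≤ max (v x₁) (v x₃) := by
    have e : l * l = x₁ + x₂ + x₃ + α := by linear_combination -V₁
    rw [← map_mul, e]
    exact v.map_add_le (v.map_add_le (v.map_add_le (le_max_left _ _)
      (hab.trans (le_max_left _ _))) (le_max_right _ _))
      ((hα.trans ha.le).trans (le_max_left _ _))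
  have hm : v (2 * β * l - α * n) ≤ max (v l) (v n) := by
    refine v.map_sub_le ?_ ?_
    · rw [map_mul, map_mul]
      calc v 2 * v β * v l ≤ 1 * 1 * v l := mul_le_mul' (mul_le_mul' h2 hβ) le_rfl
        _ = v l := by rw [one_mul, one_mul]
        _ ≤ max (v l) (v n) := le_max_left _ _
    · rw [map_mul]
      calc v α * v n ≤ 1 * v n := mul_le_mul' hα le_rfl
        _ = v n := one_mul _
        _ ≤ max (v l) (v n) := le_max_right _ _
  -- the third point is in the kernel of reduction too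
  have hc : v x₂ ≤ v x₃ := by
    by_contra hcon
    rw [not_le] at hcon
    have hL' : v l * v l ≤ v x₁ := by
      rw [max_eq_left (hcon.le.trans hab)] at hL; exact hL
    have hV2 : v (x₁ * x₂ + x₁ * x₃ + x₂ * x₃) = v x₁ * v x₂ := by
      have h13 : v (x₁ * x₃) < v (x₁ * x₂) := by
        rw [map_mul, map_mul]; exact mul_lt_mul_of_pos_left hcon (g_pos ha0)
      have h23 : v (x₂ * x₃) < v (x₁ * x₂) := by
        rw [map_mul, map_mul, mul_comm (v x₁)]
        exact mul_lt_mul_of_pos_left (lt_of_lt_of_le hcon hab) (g_pos hb0)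
      rw [add_assoc, v.map_add_eq_of_lt_left (v.map_add_lt h13 h23), map_mul]
    have hR : v (β - 2 * l * n) ≤ max 1 (v l * v n) := by
      refine v.map_sub_le (hβ.trans (le_max_left _ _)) ?_
      rw [map_mul, map_mul]
      calc v 2 * v l * v n ≤ 1 * v l * v n := mul_le_mul' (mul_le_mul' h2 le_rfl) le_rfl
        _ = v l * v n := by rw [one_mul]
        _ ≤ max 1 (v l * v n) := le_max_right _ _
    rw [V₂] at hV2
    rw [hV2] at hR
    have hab1 : 1 < v x₁ * v x₂ := by
      calc (1 : Γ) = 1 * 1 := (one_mul 1).symm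
        _ < v x₁ * v x₂ := g_mul_lt_of_lt_of_lt ha hb
    have hLN : v x₁ * v x₂ ≤ v l * v n := by
      rcases le_max_iff.mp hR with h | h
      · exact absurd h (not_le.mpr hab1)
      · exact h
    have h1 : (v x₁ * v x₂) * (v x₁ * v x₂) ≤ (v l * v n) * (v l * v n) := mul_le_mul' hLN hLN
    have h3 : (v l * v n) * (v l * v n) ≤ v x₁ * (v x₁ * v x₂ * v x₃) := by
      calc (v l * v n) * (v l * v n) = (v l * v l) * (v n * v n) := by ac_rfl
        _ ≤ v x₁ * (v x₁ * v x₂ * v x₃) := by rw [hN]; exact mul_le_mul' hL' le_rfl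
    have h4 : v x₁ * (v x₁ * v x₂ * v x₃) < (v x₁ * v x₂) * (v x₁ * v x₂) := by
      calc v x₁ * (v x₁ * v x₂ * v x₃) = (v x₁ * v x₁ * v x₂) * v x₃ := by ac_rfl
        _ < (v x₁ * v x₁ * v x₂) * v x₂ :=
            mul_lt_mul_of_pos_left hcon (g_pos (mul_ne_zero (mul_ne_zero ha0 ha0) hb0))
        _ = (v x₁ * v x₂) * (v x₁ * v x₂) := by ac_rfl
    exact absurd (h1.trans h3) (not_le.mpr h4)
  refine ⟨hc, ?_⟩
  have hc1 : 1 < v x₃ := lt_of_lt_of_le hb hc
  have hc0 : v x₃ ≠ 0 := ne_of_gt (lt_trans zero_lt_one hc1)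
  have hy1 := ysq v hα hβ c₁ ha
  have hy2 := ysq v hα hβ c₂ hb
  have hy3 := ysq v hα hβ c₃ hc1
  have hvy1 : v y₁ ≠ 0 := fun h0 => by
    rw [h0, zero_mul] at hy1
    exact (mul_ne_zero (mul_ne_zero ha0 ha0) ha0) hy1.symm
  have hvy2 : v y₂ ≠ 0 := fun h0 => by
    rw [h0, zero_mul] at hy2
    exact (mul_ne_zero (mul_ne_zero hb0 hb0) hb0) hy2.symm
  have hvy3 : v y₃ ≠ 0 := fun h0 => by
    rw [h0, zero_mul] at hy3
    exact (mul_ne_zero (mul_ne_zero hc0 hc0) hc0) hy3.symm
  have hy10 : y₁ ≠ 0 := v.ne_zero_iff.mp hvy1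
  have hy20 : y₂ ≠ 0 := v.ne_zero_iff.mp hvy2
  have hy30 : y₃ ≠ 0 := v.ne_zero_iff.mp hvy3
  have habc0 : v x₁ * v x₂ * v x₃ ≠ 0 := mul_ne_zero (mul_ne_zero ha0 hb0) hc0
  have hN0 : v n ≠ 0 := fun h0 => by
    rw [h0, zero_mul] at hN
    exact habc0 hN.symm
  have idNum : x₁ * y₂ * y₃ + x₂ * y₁ * y₃ + x₃ * y₁ * y₂ = n * (2 * β * l - α * n) := by
    rw [l₁, l₂, l₃]
    linear_combination 3 * l ^ 2 * V₃ + 2 * l * n * V₂ + n ^ 2 * V₁
  have hsum : (x₁ / y₁ + x₂ / y₂ + x₃ / y₃) * (y₁ * y₂ * y₃) = n * (2 * β * l - α * n) := by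
    rw [← idNum]; field_simp
  have hY : v (y₁ * y₂ * y₃) = v n * v n * v n := by
    apply g_eq_of_mul_self_eq
    rw [map_mul, map_mul]
    calc v y₁ * v y₂ * v y₃ * (v y₁ * v y₂ * v y₃)
        = (v y₁ * v y₁) * (v y₂ * v y₂) * (v y₃ * v y₃) := by ac_rfl
      _ = (v x₁ * v x₂ * v x₃) * (v x₁ * v x₂ * v x₃) * (v x₁ * v x₂ * v x₃) := by
          rw [hy1, hy2, hy3]; ac_rfl
      _ = v n * v n * v n * (v n * v n * v n) := by rw [← hN]; ac_rfl
  have hζ : v (x₁ / y₁ + x₂ / y₂ + x₃ / y₃) * (v n * v n) = v (2 * β * l - α * n) := by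
    have h := congrArg v hsum
    rw [map_mul, hY, map_mul] at h
    apply mul_left_cancel₀ hN0
    calc v n * (v (x₁ / y₁ + x₂ / y₂ + x₃ / y₃) * (v n * v n))
        = v (x₁ / y₁ + x₂ / y₂ + x₃ / y₃) * (v n * v n * v n) := by
          rw [mul_left_comm, mul_assoc (v n) (v n) (v n)]
      _ = v n * v (2 * β * l - α * n) := h
  have hτ : v (x₂ / y₂) * v y₂ = v x₂ := by
    rw [map_div₀, div_mul_cancel₀ _ hvy2]
  have habc : 1 < v x₁ * v x₂ * v x₃ := by
    calc (1 : Γ) = 1 * 1 * 1 := by simp only [one_mul]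
      _ < v x₁ * v x₂ * v x₃ := g_mul_lt_of_lt_of_lt (g_mul_lt_of_lt_of_lt ha hb) hc1
  have hkey : v (2 * β * l - α * n) * v (2 * β * l - α * n) * v x₂
      < (v n * v n) * (v n * v n) := by
    rcases le_max_iff.mp hm with h | h
    · have hmax : max (v x₁) (v x₃) * v x₂ ≤ v x₁ * v x₂ * v x₃ := by
        rcases le_total (v x₁) (v x₃) with h' | h'
        · rw [max_eq_right h']
          calc v x₃ * v x₂ = 1 * v x₂ * v x₃ := by rw [one_mul, mul_comm]
            _ ≤ v x₁ * v x₂ * v x₃ := mul_le_mul' (mul_le_mul' ha.le le_rfl) le_rfl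
        · rw [max_eq_left h']
          calc v x₁ * v x₂ = v x₁ * v x₂ * 1 := (mul_one _).symm
            _ ≤ v x₁ * v x₂ * v x₃ := mul_le_mul' le_rfl hc1.le
      calc v (2 * β * l - α * n) * v (2 * β * l - α * n) * v x₂
          ≤ (v l * v l) * v x₂ := mul_le_mul' (mul_le_mul' h h) le_rfl
        _ ≤ max (v x₁) (v x₃) * v x₂ := mul_le_mul' hL le_rfl
        _ ≤ v x₁ * v x₂ * v x₃ := hmax
        _ = (v x₁ * v x₂ * v x₃) * 1 := (mul_one _).symm
        _ < (v x₁ * v x₂ * v x₃) * (v x₁ * v x₂ * v x₃) :=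
            mul_lt_mul_of_pos_left habc (g_pos habc0)
        _ = (v n * v n) * (v n * v n) := by rw [hN]
    · have hbn : v x₂ < v n * v n := by
        rw [hN]
        calc v x₂ = 1 * v x₂ * 1 := by rw [one_mul, mul_one]
          _ < v x₁ * v x₂ * v x₃ :=
              g_mul_lt_of_lt_of_le (mul_lt_mul_of_pos_right ha (g_pos hb0)) hc1.le hc0
      calc v (2 * β * l - α * n) * v (2 * β * l - α * n) * v x₂
          ≤ (v n * v n) * v x₂ := mul_le_mul' (mul_le_mul' h h) le_rfl
        _ < (v n * v n) * (v n * v n) :=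
            mul_lt_mul_of_pos_left hbn (g_pos (mul_ne_zero hN0 hN0))
  by_contra hcon
  rw [not_lt] at hcon
  have h1 : v x₂ * (v n * v n) ≤ v (2 * β * l - α * n) * v y₂ := by
    calc v x₂ * (v n * v n) = v (x₂ / y₂) * v y₂ * (v n * v n) := by rw [hτ]
      _ ≤ v (x₁ / y₁ + x₂ / y₂ + x₃ / y₃) * v y₂ * (v n * v n) :=
          mul_le_mul' (mul_le_mul' hcon le_rfl) le_rfl
      _ = v (x₁ / y₁ + x₂ / y₂ + x₃ / y₃) * (v n * v n) * v y₂ := by ac_rfl
      _ = v (2 * β * l - α * n) * v y₂ := by rw [hζ]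
  have h3 : (v x₂ * v x₂) * ((v n * v n) * (v n * v n))
      ≤ (v x₂ * v x₂) * (v (2 * β * l - α * n) * v (2 * β * l - α * n) * v x₂) := by
    calc (v x₂ * v x₂) * ((v n * v n) * (v n * v n))
        = (v x₂ * (v n * v n)) * (v x₂ * (v n * v n)) := by ac_rfl
      _ ≤ (v (2 * β * l - α * n) * v y₂) * (v (2 * β * l - α * n) * v y₂) := mul_le_mul' h1 h1
      _ = v (2 * β * l - α * n) * v (2 * β * l - α * n) * (v y₂ * v y₂) := by ac_rfl
      _ = (v x₂ * v x₂) * (v (2 * β * l - α * n) * v (2 * β * l - α * n) * v x₂) := by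
          rw [hy2]; ac_rfl
  have h4 := (mul_le_mul_iff_right₀ (g_pos (mul_ne_zero hb0 hb0))).mp h3
  exact absurd h4 (not_le.mpr hkey)

end Core

section Points

open WeierstrassCurve

variable {K : Type*} [Field K] [DecidableEq K]

omit [DecidableEq K] in
theorem short_eq (α β x y : K) :
    (shortCurve α β).toAffine.Equation x y ↔ y * y = x * x * x + α * (x * x) + β * x := by
  rw [Affine.equation_iff]
  simp only [shortCurve_a₁, shortCurve_a₂, shortCurve_a₃, shortCurve_a₄, shortCurve_a₆]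
  constructor <;> intro h <;> linear_combination h

omit [DecidableEq K] in
theorem short_negY (α β x y : K) : (shortCurve α β).toAffine.negY x y = -y := by
  simp [Affine.negY]

/-- The induction: `k • P` stays in the kernel of reduction and `z (k • P) ≡ k z (P)`. -/
theorem nsmul_aux (A : ValuationSubring K) (α β : K) (hα : α ∈ A) (hβ : β ∈ A)
    {x y : K} (h : (shortCurve α β).toAffine.Nonsingular x y) (hx : x ∉ A) (k : ℕ) :
    (k • (Affine.Point.some x y h) = 0 ∧
        A.valuation ((k : K) * (x / y)) < A.valuation (x / y)) ∨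
    (∃ (xk yk : K) (hk : (shortCurve α β).toAffine.Nonsingular xk yk),
      k • (Affine.Point.some x y h) = Affine.Point.some xk yk hk ∧
      A.valuation x ≤ A.valuation xk ∧
      A.valuation (xk / yk - (k : K) * (x / y)) < A.valuation (x / y)) := by
  have hvα : A.valuation α ≤ 1 := (A.valuation_le_one_iff α).mpr hα
  have hvβ : A.valuation β ≤ 1 := (A.valuation_le_one_iff β).mpr hβ
  have hvx : 1 < A.valuation x := by
    rw [← not_le, A.valuation_le_one_iff]; exact hx
  have c := (short_eq α β x y).mp h.1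
  have hysq := ysq A.valuation hvα hvβ c hvx
  have hvx0 : A.valuation x ≠ 0 := ne_of_gt (lt_trans zero_lt_one hvx)
  have hz0 : A.valuation (x / y) ≠ 0 := by
    have hvy : A.valuation y ≠ 0 := fun h0 => by
      rw [h0, zero_mul] at hysq
      exact (mul_ne_zero (mul_ne_zero hvx0 hvx0) hvx0) hysq.symm
    rw [map_div₀]; exact div_ne_zero hvx0 hvy
  induction k with
  | zero =>
    left
    refine ⟨zero_nsmul _, ?_⟩
    rw [Nat.cast_zero, zero_mul, map_zero]
    exact g_pos hz0
  | succ k ih =>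
    rw [succ_nsmul]
    rcases ih with ⟨h0, hlt⟩ | ⟨xk, yk, hk, hkP, hbig, hlt⟩
    · right
      refine ⟨x, y, h, by rw [h0, zero_add], le_rfl, ?_⟩
      have e : x / y - ((k + 1 : ℕ) : K) * (x / y) = -((k : K) * (x / y)) := by
        push_cast; ring
      rw [e, Valuation.map_neg]; exact hlt
    · rw [hkP]
      by_cases hxy : xk = x ∧ yk = (shortCurve α β).toAffine.negY x y
      · left
        refine ⟨Affine.Point.add_of_Y_eq hxy.1 hxy.2, ?_⟩
        obtain ⟨rfl, hy⟩ := hxy
        rw [short_negY] at hy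
        subst hy
        have e : ((k + 1 : ℕ) : K) * (xk / y) = -(xk / -y - (k : K) * (xk / y)) := by
          push_cast
          rw [div_neg]; ring
        rw [e, Valuation.map_neg]; exact hlt
      · right
        have hk3 := Affine.nonsingular_negAdd hk h hxy
        have hadd := Vieta.add_eq_neg (shortCurve α β) hk h hxy
        rw [Affine.Point.neg_some] at hadd
        refine ⟨_, _, _, hadd, ?_, ?_⟩
        all_goals
          have c₁ := (short_eq α β xk yk).mp hk.1
          have c₃ := (short_eq α β _ _).mp hk3.1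
          have l₁ : yk = (shortCurve α β).toAffine.slope xk x yk y * xk
              + (yk - (shortCurve α β).toAffine.slope xk x yk y * xk) := by ring
          have l₂ := Vieta.line (shortCurve α β) hk.1 h.1 hxy
          have l₃ := Vieta.negAddY_eq (shortCurve α β) xk x yk
            ((shortCurve α β).toAffine.slope xk x yk y)
          have V₁ : xk + x + (shortCurve α β).toAffine.addX xk x
                ((shortCurve α β).toAffine.slope xk x yk y)
              = (shortCurve α β).toAffine.slope xk x yk y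
                * (shortCurve α β).toAffine.slope xk x yk y - α := by
            have h1 := Vieta.sum (shortCurve α β) xk x
              ((shortCurve α β).toAffine.slope xk x yk y)
            simp only [shortCurve_a₁, shortCurve_a₂] at h1
            linear_combination h1
          have V₂ : xk * x + xk * (shortCurve α β).toAffine.addX xk x
                ((shortCurve α β).toAffine.slope xk x yk y)
              + x * (shortCurve α β).toAffine.addX xk x
                ((shortCurve α β).toAffine.slope xk x yk y)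
              = β - 2 * (shortCurve α β).toAffine.slope xk x yk y
                * (yk - (shortCurve α β).toAffine.slope xk x yk y * xk) := by
            have h1 := Vieta.pair (shortCurve α β) hk.1 h.1 hxy
            simp only [shortCurve_a₁, shortCurve_a₃, shortCurve_a₄] at h1
            linear_combination h1
          have V₃ : xk * x * (shortCurve α β).toAffine.addX xk x
                ((shortCurve α β).toAffine.slope xk x yk y)
              = (yk - (shortCurve α β).toAffine.slope xk x yk y * xk)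
                * (yk - (shortCurve α β).toAffine.slope xk x yk y * xk) := by
            have h1 := Vieta.prod (shortCurve α β) hk.1 h.1 hxy
            simp only [shortCurve_a₃, shortCurve_a₆] at h1
            linear_combination h1
          obtain ⟨hx3, hz3⟩ := line_lemma A.valuation hvα hvβ c₁ c c₃ l₁ l₂ l₃ V₁ V₂ V₃ hvx hbig
        · exact hx3
        · rw [short_negY]
          have e : ∀ a b : K, a / -b - ((k + 1 : ℕ) : K) * (x / y)
              = -(xk / yk + x / y + a / b) + (xk / yk - (k : K) * (x / y)) := by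
            intro a b
            push_cast
            rw [div_neg]; ring
          rw [e]
          refine Valuation.map_add_lt _ ?_ hlt
          rw [Valuation.map_neg]; exact hz3

/-- **F1** for the short curve, same statement as `F1_short`. -/
theorem F1_short_line (A : ValuationSubring K) (α β : K) (hα : α ∈ A) (hβ : β ∈ A)
    (n : ℕ) (hn : A.valuation (n : K) = 1)
    {x y : K} (h : (shortCurve α β).toAffine.Nonsingular x y) (hx : x ∉ A) :
    n • (Affine.Point.some x y h) ≠ 0 := by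
  intro h0
  rcases nsmul_aux A α β hα hβ h hx n with ⟨-, hlt⟩ | ⟨xk, yk, hk, hkP, -, -⟩
  · rw [map_mul, hn, one_mul] at hlt
    exact lt_irrefl _ hlt
  · rw [h0] at hkP
    exact Affine.Point.some_ne_zero hk hkP.symm

end Points

end F1Line

end Fermat.Agent.S05
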