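/-
S05 team, Plan B endgame (owner: helper95).

`PBEndgame.mult_case_core`: the multiplicative-reduction case of S05 on the short curve
`y² = x (x - e₁) (x - e₂)`, assuming
* `hF1`  : the kernel of reduction has no `n`-torsion (block F1), and
* `hTV`  : the "torsion valuation" statement for the given point (Plan B/C `torsion_val`).
Everything else (the slope estimate for `σ P - P`, the three regions `v x > 1`, `v x = 1`,
`v x < 1`) is proved here.
-/
import Fermat.Agent.S05.Defs

set_option autoImplicit false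

namespace Fermat.Agent.S05

namespace PBEndgame

open WeierstrassCurve WeierstrassCurve.Affine

variable {K : Type*} [Field K]

/-- The equation of the short curve. -/
lemma short_equation_iff (a b x y : K) :
    (shortCurve a b).toAffine.Equation x y ↔ y ^ 2 = x ^ 3 + a * x ^ 2 + b * x := by
  rw [Affine.equation_iff]
  simp

lemma short_negY (a b x y : K) : (shortCurve a b).toAffine.negY x y = -y := by
  simp [Affine.negY]

variable [DecidableEq K]

/-- Doubling on the short curve: `x(2P) · 4y² = (x² - b)²`. -/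
lemma short_dbl {a b x y : K} (h2 : (2 : K) ≠ 0)
    (h : (shortCurve a b).toAffine.Nonsingular x y) (hy : y ≠ 0) :
    ∃ (x₃ y₃ : K) (h₃ : (shortCurve a b).toAffine.Nonsingular x₃ y₃),
      Point.some x y h + Point.some x y h = Point.some x₃ y₃ h₃ ∧
        x₃ * (4 * y ^ 2) = (x ^ 2 - b) ^ 2 := by
  have hne : y ≠ (shortCurve a b).toAffine.negY x y := by
    rw [short_negY]
    intro h'
    apply hy
    have : 2 * y = 0 := by linear_combination h'
    rcases mul_eq_zero.mp this with h | h
    · exact absurd h h2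
    · exact h
  have heq := (short_equation_iff a b x y).mp h.1
  refine ⟨_, _, _, Point.add_self_of_Y_ne hne, ?_⟩
  rw [Affine.slope_of_Y_ne rfl hne, short_negY]
  simp only [Affine.addX, shortCurve_a₁, shortCurve_a₂, shortCurve_a₄]
  have h2y : y - -y ≠ 0 := by
    rw [sub_neg_eq_add, ← two_mul]
    exact mul_ne_zero h2 hy
  generalize hℓ : (3 * x ^ 2 + 2 * a * x + b - 0 * y) / (y - -y) = ℓ
  have hℓ' : ℓ * (2 * y) = 3 * x ^ 2 + 2 * a * x + b := by
    rw [← hℓ, div_mul_eq_mul_div, div_eq_iff h2y]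
    ring
  linear_combination (ℓ * (2 * y) + (3 * x ^ 2 + 2 * a * x + b)) * hℓ' + (-(4 * a) - 8 * x) * heq

/-- Subtraction on the short curve:
`x(P₁ - P₂) · (x₁ - x₂)² · x₁ x₂ = (x₂ y₁ + x₁ y₂)²`. -/
lemma short_sub {a b x₁ y₁ x₂ y₂ : K}
    (h₁ : (shortCurve a b).toAffine.Nonsingular x₁ y₁)
    (h₂ : (shortCurve a b).toAffine.Nonsingular x₂ y₂) (hx : x₁ ≠ x₂) :
    ∃ (x₃ y₃ : K) (h₃ : (shortCurve a b).toAffine.Nonsingular x₃ y₃),
      Point.some x₁ y₁ h₁ - Point.some x₂ y₂ h₂ = Point.some x₃ y₃ h₃ ∧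
        x₃ * (x₁ - x₂) ^ 2 * (x₁ * x₂) = (x₂ * y₁ + x₁ * y₂) ^ 2 := by
  have heq₁ := (short_equation_iff a b x₁ y₁).mp h₁.1
  have heq₂ := (short_equation_iff a b x₂ y₂).mp h₂.1
  rw [sub_eq_add_neg, Point.neg_some]
  refine ⟨_, _, _, Point.add_of_X_ne hx, ?_⟩
  rw [Affine.slope_of_X_ne hx, short_negY]
  simp only [Affine.addX, shortCurve_a₁, shortCurve_a₂]
  have hd : x₁ - x₂ ≠ 0 := sub_ne_zero.mpr hx
  generalize hℓ : (y₁ - -y₂) / (x₁ - x₂) = ℓ
  have hℓ' : ℓ * (x₁ - x₂) = y₁ + y₂ := by
    rw [← hℓ, div_mul_cancel₀ _ hd]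
    ring
  linear_combination (x₁ * x₂ * (ℓ * (x₁ - x₂) + (y₁ + y₂))) * hℓ' +
    (x₁ * x₂ - x₂ ^ 2) * heq₁ + (x₁ * x₂ - x₁ ^ 2) * heq₂

/-- The common final step: a torsion point `(x, y)` with `x ≠ 0`, `y / x` a unit and
`v (σ x - x) < v x` is fixed by `σ`. -/
theorem fixed_of_close (A : ValuationSubring K) (hA2 : A.valuation (2 : K) = 1) {a b : K} {n : ℕ}
    (hF1 : ∀ (x' y' : K) (h' : (shortCurve a b).toAffine.Nonsingular x' y'), x' ∉ A →
      n • Point.some x' y' h' ≠ 0)
    (σ : K →+* K) (hσ : InertiaLike A σ)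
    {x y : K} (h : (shortCurve a b).toAffine.Nonsingular x y)
    (h' : (shortCurve a b).toAffine.Nonsingular (σ x) (σ y))
    (htors : n • Point.some x y h = 0) (htors' : n • Point.some (σ x) (σ y) h' = 0)
    (hx0 : x ≠ 0) (hyx : A.valuation y = A.valuation x)
    (hσx : A.valuation (σ x - x) < A.valuation x) : σ x = x ∧ σ y = y := by
  have hvx0 : A.valuation x ≠ 0 := (Valuation.ne_zero_iff _).mpr hx0
  have hw1 : A.valuation (y / x) = 1 := by rw [map_div₀, hyx, div_self hvx0]
  have hwA : y / x ∈ A := (A.valuation_le_one_iff _).mp hw1.le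
  have hσw : A.valuation (σ (y / x) - y / x) < 1 := A.mem_nonunits_iff.mp (hσ.sub_mem _ hwA)
  have h2w : A.valuation (2 * (y / x)) = 1 := by rw [map_mul, hA2, hw1, one_mul]
  have hsum : A.valuation (σ (y / x) + y / x) = 1 := by
    have e : σ (y / x) + y / x = 2 * (y / x) + (σ (y / x) - y / x) := by ring
    rw [e, Valuation.map_add_eq_of_lt_left _ (by rw [h2w]; exact hσw), h2w]
  have hσx_val : A.valuation (σ x) = A.valuation x := Valuation.map_eq_of_sub_lt _ hσx
  have hσx0 : σ x ≠ 0 := by
    intro h0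
    rw [h0, map_zero] at hσx_val
    exact hvx0 hσx_val.symm
  have hxeq : σ x = x := by
    by_contra hne
    obtain ⟨x₃, y₃, h₃, hsub, hx₃⟩ := short_sub h' h hne
    have h0 : n • Point.some x₃ y₃ h₃ = 0 := by rw [← hsub, smul_sub, htors, htors', sub_zero]
    have hx₃le : A.valuation x₃ ≤ 1 := by
      by_contra hcon
      exact hF1 x₃ y₃ h₃ (fun hx => hcon ((A.valuation_le_one_iff _).mpr hx)) h0
    have hfac : x * σ y + σ x * y = x * σ x * (σ (y / x) + y / x) := by
      rw [map_div₀]
      field_simp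
    have hval := congrArg A.valuation hx₃
    rw [hfac] at hval
    simp only [map_mul, map_pow] at hval
    rw [hsum, hσx_val, mul_one] at hval
    have hval2 : A.valuation x₃ * A.valuation (σ x - x) ^ 2 = A.valuation x ^ 2 := by
      have hne0 : A.valuation x * A.valuation x ≠ 0 := mul_ne_zero hvx0 hvx0
      apply mul_right_cancel₀ hne0
      rw [hval]
      simp only [sq]
    have hlt : A.valuation (σ x - x) ^ 2 < A.valuation x ^ 2 :=
      pow_lt_pow_left₀ hσx zero_le two_ne_zero
    have hle : A.valuation x₃ * A.valuation (σ x - x) ^ 2 ≤ A.valuation (σ x - x) ^ 2 :=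
      mul_le_of_le_one_left' hx₃le
    rw [hval2] at hle
    exact absurd hlt (not_lt.mpr hle)
  refine ⟨hxeq, ?_⟩
  have heq := (short_equation_iff a b x y).mp h.1
  have heq' := (short_equation_iff a b (σ x) (σ y)).mp h'.1
  rw [hxeq] at heq'
  have hprod : (σ y - y) * (σ y + y) = 0 := by linear_combination heq' - heq
  rcases mul_eq_zero.mp hprod with h1 | h1
  · exact sub_eq_zero.mp h1
  · exfalso
    have hσy : σ y = -y := by linear_combination h1
    have e : σ (y / x) - y / x = -(2 * (y / x)) := by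
      rw [map_div₀, hxeq, hσy]
      ring
    rw [e, Valuation.map_neg, h2w] at hσw
    exact lt_irrefl _ hσw

/-- **MULT case, Plan B core**: the statement `mult_case_short`, with block F1 and the torsion
valuation statement (for the given point) as hypotheses. -/
theorem mult_case_core (A : ValuationSubring K) (hA2 : A.valuation (2 : K) = 1)
    (e₁ e₂ : K) (he₁ : e₁ ∈ A.nonunits) (he₁0 : e₁ ≠ 0) (he₂ : A.valuation e₂ = 1)
    (n : ℕ) (hodd : Odd n) (ρ : K) (hρ : e₁ = ρ ^ n)
    (σ : K →+* K) (hσ : InertiaLike A σ) (hσρ : σ ρ = ρ)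
    (hF1 : ∀ (x' y' : K)
      (h' : (shortCurve (-(e₁ + e₂)) (e₁ * e₂)).toAffine.Nonsingular x' y'), x' ∉ A →
      n • Point.some x' y' h' ≠ 0)
    {x y : K} (h : (shortCurve (-(e₁ + e₂)) (e₁ * e₂)).toAffine.Nonsingular x y)
    (h' : (shortCurve (-(e₁ + e₂)) (e₁ * e₂)).toAffine.Nonsingular (σ x) (σ y))
    (htors : n • (Affine.Point.some x y h) = 0)
    (htors' : n • (Affine.Point.some (σ x) (σ y) h') = 0)
    (hTV : A.valuation x < 1 → A.valuation e₁ < A.valuation x ∧
      ∃ j : ℤ, A.valuation x ^ n = A.valuation e₁ ^ (2 * j)) :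
    σ x = x ∧ σ y = y := by
  have hve₁ : A.valuation e₁ < 1 := A.mem_nonunits_iff.mp he₁
  have h2ne : (2 : K) ≠ 0 := by
    intro h0
    rw [h0, map_zero] at hA2
    exact zero_ne_one hA2
  have heq0 := (short_equation_iff _ _ x y).mp h.1
  have heq : y ^ 2 = x * (x - e₁) * (x - e₂) := by rw [heq0]; ring
  have hxle : A.valuation x ≤ 1 := by
    by_contra hcon
    exact hF1 x y h (fun hx => hcon ((A.valuation_le_one_iff _).mpr hx)) htors
  rcases hxle.lt_or_eq with hlt | heq1
  · -- the point reduces to the node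
    obtain ⟨he₁x, j, hj⟩ := hTV hlt
    have hx0 : x ≠ 0 := by
      rintro rfl
      rw [map_zero] at he₁x
      exact not_lt_zero he₁x
    have hvx0 : A.valuation x ≠ 0 := (Valuation.ne_zero_iff _).mpr hx0
    have h1 : A.valuation (x - e₁) = A.valuation x := Valuation.map_sub_eq_of_lt_left _ he₁x
    have h2 : A.valuation (x - e₂) = 1 := by
      rw [Valuation.map_sub_eq_of_lt_right _ (by rw [he₂]; exact hlt), he₂]
    have hy2 : A.valuation y ^ 2 = A.valuation x ^ 2 := by
      have := congrArg A.valuation heq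
      simp only [map_mul, map_pow, h1, h2, mul_one] at this
      rw [this, sq]
    have hyx : A.valuation y = A.valuation x :=
      (pow_left_inj₀ zero_le zero_le two_ne_zero).mp hy2
    have hρ0 : ρ ≠ 0 := by
      rintro rfl
      apply he₁0
      rw [hρ, zero_pow hodd.pos.ne']
    have hvρ0 : A.valuation ρ ≠ 0 := (Valuation.ne_zero_iff _).mpr hρ0
    have hvρ : A.valuation x = A.valuation (ρ ^ (2 * j)) := by
      have e : A.valuation x ^ n = (A.valuation ρ ^ (2 * j)) ^ n := by
        rw [hj, hρ, map_pow, ← zpow_natCast, ← zpow_natCast, ← zpow_mul, ← zpow_mul, mul_comm]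
      rw [map_zpow₀]
      exact (pow_left_inj₀ zero_le zero_le hodd.pos.ne').mp e
    have hρj0 : ρ ^ (2 * j) ≠ 0 := zpow_ne_zero _ hρ0
    have hη1 : A.valuation (x / ρ ^ (2 * j)) = 1 := by
      rw [map_div₀, ← hvρ, div_self hvx0]
    have hηA : x / ρ ^ (2 * j) ∈ A := (A.valuation_le_one_iff _).mp hη1.le
    have hση : A.valuation (σ (x / ρ ^ (2 * j)) - x / ρ ^ (2 * j)) < 1 :=
      A.mem_nonunits_iff.mp (hσ.sub_mem _ hηA)
    have hσx : σ x - x = (σ (x / ρ ^ (2 * j)) - x / ρ ^ (2 * j)) * ρ ^ (2 * j) := by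
      rw [map_div₀, map_zpow₀, hσρ]
      field_simp
    have hclose : A.valuation (σ x - x) < A.valuation x := by
      rw [hσx, map_mul, ← hvρ]
      exact mul_lt_of_lt_one_left (zero_lt_iff.mpr hvx0) hση
    exact fixed_of_close A hA2 hF1 σ hσ h h' htors htors' hx0 hyx hclose
  · -- `x` is a unit
    have hx0 : x ≠ 0 := by
      rintro rfl
      rw [map_zero] at heq1
      exact zero_ne_one heq1
    have h1 : A.valuation (x - e₁) = 1 := by
      rw [Valuation.map_sub_eq_of_lt_left _ (by rw [heq1]; exact hve₁), heq1]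
    have hy2 : A.valuation y ^ 2 = A.valuation (x - e₂) := by
      have := congrArg A.valuation heq
      simp only [map_mul, map_pow, h1, heq1, one_mul] at this
      exact this
    have h2le : A.valuation (x - e₂) ≤ 1 := Valuation.map_sub_le _ heq1.le he₂.le
    have h2 : A.valuation (x - e₂) = 1 := by
      by_contra hcon
      have h2lt : A.valuation (x - e₂) < 1 := lt_of_le_of_ne h2le hcon
      rw [← hy2] at h2lt
      have hy0 : y ≠ 0 := by
        rintro rfl
        have hPP : Point.some x 0 h + Point.some x 0 h = 0 :=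
          Point.add_self_of_Y_eq (by rw [short_negY, neg_zero])
        obtain ⟨k, rfl⟩ := hodd
        have e : (2 * k + 1) • Point.some x 0 h = Point.some x 0 h := by
          rw [succ_nsmul, mul_nsmul, two_nsmul, hPP, smul_zero, zero_add]
        rw [e] at htors
        exact Point.some_ne_zero h htors
      obtain ⟨x₃, y₃, h₃, hdbl, hx₃⟩ := short_dbl h2ne h hy0
      have h0 : n • Point.some x₃ y₃ h₃ = 0 := by rw [← hdbl, smul_add, htors, add_zero]
      have hx₃le : A.valuation x₃ ≤ 1 := by
        by_contra hcon'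
        exact hF1 x₃ y₃ h₃ (fun hx => hcon' ((A.valuation_le_one_iff _).mpr hx)) h0
      have h4 : A.valuation (4 : K) = 1 := by
        have e : (4 : K) = 2 * 2 := by norm_num
        rw [e, map_mul, hA2, one_mul]
      have hnum : A.valuation (x ^ 2 - e₁ * e₂) = 1 := by
        have hlt' : A.valuation (e₁ * e₂) < A.valuation (x ^ 2) := by
          rw [map_mul, map_pow, he₂, heq1, mul_one, one_pow]
          exact hve₁
        rw [Valuation.map_sub_eq_of_lt_left _ hlt', map_pow, heq1, one_pow]
      have hval := congrArg A.valuation hx₃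
      simp only [map_mul, map_pow, h4, hnum, one_mul, one_pow] at hval
      have hlt' : A.valuation x₃ * A.valuation y ^ 2 < 1 :=
        lt_of_le_of_lt (mul_le_of_le_one_left' hx₃le) h2lt
      exact hlt'.ne hval
    have hyx : A.valuation y = A.valuation x := by
      rw [heq1]
      rw [h2] at hy2
      exact (pow_left_inj₀ zero_le zero_le two_ne_zero).mp (hy2.trans (one_pow 2).symm)
    have hclose : A.valuation (σ x - x) < A.valuation x := by
      rw [heq1]
      exact A.mem_nonunits_iff.mp (hσ.sub_mem x ((A.valuation_le_one_iff x).mp heq1.le))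
    exact fixed_of_close A hA2 hF1 σ hσ h h' htors htors' hx0 hyx hclose

end PBEndgame

end Fermat.Agent.S05
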