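/-
S05 team, Plan B/C (owner of this file: helper65): exact `x`-coordinate identities on the short
curve `y² = x³ + a x² + b x`, stated for Mathlib points.

* `PB.xco` : the `x`-coordinate of a point (`0` at infinity).
* `PB.dbl` (D)  : `x(2P) · 4y² = (x² - b)²`.
* `PB.add_sub` (I1) : `x(P+Q) · x(P-Q) · (x₁ - x₂)² = (x₁ x₂ - b)²`.
* `PB.sub_x` : `x(P-Q) · (x₁ - x₂)² = (y₁ + y₂)² - (a + x₁ + x₂) (x₁ - x₂)²`.
-/
import Fermat.Agent.S05.Defs

set_option autoImplicit false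

namespace Fermat.Agent.S05.PB

open WeierstrassCurve

variable {K : Type*} [Field K]

/-- The curve equation of the short model. -/
theorem equation_iff (a b x y : K) :
    (shortCurve a b).toAffine.Equation x y ↔ y ^ 2 = x ^ 3 + a * x ^ 2 + b * x := by
  rw [Affine.equation_iff]
  simp only [shortCurve_a₁, shortCurve_a₂, shortCurve_a₃, shortCurve_a₄, shortCurve_a₆]
  constructor <;> intro h <;> linear_combination h

theorem negY_eq (a b x y : K) : (shortCurve a b).toAffine.negY x y = -y := by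
  simp [Affine.negY]

/-- The `x`-coordinate of a point (`0` at infinity). -/
def xco {W : WeierstrassCurve K} : W.toAffine.Point → K
  | .zero => 0
  | .some x _ _ => x

@[simp] theorem xco_zero {W : WeierstrassCurve K} : xco (0 : W.toAffine.Point) = 0 := rfl

@[simp] theorem xco_some {W : WeierstrassCurve K} {x y : K} (h : W.toAffine.Nonsingular x y) :
    xco (Affine.Point.some x y h) = x := rfl

@[simp] theorem xco_neg {W : WeierstrassCurve K} (P : W.toAffine.Point) : xco (-P) = xco P := by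
  cases P with
  | zero => rfl
  | some x y h => rfl

/-- Two affine points with the same `x`-coordinate are equal or opposite. -/
theorem eq_or_eq_neg_of_xco_eq {W : WeierstrassCurve K} {P Q : W.toAffine.Point} (hP : P ≠ 0)
    (hQ : Q ≠ 0) (h : xco P = xco Q) : P = Q ∨ P = -Q := by
  cases P with
  | zero => exact absurd rfl hP
  | some x₁ y₁ h₁ =>
    cases Q with
    | zero => exact absurd rfl hQ
    | some x₂ y₂ h₂ =>
      exact Affine.Point.X_eq_iff.mp h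

variable [DecidableEq K]

/-- Sum of two affine points with distinct `x`: explicit `x`-coordinate. -/
theorem add_x (a b : K) {x₁ y₁ x₂ y₂ : K}
    (h₁ : (shortCurve a b).toAffine.Nonsingular x₁ y₁)
    (h₂ : (shortCurve a b).toAffine.Nonsingular x₂ y₂) (hx : x₁ ≠ x₂) :
    ∃ x₃ y₃, ∃ h₃ : (shortCurve a b).toAffine.Nonsingular x₃ y₃,
      Affine.Point.some x₁ y₁ h₁ + Affine.Point.some x₂ y₂ h₂ = Affine.Point.some x₃ y₃ h₃ ∧
      x₃ * (x₁ - x₂) ^ 2 = (y₁ - y₂) ^ 2 - (a + x₁ + x₂) * (x₁ - x₂) ^ 2 := by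
  refine ⟨_, _, _, Affine.Point.add_of_X_ne hx, ?_⟩
  have hd : x₁ - x₂ ≠ 0 := sub_ne_zero.mpr hx
  rw [Affine.slope_of_X_ne hx]
  simp only [Affine.addX, shortCurve_a₁, shortCurve_a₂]
  field_simp
  ring

/-- Difference of two affine points with distinct `x`: explicit `x`-coordinate. -/
theorem sub_x (a b : K) {x₁ y₁ x₂ y₂ : K}
    (h₁ : (shortCurve a b).toAffine.Nonsingular x₁ y₁)
    (h₂ : (shortCurve a b).toAffine.Nonsingular x₂ y₂) (hx : x₁ ≠ x₂) :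
    ∃ x₃ y₃, ∃ h₃ : (shortCurve a b).toAffine.Nonsingular x₃ y₃,
      Affine.Point.some x₁ y₁ h₁ - Affine.Point.some x₂ y₂ h₂ = Affine.Point.some x₃ y₃ h₃ ∧
      x₃ * (x₁ - x₂) ^ 2 = (y₁ + y₂) ^ 2 - (a + x₁ + x₂) * (x₁ - x₂) ^ 2 := by
  obtain ⟨x₃, y₃, h₃, h, hx₃⟩ :=
    add_x a b h₁ ((Affine.nonsingular_neg ..).mpr h₂) hx
  refine ⟨x₃, y₃, h₃, ?_, ?_⟩
  · rw [sub_eq_add_neg, Affine.Point.neg_some, h]
  · rw [hx₃, negY_eq]; ring

/-- (I1): `x(P+Q) · x(P-Q) · (x₁ - x₂)² = (x₁ x₂ - b)²`. -/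
theorem add_sub (a b : K) {x₁ y₁ x₂ y₂ : K}
    (h₁ : (shortCurve a b).toAffine.Nonsingular x₁ y₁)
    (h₂ : (shortCurve a b).toAffine.Nonsingular x₂ y₂) (hx : x₁ ≠ x₂) :
    ∃ x₃ y₃, ∃ h₃ : (shortCurve a b).toAffine.Nonsingular x₃ y₃,
    ∃ x₄ y₄, ∃ h₄ : (shortCurve a b).toAffine.Nonsingular x₄ y₄,
      Affine.Point.some x₁ y₁ h₁ + Affine.Point.some x₂ y₂ h₂ = Affine.Point.some x₃ y₃ h₃ ∧
      Affine.Point.some x₁ y₁ h₁ - Affine.Point.some x₂ y₂ h₂ = Affine.Point.some x₄ y₄ h₄ ∧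
      x₃ * x₄ * (x₁ - x₂) ^ 2 = (x₁ * x₂ - b) ^ 2 := by
  obtain ⟨x₃, y₃, h₃, e₃, hx₃⟩ := add_x a b h₁ h₂ hx
  obtain ⟨x₄, y₄, h₄, e₄, hx₄⟩ := sub_x a b h₁ h₂ hx
  refine ⟨x₃, y₃, h₃, x₄, y₄, h₄, e₃, e₄, ?_⟩
  have hd : (x₁ - x₂) ^ 2 ≠ 0 := pow_ne_zero 2 (sub_ne_zero.mpr hx)
  have E₁ := (equation_iff a b x₁ y₁).mp h₁.1
  have E₂ := (equation_iff a b x₂ y₂).mp h₂.1
  apply mul_right_cancel₀ hd
  have : x₃ * x₄ * (x₁ - x₂) ^ 2 * (x₁ - x₂) ^ 2
      = (x₃ * (x₁ - x₂) ^ 2) * (x₄ * (x₁ - x₂) ^ 2) := by ring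
  rw [this, hx₃, hx₄]
  linear_combination
    (y₁ ^ 2 + (x₁ ^ 3 + a * x₁ ^ 2 + b * x₁) - 2 * y₂ ^ 2
      - 2 * ((a + x₁ + x₂) * (x₁ - x₂) ^ 2)) * E₁ +
    (y₂ ^ 2 + (x₂ ^ 3 + a * x₂ ^ 2 + b * x₂) - 2 * (x₁ ^ 3 + a * x₁ ^ 2 + b * x₁)
      - 2 * ((a + x₁ + x₂) * (x₁ - x₂) ^ 2)) * E₂

/-- (D): `x(2P) · 4y² = (x² - b)²` when `y ≠ 0` (and `2 ≠ 0`). -/
theorem dbl (a b : K) (h2 : (2 : K) ≠ 0) {x y : K}
    (h : (shortCurve a b).toAffine.Nonsingular x y) (hy : y ≠ 0) :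
    ∃ x₃ y₃, ∃ h₃ : (shortCurve a b).toAffine.Nonsingular x₃ y₃,
      Affine.Point.some x y h + Affine.Point.some x y h = Affine.Point.some x₃ y₃ h₃ ∧
      x₃ * (4 * y ^ 2) = (x ^ 2 - b) ^ 2 := by
  have hy' : y ≠ (shortCurve a b).toAffine.negY x y := by
    rw [negY_eq]
    intro h'
    have : 2 * y = 0 := by linear_combination h'
    rcases mul_eq_zero.mp this with h | h
    · exact h2 h
    · exact hy h
  refine ⟨_, _, _, Affine.Point.add_self_of_Y_ne hy', ?_⟩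
  have E := (equation_iff a b x y).mp h.1
  rw [Affine.slope_of_Y_ne rfl hy', negY_eq]
  simp only [Affine.addX, shortCurve_a₁, shortCurve_a₂, shortCurve_a₄]
  have h2y : y - -y ≠ 0 := by
    intro h'
    apply hy'
    rw [negY_eq]
    linear_combination h'
  set ℓ := (3 * x ^ 2 + 2 * a * x + b - 0 * y) / (y - -y) with hℓdef
  have hℓ : ℓ * (2 * y) = 3 * x ^ 2 + 2 * a * x + b := by
    have e : (2 : K) * y = y - -y := by ring
    rw [hℓdef, e, div_mul_cancel₀ _ h2y]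
    ring
  linear_combination (ℓ * (2 * y) + (3 * x ^ 2 + 2 * a * x + b)) * hℓ - 4 * (a + 2 * x) * E

/-- (I1) in terms of `xco`: for affine `P`, `Q` with distinct `x`-coordinates,
`x(P+Q) · x(P-Q) · (x_P - x_Q)² = (x_P x_Q - b)²`. -/
theorem xco_add_sub (a b : K) {P Q : (shortCurve a b).toAffine.Point} (hP : P ≠ 0) (hQ : Q ≠ 0)
    (hx : xco P ≠ xco Q) :
    xco (P + Q) * xco (P - Q) * (xco P - xco Q) ^ 2 = (xco P * xco Q - b) ^ 2 := by
  cases P with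
  | zero => exact absurd rfl hP
  | some x₁ y₁ h₁ =>
    cases Q with
    | zero => exact absurd rfl hQ
    | some x₂ y₂ h₂ =>
      obtain ⟨x₃, y₃, h₃, x₄, y₄, h₄, e₃, e₄, hh⟩ := add_sub a b h₁ h₂ hx
      rw [e₃, e₄]
      exact hh

/-- (D) in terms of `xco`: for affine `P` with `2P ≠ 0`,
`x(2P) · 4 x (x² + a x + b) = (x² - b)²`. -/
theorem xco_dbl (a b : K) (h2 : (2 : K) ≠ 0) {P : (shortCurve a b).toAffine.Point} (hP : P ≠ 0)
    (hPP : P + P ≠ 0) :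
    xco (P + P) * (4 * (xco P * (xco P ^ 2 + a * xco P + b))) = (xco P ^ 2 - b) ^ 2 := by
  cases P with
  | zero => exact absurd rfl hP
  | some x y h =>
    have hy : y ≠ 0 := by
      intro hy
      apply hPP
      apply Affine.Point.add_self_of_Y_eq
      rw [negY_eq, hy, neg_zero]
    obtain ⟨x₃, y₃, h₃, e₃, hh⟩ := dbl a b h2 h hy
    have E := (equation_iff a b x y).mp h.1
    rw [e₃]
    simp only [xco_some]
    rw [← hh]
    linear_combination (-4 * x₃) * E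

end Fermat.Agent.S05.PB
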