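/-
S05 team, Plan B/C wrapper (owner of this file: helper95).

`mult_case_short_B`: the multiplicative reduction case, with exactly the type of
`mult_case_short` in `Mult.lean`, assembled from
* `PBEndgame.mult_case_core` (`PB_Endgame.lean`),
* `PC.torsion_val'` (`PC_TorsionVal.lean`, helper67; uses `PB_Seq`, `PB_Formulas`, `PC_Tent`),
* `F1_short` (`FormalGroup.lean`, helper96).
-/
import Fermat.Agent.S05.FormalGroup
import Fermat.Agent.S05.PB_Endgame
import Fermat.Agent.S05.PC_TorsionVal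

set_option autoImplicit false

namespace Fermat.Agent.S05

open WeierstrassCurve

variable {K : Type*} [Field K] [DecidableEq K]

/-- **MULT case** (Plan B/C): on `y² = x (x - e₁) (x - e₂)` with `e₁ ∈ m`, `e₁ ≠ 0`, `e₂` a unit,
where `e₁ = ρ ^ n` with `ρ` fixed by `σ`, an `n`-torsion point (`n` an odd prime, a unit of `A`)
is fixed by every inertia-like `σ` fixing `e₂`. -/
theorem mult_case_short_B (A : ValuationSubring K) (hA2 : A.valuation (2 : K) = 1)
    (e₁ e₂ : K) (he₁ : e₁ ∈ A.nonunits) (he₁0 : e₁ ≠ 0) (he₂ : A.valuation e₂ = 1)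
    (hsqrt : ∀ u : K, ∃ t : K, t ^ 2 = u)
    (n : ℕ) (hprime : n.Prime) (hn : A.valuation (n : K) = 1) (hodd : Odd n) (ρ : K)
    (hρ : e₁ = ρ ^ n)
    (σ : K →+* K) (hσ : InertiaLike A σ) (hσρ : σ ρ = ρ) (hσe₂ : σ e₂ = e₂)
    {x y : K} (h : (shortCurve (-(e₁ + e₂)) (e₁ * e₂)).toAffine.Nonsingular x y)
    (h' : (shortCurve (-(e₁ + e₂)) (e₁ * e₂)).toAffine.Nonsingular (σ x) (σ y))
    (htors : n • (Affine.Point.some x y h) = 0)
    (htors' : n • (Affine.Point.some (σ x) (σ y) h') = 0) :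
    σ x = x ∧ σ y = y := by
  have he₁A : e₁ ∈ A := A.nonunits_subset he₁
  have he₂A : e₂ ∈ A := (A.valuation_le_one_iff _).mp he₂.le
  have hα : -(e₁ + e₂) ∈ A := A.neg_mem _ (A.add_mem _ _ he₁A he₂A)
  have hβ : e₁ * e₂ ∈ A := A.mul_mem _ _ he₁A he₂A
  have hF1 : ∀ (x' y' : K)
      (h'' : (shortCurve (-(e₁ + e₂)) (e₁ * e₂)).toAffine.Nonsingular x' y'), x' ∉ A →
      n • Affine.Point.some x' y' h'' ≠ 0 :=
    fun x' y' h'' hx' => F1_short A _ _ hα hβ n hn h'' hx'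
  exact PBEndgame.mult_case_core A hA2 e₁ e₂ he₁ he₁0 he₂ n hodd ρ hρ σ hσ hσρ hF1 h h' htors
    htors' (fun hx => PC.torsion_val' A hA2 e₁ e₂ he₁ he₁0 he₂ n hprime hodd hF1 h htors hx)

end Fermat.Agent.S05
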