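/-
S05 team, Plan B/C (owner of this file: helper65): the sequence `xs i = x(i • P)` of
`x`-coordinates of the multiples of a point `P` of prime order `n` on
`y² = x (x - e₁) (x - e₂)`, with exactly the relations used by the abstract tent induction.
-/
import Fermat.Agent.S05.PB_Formulas

set_option autoImplicit false

namespace Fermat.Agent.S05.PB

open WeierstrassCurve

variable {K : Type*} [Field K] [DecidableEq K]

/-- For a nonzero point `P` killed by a prime `n`: `i • P = 0 ↔ n ∣ i`. -/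
theorem nsmul_eq_zero_iff_dvd {W : WeierstrassCurve K} {P : W.toAffine.Point} {n : ℕ}
    (hprime : n.Prime) (hP : P ≠ 0) (hn : n • P = 0) (i : ℕ) : i • P = 0 ↔ n ∣ i := by
  have : Fact n.Prime := ⟨hprime⟩
  have h := addOrderOf_eq_prime hn hP
  rw [← addOrderOf_dvd_iff_nsmul_eq_zero, h]

/-- The `x`-coordinate of `i • P`. -/
noncomputable def xs {W : WeierstrassCurve K} (P : W.toAffine.Point) (i : ℕ) : K := xco (i • P)

section

variable {W : WeierstrassCurve K} {P : W.toAffine.Point} {n : ℕ}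

theorem seq_per (hprime : n.Prime) (hP : P ≠ 0) (hn : n • P = 0) (i j : ℕ)
    (h : (i : ZMod n) = j ∨ (i : ZMod n) = -j) : xs P i = xs P j := by
  have : Fact n.Prime := ⟨hprime⟩
  have ho := addOrderOf_eq_prime hn hP
  rcases h with h | h
  · have h' : i ≡ j [MOD n] := (ZMod.natCast_eq_natCast_iff i j n).mp h
    have : i • P = j • P := by
      rw [nsmul_eq_nsmul_iff_modEq, ho]; exact h'
    unfold xs; rw [this]
  · have h' : ((i + j : ℕ) : ZMod n) = 0 := by
      push_cast; rw [h]; ring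
    have h'' : n ∣ i + j := (ZMod.natCast_eq_zero_iff _ _).mp h'
    have h0 : (i + j) • P = 0 := (nsmul_eq_zero_iff_dvd hprime hP hn _).mpr h''
    have : i • P = -(j • P) := by
      rw [add_nsmul] at h0
      exact eq_neg_of_add_eq_zero_left h0
    unfold xs; rw [this, xco_neg]

end

section

variable (A : ValuationSubring K) (e₁ e₂ : K)
  {P : (shortCurve (-(e₁ + e₂)) (e₁ * e₂)).toAffine.Point} {n : ℕ}

/-- `y(i • P)² = xs i * (xs i - e₁) * (xs i - e₂)`; used via `seq_ysq_ne`. -/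
noncomputable def ysq (P : (shortCurve (-(e₁ + e₂)) (e₁ * e₂)).toAffine.Point) (i : ℕ) : K :=
  xs P i * (xs P i - e₁) * (xs P i - e₂)

theorem two_mul_not_dvd (hprime : n.Prime) (hodd : Odd n) {i : ℕ} (hi : ¬ n ∣ i) :
    ¬ n ∣ 2 * i := by
  intro h
  rcases (Nat.Prime.dvd_mul hprime).mp h with h | h
  · have : n = 2 := (Nat.prime_dvd_prime_iff_eq hprime Nat.prime_two).mp h
    subst this
    exact absurd hodd (by decide)
  · exact hi h

theorem seq_ysq_ne (hprime : n.Prime) (hodd : Odd n) (hP : P ≠ 0) (hn : n • P = 0) (i : ℕ)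
    (hi : ¬ n ∣ i) : ysq e₁ e₂ P i ≠ 0 := by
  have hQ : i • P ≠ 0 := fun h => hi ((nsmul_eq_zero_iff_dvd hprime hP hn i).mp h)
  have hQQ : i • P + i • P ≠ 0 := by
    rw [← two_nsmul, ← mul_nsmul']
    exact fun h => two_mul_not_dvd hprime hodd hi ((nsmul_eq_zero_iff_dvd hprime hP hn _).mp h)
  unfold ysq xs
  generalize i • P = Q at hQ hQQ
  cases Q with
  | zero => exact absurd rfl hQ
  | some x y h =>
    have E := (equation_iff _ _ x y).mp h.1
    simp only [xco_some]
    have hy : y ≠ 0 := by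
      intro hy
      apply hQQ
      apply Affine.Point.add_self_of_Y_eq
      rw [negY_eq, hy, neg_zero]
    have : x * (x - e₁) * (x - e₂) = y ^ 2 := by rw [E]; ring
    rw [this]
    exact pow_ne_zero 2 hy

theorem seq_dbl (h2 : (2 : K) ≠ 0) (hprime : n.Prime) (hodd : Odd n) (hP : P ≠ 0)
    (hn : n • P = 0) (i : ℕ) (hi : ¬ n ∣ i) :
    xs P (2 * i) * (4 * ysq e₁ e₂ P i) = (xs P i ^ 2 - e₁ * e₂) ^ 2 := by
  have hQ : i • P ≠ 0 := fun h => hi ((nsmul_eq_zero_iff_dvd hprime hP hn i).mp h)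
  have hQQ : i • P + i • P ≠ 0 := by
    rw [← two_nsmul, ← mul_nsmul']
    exact fun h => two_mul_not_dvd hprime hodd hi ((nsmul_eq_zero_iff_dvd hprime hP hn _).mp h)
  have key := xco_dbl (-(e₁ + e₂)) (e₁ * e₂) h2 hQ hQQ
  have e : xs P (2 * i) = xco (i • P + i • P) := by
    unfold xs; rw [← two_nsmul, ← mul_nsmul']
  rw [e]
  unfold ysq xs
  rw [← key]
  ring

theorem seq_addsub (hprime : n.Prime) (hP : P ≠ 0) (hn : n • P = 0) (i j : ℕ) (hji : j < i)
    (hi : ¬ n ∣ i) (hj : ¬ n ∣ j) (hij : ¬ n ∣ (i + j)) (hij' : ¬ n ∣ (i - j)) :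
    xs P (i + j) * xs P (i - j) * (xs P i - xs P j) ^ 2 = (xs P i * xs P j - e₁ * e₂) ^ 2 := by
  have hQ : i • P ≠ 0 := fun h => hi ((nsmul_eq_zero_iff_dvd hprime hP hn i).mp h)
  have hR : j • P ≠ 0 := fun h => hj ((nsmul_eq_zero_iff_dvd hprime hP hn j).mp h)
  have e₁' : (i + j) • P = i • P + j • P := add_nsmul P i j
  have e₂' : (i - j) • P = i • P - j • P := by
    rw [sub_nsmul P hji.le, sub_eq_add_neg]
  have hx : xco (i • P) ≠ xco (j • P) := by
    intro h
    rcases eq_or_eq_neg_of_xco_eq hQ hR h with h | h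
    · apply hij'
      rw [← nsmul_eq_zero_iff_dvd hprime hP hn, e₂', h, sub_self]
    · apply hij
      rw [← nsmul_eq_zero_iff_dvd hprime hP hn, e₁', h, neg_add_cancel]
  have key := xco_add_sub (-(e₁ + e₂)) (e₁ * e₂) hQ hR hx
  unfold xs
  rw [e₁', e₂']
  exact key

theorem seq_integral (hprime : n.Prime) (hP : P ≠ 0) (hn : n • P = 0)
    (hF1 : ∀ (x y : K) (h : (shortCurve (-(e₁ + e₂)) (e₁ * e₂)).toAffine.Nonsingular x y),
      n • Affine.Point.some x y h = 0 → x ∈ A) (i : ℕ) (hi : ¬ n ∣ i) :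
    xs P i ∈ A := by
  have hQ : i • P ≠ 0 := fun h => hi ((nsmul_eq_zero_iff_dvd hprime hP hn i).mp h)
  have hnQ : n • (i • P) = 0 := by
    rw [smul_comm, hn, smul_zero]
  unfold xs
  generalize i • P = Q at hQ hnQ
  cases Q with
  | zero => exact absurd rfl hQ
  | some x y h => exact hF1 x y h hnQ

end

end Fermat.Agent.S05.PB
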