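import Mathlib

/-!
# S05, Plan B: the group homomorphism on points induced by a ring endomorphism fixing the curve

For a Weierstrass curve `W` over a field `K` and a ring homomorphism `σ : K →+* K`
with `W.map σ = W`, the coordinatewise map `(x, y) ↦ (σ x, σ y)` is an additive
endomorphism of the group of nonsingular points.
-/

namespace Fermat.Agent.S05

namespace PBSigma

open WeierstrassCurve WeierstrassCurve.Affine

variable {F K : Type*} [Field F] [Field K] [DecidableEq F] [DecidableEq K]

/-- The homomorphism on points induced by a ring homomorphism of fields, with values in the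
points of the mapped curve. -/
noncomputable def mapHom (W : WeierstrassCurve F) (f : F →+* K) :
    W.toAffine.Point →+ (W.map f).toAffine.Point where
  toFun P := match P with
    | 0 => 0
    | .some x y h => .some (f x) (f y) ((W.toAffine.map_nonsingular f.injective x y).mpr h)
  map_zero' := rfl
  map_add' := by
    rintro (_ | ⟨x₁, y₁, h₁⟩) (_ | ⟨x₂, y₂, h₂⟩)
    any_goals rfl
    by_cases hxy : x₁ = x₂ ∧ y₁ = W.toAffine.negY x₂ y₂
    · rw [Point.add_of_Y_eq hxy.left hxy.right,
        Point.add_of_Y_eq (congr_arg _ hxy.left) <| by rw [hxy.right, map_negY]]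
    · simpa only [Point.add_some hxy, ← map_addX, ← map_addY, ← map_slope] using!
        (Point.add_some fun h ↦ hxy ⟨f.injective h.1,
          f.injective (W.toAffine.map_negY f .. ▸ h).2⟩).symm

lemma mapHom_some (W : WeierstrassCurve F) (f : F →+* K) {x y : F}
    (h : W.toAffine.Nonsingular x y) :
    mapHom W f (.some x y h) =
      .some (f x) (f y) ((W.toAffine.map_nonsingular f.injective x y).mpr h) :=
  rfl

lemma exists_hom_of_eq {W W' : WeierstrassCurve K} (σ : K →+* K) (hW : W' = W)
    (Ψ : W.toAffine.Point →+ W'.toAffine.Point)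
    (hΨ : ∀ x y h, ∃ h', Ψ (.some x y h) = .some (σ x) (σ y) h') :
    ∃ Φ : W.toAffine.Point →+ W.toAffine.Point,
      ∀ x y h, ∃ h', Φ (.some x y h) = .some (σ x) (σ y) h' := by
  subst hW
  exact ⟨Ψ, hΨ⟩

end PBSigma

open WeierstrassCurve WeierstrassCurve.Affine in
/-- A ring endomorphism `σ` of a field `K` fixing the Weierstrass curve `W` induces an additive
endomorphism of the group of points of `W`, acting coordinatewise on affine points. -/
theorem exists_sigma_hom {K : Type*} [Field K] [DecidableEq K] (W : WeierstrassCurve K)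
    (σ : K →+* K) (hW : W.map σ = W) :
    ∃ Φ : W.toAffine.Point →+ W.toAffine.Point,
      ∀ x y h, ∃ h', Φ (.some x y h) = .some (σ x) (σ y) h' :=
  PBSigma.exists_hom_of_eq σ hW (PBSigma.mapHom W σ) fun _ _ h ↦ ⟨_, PBSigma.mapHom_some W σ h⟩

end Fermat.Agent.S05
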