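/-
S05 team, PLAN C block (owner of this file: helper67).
The "tent" induction on the x-coordinates of the multiples `k • P` of a torsion point `P` of prime
odd order `p` reducing to the node of `y² = x (x - e₁) (x - e₂)`, written as pure valuation algebra
on a sequence `xs : ℕ → K` (`xs k` = x-coordinate of `k • P`), with no elliptic curve API.

Inputs (all provided for actual points by `PB_Seq.lean`): periodicity `per`, the duplication
formula `dbl`, the identity `x(P+Q) x(P-Q) (x_P - x_Q)² = (x_P x_Q - e₁e₂)²` (`addsub`) and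
integrality of the `xs k`.
Output (`Tent.main`, `tent_valuationSubring`): `|e₁| < |xs 1|` and `|xs 1| ^ p = |e₁| ^ (2 j)`.
-/
import Mathlib

set_option autoImplicit false

namespace Fermat.Agent.S05.PC

section grp

variable {G : Type*} [LinearOrderedCommGroupWithZero G]

lemma eq_one_of_mul_eq_one' {a b : G} (ha : a ≤ 1) (hb : b ≤ 1) (h : a * b = 1) : a = 1 := by
  apply le_antisymm ha
  by_contra hx
  push Not at hx
  have : a * b < 1 :=
    calc a * b ≤ a * 1 := mul_le_mul_right hb a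
      _ = a := mul_one a
      _ < 1 := hx
  exact absurd h this.ne

lemma one_le_of_mul_eq' {x c d : G} (hd : d ≠ 0) (hc : c ≤ d) (h : x * c = d) : 1 ≤ x := by
  by_contra hx
  push Not at hx
  rcases eq_or_ne c 0 with rfl | hc0
  · rw [mul_zero] at h; exact hd h.symm
  · have h1 : x * c < 1 * c := mul_lt_mul_of_pos_right hx (zero_lt_iff.mpr hc0)
    rw [one_mul] at h1
    exact absurd h (h1.trans_le hc).ne

/-- Exponent bookkeeping, `+` state: `s = t ^ k * ε ^ (2 j)` for some integer `j`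
(written without inverses). -/
def ExpP (ε t : G) (k : ℕ) (s : G) : Prop :=
  ∃ a b : ℕ, s * ε ^ (2 * a) = t ^ k * ε ^ (2 * b)

/-- Exponent bookkeeping, `-` state: `s * t ^ k = ε ^ (2 j)` for some integer `j`
(written without inverses). -/
def ExpM (ε t : G) (k : ℕ) (s : G) : Prop :=
  ∃ a b : ℕ, s * t ^ k * ε ^ (2 * a) = ε ^ (2 * b)

lemma ExpP.pp {ε t s s' : G} {k : ℕ} (h : ExpP ε t k s) (h' : s' = s * t) :
    ExpP ε t (k + 1) s' := by
  obtain ⟨a, b, hab⟩ := h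
  refine ⟨a, b, ?_⟩
  calc s' * ε ^ (2 * a) = (s * ε ^ (2 * a)) * t := by rw [h']; ac_rfl
    _ = t ^ (k + 1) * ε ^ (2 * b) := by rw [hab, pow_succ]; ac_rfl

lemma ExpP.pm {ε t s s' : G} {k : ℕ} (h : ExpP ε t k s) (h' : s' * (s * t) = ε ^ 2) :
    ExpM ε t (k + 1) s' := by
  obtain ⟨a, b, hab⟩ := h
  refine ⟨b, a + 1, ?_⟩
  calc s' * t ^ (k + 1) * ε ^ (2 * b) = s' * t * (t ^ k * ε ^ (2 * b)) := by
        rw [pow_succ]; ac_rfl
    _ = (s' * (s * t)) * ε ^ (2 * a) := by rw [← hab]; ac_rfl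
    _ = ε ^ (2 * (a + 1)) := by rw [h', mul_add, mul_one, pow_add]; ac_rfl

lemma ExpM.mm {ε t s s' : G} {k : ℕ} (h : ExpM ε t k s) (h' : s' * t = s) :
    ExpM ε t (k + 1) s' := by
  obtain ⟨a, b, hab⟩ := h
  refine ⟨a, b, ?_⟩
  calc s' * t ^ (k + 1) * ε ^ (2 * a) = (s' * t) * t ^ k * ε ^ (2 * a) := by
        rw [pow_succ]; ac_rfl
    _ = ε ^ (2 * b) := by rw [h', hab]

lemma ExpM.mp {ε t s s' : G} {k : ℕ} (h : ExpM ε t k s) (h' : s' * s = t) :
    ExpP ε t (k + 1) s' := by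
  obtain ⟨a, b, hab⟩ := h
  refine ⟨b, a, ?_⟩
  calc s' * ε ^ (2 * b) = s' * (s * t ^ k * ε ^ (2 * a)) := by rw [hab]
    _ = (s' * s) * t ^ k * ε ^ (2 * a) := by ac_rfl
    _ = t ^ (k + 1) * ε ^ (2 * a) := by rw [h', pow_succ]; ac_rfl

end grp

section val

variable {K : Type*} [Field K] {G : Type*} [LinearOrderedCommGroupWithZero G]

/-- Core of the `+` step (and of the base case): from `|x'| (|x| |x₁|) = |x x₁ - b|²`. -/
lemma plus_core (v : Valuation K G) {x₁ x x' b : K}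
    (hb : v b ≠ 0) (hbt : v b < v x₁) (hbs : v b < v x) (hs1 : v x < 1)
    (hbs' : v b < v x')
    (hX : v x' * (v x * v x₁) = v (x * x₁ - b) ^ 2) :
    (v x' = v x * v x₁ ∧ v x * v (x' - x₁) ^ 2 = v x' * v x₁) ∨
    (v x' * (v x * v x₁) = v b ^ 2 ∧ v (x' * x₁ - b) ^ 2 = v x * v x' * v x₁) := by
  have hx0 : v x ≠ 0 := (lt_of_le_of_lt zero_le hbs).ne'
  have ht0 : v x₁ ≠ 0 := (lt_of_le_of_lt zero_le hbt).ne'
  have hst0 : v x * v x₁ ≠ 0 := mul_ne_zero hx0 ht0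
  rcases lt_trichotomy (v b) (v x * v x₁) with hlt | heq | hgt
  · left
    have h1 : v (x * x₁ - b) = v x * v x₁ := by
      rw [Valuation.map_sub_eq_of_lt_left, map_mul]
      rwa [map_mul]
    rw [h1, sq] at hX
    have h2 : v x' = v x * v x₁ := mul_right_cancel₀ hst0 hX
    refine ⟨h2, ?_⟩
    have h3 : v x' < v x₁ := by
      rw [h2]
      calc v x * v x₁ < 1 * v x₁ := mul_lt_mul_of_pos_right hs1 (zero_lt_iff.mpr ht0)
        _ = v x₁ := one_mul _
    rw [Valuation.map_sub_eq_of_lt_right _ h3, h2, sq]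
    ac_rfl
  · exfalso
    have h1 : v (x * x₁ - b) ≤ v b := Valuation.map_sub_le v (by rw [map_mul, heq]) le_rfl
    have h2 : v x' * v b ≤ v b * v b := by
      calc v x' * v b = v x' * (v x * v x₁) := by rw [heq]
        _ = v (x * x₁ - b) ^ 2 := hX
        _ ≤ v b ^ 2 := pow_le_pow_left' h1 2
        _ = v b * v b := sq _
    have h3 : v x' ≤ v b := le_of_mul_le_mul_right h2 (zero_lt_iff.mpr hb)
    exact absurd hbs' (not_lt.mpr h3)
  · right
    have h1 : v (x * x₁ - b) = v b := by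
      rw [Valuation.map_sub_eq_of_lt_right]
      rwa [map_mul]
    rw [h1] at hX
    refine ⟨hX, ?_⟩
    have h2 : v (x' * x₁) < v b := by
      rw [map_mul]
      by_contra hcon
      push Not at hcon
      have : v b ^ 2 < v x' * (v x * v x₁) := by
        calc v b ^ 2 = v b * v b := sq _
          _ < v x * v b := mul_lt_mul_of_pos_right hbs (zero_lt_iff.mpr hb)
          _ ≤ v x * (v x' * v x₁) := mul_le_mul_right hcon _
          _ = v x' * (v x * v x₁) := by ac_rfl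
      exact absurd hX this.ne'
    rw [Valuation.map_sub_eq_of_lt_right _ h2, ← hX]
    ac_rfl

/-- Core of the `-` step: from `|x'| |x - x₁|² = |x| |x₁|`. -/
lemma minus_core (v : Valuation K G) {x₁ x x' b : K}
    (hbt : v b < v x₁) (hbs : v b < v x) (hs1 : v x < 1) (hs'1 : v x' < 1)
    (hX : v x' * v (x - x₁) ^ 2 = v x * v x₁) :
    (v x' * v x₁ = v x ∧ v (x' * x₁ - b) ^ 2 = v x * v x' * v x₁) ∨
    (v x' * v x = v x₁ ∧ v x * v (x' - x₁) ^ 2 = v x' * v x₁) := by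
  have hx0 : v x ≠ 0 := (lt_of_le_of_lt zero_le hbs).ne'
  have ht0 : v x₁ ≠ 0 := (lt_of_le_of_lt zero_le hbt).ne'
  rcases lt_trichotomy (v x) (v x₁) with hlt | heq | hgt
  · left
    rw [Valuation.map_sub_eq_of_lt_right _ hlt] at hX
    have h2 : v x' * v x₁ = v x := by
      apply mul_right_cancel₀ ht0
      rw [← hX, sq]; ac_rfl
    refine ⟨h2, ?_⟩
    have h3 : v b < v (x' * x₁) := by rw [map_mul, h2]; exact hbs
    rw [Valuation.map_sub_eq_of_lt_left _ h3, map_mul, h2, sq, mul_assoc, h2]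
  · exfalso
    have h1 : v (x - x₁) ≤ v x₁ := Valuation.map_sub_le v heq.le le_rfl
    have h2 : 1 ≤ v x' := by
      refine one_le_of_mul_eq' (mul_ne_zero hx0 ht0) ?_ hX
      calc v (x - x₁) ^ 2 ≤ v x₁ ^ 2 := pow_le_pow_left' h1 2
        _ = v x * v x₁ := by rw [sq, heq]
    exact absurd hs'1 (not_lt.mpr h2)
  · right
    rw [Valuation.map_sub_eq_of_lt_left _ hgt] at hX
    have h2 : v x' * v x = v x₁ := by
      apply mul_right_cancel₀ hx0
      calc v x' * v x * v x = v x' * v x ^ 2 := by rw [sq]; ac_rfl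
        _ = v x₁ * v x := by rw [hX]; ac_rfl
    refine ⟨h2, ?_⟩
    have hx'0 : v x' ≠ 0 := by
      intro h0
      rw [h0, zero_mul] at h2
      exact ht0 h2.symm
    have h3 : v x₁ < v x' := by
      rw [← h2]
      calc v x' * v x < v x' * 1 := mul_lt_mul_of_pos_left hs1 (zero_lt_iff.mpr hx'0)
        _ = v x' := mul_one _
    rw [Valuation.map_sub_eq_of_lt_left _ h3, sq, ← h2]
    ac_rfl

/-- The hypotheses of the tent induction: `xs k` plays the role of the x-coordinate of `k • P`,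
for a point `P` of odd prime order `p` on `y² = x (x - e₁) (x - e₂)`, with `|e₁| < 1`,
`|e₂| = 1 = |2|`, all `xs k` integral and `|xs 1| < 1`. -/
structure Tent (v : Valuation K G) (e₁ e₂ : K) (p : ℕ) (xs : ℕ → K) : Prop where
  two : v 2 = 1
  e₁_lt : v e₁ < 1
  e₁_ne : e₁ ≠ 0
  e₂_one : v e₂ = 1
  prime : p.Prime
  odd : Odd p
  per : ∀ i j : ℕ, ((i : ZMod p) = j ∨ (i : ZMod p) = -j) → xs i = xs j
  dbl : ∀ i, ¬ p ∣ i →
    xs (2 * i) * (4 * (xs i * (xs i - e₁) * (xs i - e₂))) = (xs i ^ 2 - e₁ * e₂) ^ 2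
  addsub : ∀ i j, j < i → ¬ p ∣ i → ¬ p ∣ j → ¬ p ∣ (i + j) → ¬ p ∣ (i - j) →
    xs (i + j) * xs (i - j) * (xs i - xs j) ^ 2 = (xs i * xs j - e₁ * e₂) ^ 2
  integral : ∀ i, ¬ p ∣ i → v (xs i) ≤ 1
  lt_one : v (xs 1) < 1

/-- The invariant of the tent induction at the index `k`. -/
def Psi (v : Valuation K G) (e₁ e₂ : K) (xs : ℕ → K) (k : ℕ) : Prop :=
  (ExpP (v e₁) (v (xs 1)) k (v (xs k)) ∧
      v (xs (k - 1)) * v (xs k - xs 1) ^ 2 = v (xs k) * v (xs 1)) ∨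
  (ExpM (v e₁) (v (xs 1)) k (v (xs k)) ∧
      v (xs k * xs 1 - e₁ * e₂) ^ 2 = v (xs (k - 1)) * v (xs k) * v (xs 1))

namespace Tent

variable {v : Valuation K G} {e₁ e₂ : K} {p : ℕ} {xs : ℕ → K}

section
variable (T : Tent v e₁ e₂ p xs)
include T

lemma eps_pos : 0 < v e₁ := v.pos_iff.mpr T.e₁_ne

lemma val_b : v (e₁ * e₂) = v e₁ := by rw [map_mul, T.e₂_one, mul_one]

lemma val_four : v 4 = 1 := by
  have h : (4 : K) = 2 * 2 := by norm_num
  rw [h, map_mul, T.two, mul_one]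

lemma three_le : 3 ≤ p := by
  have h2 := T.prime.two_le
  rcases T.odd with ⟨m, hm⟩
  omega

omit T in
lemma not_dvd_of_lt {p m : ℕ} (hm0 : 0 < m) (hm : m < p) : ¬ p ∣ m := by
  intro h2
  have := Nat.le_of_dvd hm0 h2
  omega

lemma not_dvd_one : ¬ p ∣ 1 := not_dvd_of_lt one_pos (by have := T.three_le; omega)

lemma not_dvd_two_mul {i : ℕ} (hi : ¬ p ∣ i) : ¬ p ∣ 2 * i := by
  intro h
  rcases (T.prime.dvd_mul).mp h with h2 | h2
  · have := Nat.le_of_dvd two_pos h2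
    have := T.three_le
    omega
  · exact hi h2

lemma not_dvd_mul {k m : ℕ} (hk : ¬ p ∣ k) (hm0 : 0 < m) (hm : m < p) : ¬ p ∣ k * m := by
  intro h
  rcases (T.prime.dvd_mul).mp h with h2 | h2
  · exact hk h2
  · exact not_dvd_of_lt hm0 hm h2

/-- Valuation form of the duplication formula. -/
lemma val_dbl {i : ℕ} (hi : ¬ p ∣ i) :
    v (xs (2 * i)) * (v (xs i) * v (xs i - e₁) * v (xs i - e₂)) =
      v (xs i ^ 2 - e₁ * e₂) ^ 2 := by
  have h := congrArg v (T.dbl i hi)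
  rw [map_mul, map_mul, map_mul, map_mul, map_pow, T.val_four, one_mul] at h
  exact h

/-- Valuation form of the addition-subtraction formula. -/
lemma val_addsub {i j : ℕ} (hji : j < i) (hi : ¬ p ∣ i) (hj : ¬ p ∣ j) (hij : ¬ p ∣ (i + j))
    (hij' : ¬ p ∣ (i - j)) :
    v (xs (i + j)) * v (xs (i - j)) * v (xs i - xs j) ^ 2 =
      v (xs i * xs j - e₁ * e₂) ^ 2 := by
  have h := congrArg v (T.addsub i j hji hi hj hij hij')
  rw [map_mul, map_mul, map_pow, map_pow] at h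
  exact h

/-! ### L1: a unit `x(kP)` propagates to all multiples -/

lemma unit_two {k : ℕ} (hk : ¬ p ∣ k) (h1 : v (xs k) = 1) : v (xs (2 * k)) = 1 := by
  have hd := T.val_dbl hk
  have h_e1 : v (xs k - e₁) = 1 := by
    rw [Valuation.map_sub_eq_of_lt_left, h1]
    rw [h1]; exact T.e₁_lt
  have h_b : v (xs k ^ 2 - e₁ * e₂) = 1 := by
    rw [Valuation.map_sub_eq_of_lt_left, map_pow, h1, one_pow]
    rw [map_pow, h1, one_pow, T.val_b]; exact T.e₁_lt
  have h_e2 : v (xs k - e₂) ≤ 1 := Valuation.map_sub_le v h1.le T.e₂_one.le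
  rw [h1, h_e1, h_b, one_mul, one_mul, one_pow] at hd
  exact eq_one_of_mul_eq_one' (T.integral _ (T.not_dvd_two_mul hk)) h_e2 hd

lemma unit_succ {k m : ℕ} (hk : ¬ p ∣ k) (h1 : v (xs k) = 1) (hm : 2 ≤ m) (hm1 : m + 1 < p)
    (hkm : v (xs (k * m)) = 1) : v (xs (k * (m + 1))) = 1 := by
  have hk0 : 0 < k := Nat.pos_of_ne_zero (fun h => hk (h ▸ dvd_zero p))
  have hlt : k < k * m := by nlinarith
  have e1 : k * m + k = k * (m + 1) := by ring
  have e2 : k * m - k = k * (m - 1) := by rw [Nat.mul_sub, mul_one]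
  have ha := T.val_addsub hlt (T.not_dvd_mul hk (by omega) (by omega)) hk
    (by rw [e1]; exact T.not_dvd_mul hk (by omega) hm1)
    (by rw [e2]; exact T.not_dvd_mul hk (by omega) (by omega))
  have h_b : v (xs (k * m) * xs k - e₁ * e₂) = 1 := by
    rw [Valuation.map_sub_eq_of_lt_left, map_mul, hkm, h1, one_mul]
    rw [T.val_b, map_mul, hkm, h1, one_mul]; exact T.e₁_lt
  rw [h_b, one_pow, e1, e2, mul_assoc] at ha
  refine eq_one_of_mul_eq_one' (T.integral _ (T.not_dvd_mul hk (by omega) hm1)) ?_ ha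
  have h3 : v (xs (k * (m - 1))) ≤ 1 := T.integral _ (T.not_dvd_mul hk (by omega) (by omega))
  have h4 : v (xs (k * m) - xs k) ≤ 1 := Valuation.map_sub_le v hkm.le h1.le
  exact mul_le_one' h3 (pow_le_one' h4 2)

lemma unit_mul {k : ℕ} (hk : ¬ p ∣ k) (h1 : v (xs k) = 1) :
    ∀ m : ℕ, 1 ≤ m → m < p → v (xs (k * m)) = 1 := by
  intro m hm
  induction m, hm using Nat.le_induction with
  | base => intro _; rw [mul_one]; exact h1
  | succ m hm ih =>
    intro hm1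
    rcases Nat.eq_or_lt_of_le hm with rfl | hm2
    · rw [show k * (1 + 1) = 2 * k by ring]; exact T.unit_two hk h1
    · exact T.unit_succ hk h1 hm2 hm1 (ih (by omega))

lemma unit_all {k : ℕ} (hk : ¬ p ∣ k) (h1 : v (xs k) = 1) {j : ℕ} (hj : ¬ p ∣ j) :
    v (xs j) = 1 := by
  have : Fact p.Prime := ⟨T.prime⟩
  have hk' : (k : ZMod p) ≠ 0 := by rwa [Ne, ZMod.natCast_eq_zero_iff]
  have hj' : (j : ZMod p) ≠ 0 := by rwa [Ne, ZMod.natCast_eq_zero_iff]
  have hc0 : (j : ZMod p) * (k : ZMod p)⁻¹ ≠ 0 := mul_ne_zero hj' (inv_ne_zero hk')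
  have hm0 : 0 < ((j : ZMod p) * (k : ZMod p)⁻¹).val := ZMod.val_pos.mpr hc0
  have hmp : ((j : ZMod p) * (k : ZMod p)⁻¹).val < p := ZMod.val_lt _
  have hper : xs (k * ((j : ZMod p) * (k : ZMod p)⁻¹).val) = xs j := by
    apply T.per; left
    rw [Nat.cast_mul, ZMod.natCast_zmod_val]
    field_simp
  rw [← hper]; exact T.unit_mul hk h1 _ hm0 hmp

lemma lt_one_all {k : ℕ} (hk : ¬ p ∣ k) : v (xs k) < 1 := by
  refine lt_of_le_of_ne (T.integral k hk) (fun h1 => ?_)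
  exact absurd (T.unit_all hk h1 T.not_dvd_one) T.lt_one.ne

/-! ### L2: no multiple has `|x(kP)| ≤ |e₁|` -/

lemma eps_lt {k : ℕ} (hk : ¬ p ∣ k) : v e₁ < v (xs k) := by
  by_contra hcon
  push Not at hcon
  have hd := T.val_dbl hk
  have hε := T.eps_pos
  have hε1 := T.e₁_lt
  have h_e2 : v (xs k - e₂) = 1 := by
    rw [Valuation.map_sub_eq_of_lt_right, T.e₂_one]
    rw [T.e₂_one]; exact lt_of_le_of_lt hcon hε1
  have h_sq : v (xs k ^ 2) < v (e₁ * e₂) := by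
    rw [map_pow, T.val_b]
    calc v (xs k) ^ 2 ≤ v e₁ ^ 2 := pow_le_pow_left' hcon 2
      _ = v e₁ * v e₁ := sq _
      _ < v e₁ * 1 := mul_lt_mul_of_pos_left hε1 hε
      _ = v e₁ := mul_one _
  have h_b : v (xs k ^ 2 - e₁ * e₂) = v e₁ := by
    rw [Valuation.map_sub_eq_of_lt_right _ h_sq, T.val_b]
  have h_e1 : v (xs k - e₁) ≤ v e₁ := Valuation.map_sub_le v hcon le_rfl
  rw [h_e2, h_b, mul_one] at hd
  have h1 : 1 ≤ v (xs (2 * k)) := by
    refine one_le_of_mul_eq' (pow_ne_zero 2 hε.ne') ?_ hd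
    calc v (xs k) * v (xs k - e₁) ≤ v e₁ * v e₁ := mul_le_mul' hcon h_e1
      _ = v e₁ ^ 2 := (sq _).symm
  exact absurd (T.lt_one_all (T.not_dvd_two_mul hk)) (not_lt.mpr h1)

/-! ### L3: the invariant -/

lemma psi_two : Psi v e₁ e₂ xs 2 := by
  have h1 := T.not_dvd_one
  have h2 : ¬ p ∣ 2 := not_dvd_of_lt two_pos (by have := T.three_le; omega)
  have hd := T.val_dbl h1
  rw [mul_one] at hd
  have hεt := T.eps_lt h1
  have ht1 := T.lt_one
  have hb' : v (e₁ * e₂) = v e₁ := T.val_b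
  have hb : v (e₁ * e₂) ≠ 0 := by rw [hb']; exact T.eps_pos.ne'
  have h_e1 : v (xs 1 - e₁) = v (xs 1) := Valuation.map_sub_eq_of_lt_left _ hεt
  have h_e2 : v (xs 1 - e₂) = 1 := by
    rw [Valuation.map_sub_eq_of_lt_right, T.e₂_one]
    rw [T.e₂_one]; exact ht1
  rw [h_e1, h_e2, mul_one, sq (xs 1)] at hd
  rcases plus_core v hb (by rwa [hb']) (by rwa [hb']) ht1 (by rw [hb']; exact T.eps_lt h2) hd
    with ⟨h3, h4⟩ | ⟨h3, h4⟩
  · left
    exact ⟨⟨0, 0, by rw [h3, sq]⟩, h4⟩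
  · right
    refine ⟨⟨0, 1, ?_⟩, h4⟩
    rw [mul_zero, pow_zero, mul_one, mul_one, sq (v (xs 1)), h3, hb']

lemma psi_succ {k : ℕ} (hk : 2 ≤ k) (hk1 : k + 1 < p) (h : Psi v e₁ e₂ xs k) :
    Psi v e₁ e₂ xs (k + 1) := by
  have hdk : ¬ p ∣ k := not_dvd_of_lt (by omega) (by omega)
  have hdk1 : ¬ p ∣ k + 1 := not_dvd_of_lt (by omega) hk1
  have hdk' : ¬ p ∣ k - 1 := not_dvd_of_lt (by omega) (by omega)
  have ha := T.val_addsub (i := k) (j := 1) (by omega) hdk T.not_dvd_one hdk1 hdk'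
  have hb' : v (e₁ * e₂) = v e₁ := T.val_b
  have hb : v (e₁ * e₂) ≠ 0 := by rw [hb']; exact T.eps_pos.ne'
  have hεt : v (e₁ * e₂) < v (xs 1) := by rw [hb']; exact T.eps_lt T.not_dvd_one
  have hεs : v (e₁ * e₂) < v (xs k) := by rw [hb']; exact T.eps_lt hdk
  have hεs' : v (e₁ * e₂) < v (xs (k + 1)) := by rw [hb']; exact T.eps_lt hdk1
  have hs1 := T.lt_one_all hdk
  have hs'1 := T.lt_one_all hdk1
  rcases h with ⟨hE, hI⟩ | ⟨hE, hI⟩
  · have hX : v (xs (k + 1)) * (v (xs k) * v (xs 1)) = v (xs k * xs 1 - e₁ * e₂) ^ 2 := by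
      rw [← ha, ← hI]; ac_rfl
    rcases plus_core v hb hεt hεs hs1 hεs' hX with ⟨h2, h3⟩ | ⟨h2, h3⟩
    · left
      refine ⟨hE.pp h2, ?_⟩
      rw [Nat.add_sub_cancel]; exact h3
    · right
      refine ⟨hE.pm (by rw [h2, hb']), ?_⟩
      rw [Nat.add_sub_cancel]; exact h3
  · have hs₀ : v (xs (k - 1)) ≠ 0 := (lt_of_le_of_lt zero_le (T.eps_lt hdk')).ne'
    have hX : v (xs (k + 1)) * v (xs k - xs 1) ^ 2 = v (xs k) * v (xs 1) := by
      apply mul_left_cancel₀ hs₀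
      calc v (xs (k - 1)) * (v (xs (k + 1)) * v (xs k - xs 1) ^ 2)
          = v (xs (k + 1)) * v (xs (k - 1)) * v (xs k - xs 1) ^ 2 := by ac_rfl
        _ = v (xs (k - 1)) * (v (xs k) * v (xs 1)) := by rw [ha, hI]; ac_rfl
    rcases minus_core v hεt hεs hs1 hs'1 hX with ⟨h2, h3⟩ | ⟨h2, h3⟩
    · right
      refine ⟨hE.mm h2, ?_⟩
      rw [Nat.add_sub_cancel]; exact h3
    · left
      refine ⟨hE.mp h2, ?_⟩
      rw [Nat.add_sub_cancel]; exact h3

lemma psi_all : ∀ k, 2 ≤ k → k < p → Psi v e₁ e₂ xs k := by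
  intro k hk
  induction k, hk using Nat.le_induction with
  | base => intro _; exact T.psi_two
  | succ k hk ih => intro hk1; exact T.psi_succ hk hk1 (ih (by omega))

/-- **Tent theorem**: `|e₁| < |x(P)|` and `|x(P)| ^ p = |e₁| ^ (2 j)` for some integer `j`. -/
theorem main : v e₁ < v (xs 1) ∧ ∃ j : ℤ, v (xs 1) ^ p = v e₁ ^ (2 * j) := by
  refine ⟨T.eps_lt T.not_dvd_one, ?_⟩
  have hp3 := T.three_le
  have : Fact p.Prime := ⟨T.prime⟩
  have hper : xs (p - 1) = xs 1 := by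
    apply T.per; right
    rw [Nat.cast_sub (by omega), Nat.cast_one, ZMod.natCast_self, zero_sub]
  have hε0 : v e₁ ≠ 0 := T.eps_pos.ne'
  have ht0 : v (xs 1) ≠ 0 := (lt_of_le_of_lt zero_le (T.eps_lt T.not_dvd_one)).ne'
  rcases T.psi_all (p - 1) (by omega) (by omega) with ⟨_, hI⟩ | ⟨⟨a, b, hab⟩, _⟩
  · exfalso
    rw [hper, sub_self, map_zero, zero_pow two_ne_zero, mul_zero] at hI
    exact mul_ne_zero ht0 ht0 hI.symm
  · rw [hper] at hab
    refine ⟨(b : ℤ) - a, ?_⟩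
    have hpp : v (xs 1) ^ p = v (xs 1) * v (xs 1) ^ (p - 1) := by
      rw [← pow_succ']; congr 1; omega
    have ea : v e₁ ^ (2 * (a : ℤ)) = v e₁ ^ (2 * a) := by
      rw [← zpow_natCast]; congr 1
    have eb : v e₁ ^ (2 * (b : ℤ)) = v e₁ ^ (2 * b) := by
      rw [← zpow_natCast]; congr 1
    rw [hpp, mul_sub, zpow_sub₀ hε0, ea, eb, eq_div_iff (pow_ne_zero _ hε0)]
    exact hab

end

end Tent

/-- **Tent theorem**, stated for a valuation subring. -/
theorem tent_valuationSubring (A : ValuationSubring K) (hA2 : A.valuation (2 : K) = 1)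
    (e₁ e₂ : K) (he₁ : e₁ ∈ A.nonunits) (he₁0 : e₁ ≠ 0) (he₂ : A.valuation e₂ = 1)
    (p : ℕ) (hp : p.Prime) (hodd : Odd p) (xs : ℕ → K)
    (per : ∀ i j : ℕ, ((i : ZMod p) = j ∨ (i : ZMod p) = -j) → xs i = xs j)
    (dbl : ∀ i, ¬ p ∣ i →
      xs (2 * i) * (4 * (xs i * (xs i - e₁) * (xs i - e₂))) = (xs i ^ 2 - e₁ * e₂) ^ 2)
    (addsub : ∀ i j, j < i → ¬ p ∣ i → ¬ p ∣ j → ¬ p ∣ (i + j) → ¬ p ∣ (i - j) →
      xs (i + j) * xs (i - j) * (xs i - xs j) ^ 2 = (xs i * xs j - e₁ * e₂) ^ 2)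
    (integral : ∀ i, ¬ p ∣ i → xs i ∈ A)
    (hx : A.valuation (xs 1) < 1) :
    A.valuation e₁ < A.valuation (xs 1) ∧
      ∃ j : ℤ, A.valuation (xs 1) ^ p = A.valuation e₁ ^ (2 * j) :=
  Tent.main ⟨hA2, (A.mem_nonunits_iff).mp he₁, he₁0, he₂, hp, hodd, per, dbl, addsub,
    fun i hi => (A.valuation_le_one_iff _).mpr (integral i hi), hx⟩

end val

end Fermat.Agent.S05.PC
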