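/-
S05 team, PLAN C block (owner of this file: helper67).
`PC.torsion_val`: the abstract tent induction (`PC_Tent.lean`) applied to the sequence of
x-coordinates of the multiples of a torsion point (`PB_Seq.lean`, helper65).
-/
import Fermat.Agent.S05.PB_Seq
import Fermat.Agent.S05.PC_Tent

set_option autoImplicit false

namespace Fermat.Agent.S05.PC

open WeierstrassCurve

variable {K : Type*} [Field K] [DecidableEq K]

/-- **Torsion near the node.** On `y² = x (x - e₁) (x - e₂)` with `|e₁| < 1`, `|e₂| = 1 = |2|`,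
let `P = (x, y)` be a point of odd prime order `n` with `|x| < 1`, and assume that all points
killed by `n` have integral `x`-coordinate (`hF1`, a consequence of `F1_short`).  Then
`|e₁| < |x|` and `|x| ^ n = |e₁| ^ (2 j)` for some integer `j`. -/
theorem torsion_val (A : ValuationSubring K) (hA2 : A.valuation (2 : K) = 1)
    (e₁ e₂ : K) (he₁ : e₁ ∈ A.nonunits) (he₁0 : e₁ ≠ 0) (he₂ : A.valuation e₂ = 1)
    (n : ℕ) (hprime : n.Prime) (hodd : Odd n)
    (hF1 : ∀ (x y : K) (h : (shortCurve (-(e₁ + e₂)) (e₁ * e₂)).toAffine.Nonsingular x y),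
      n • Affine.Point.some x y h = 0 → x ∈ A)
    {x y : K} (h : (shortCurve (-(e₁ + e₂)) (e₁ * e₂)).toAffine.Nonsingular x y)
    (htors : n • Affine.Point.some x y h = 0) (hx : A.valuation x < 1) :
    A.valuation e₁ < A.valuation x ∧
      ∃ j : ℤ, A.valuation x ^ n = A.valuation e₁ ^ (2 * j) := by
  have h2 : (2 : K) ≠ 0 := by
    intro h0
    rw [h0, map_zero] at hA2
    exact zero_ne_one hA2
  have hP : Affine.Point.some x y h ≠ 0 := Affine.Point.some_ne_zero _
  have hx1 : PB.xs (Affine.Point.some x y h) 1 = x := by simp [PB.xs]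
  have key := tent_valuationSubring A hA2 e₁ e₂ he₁ he₁0 he₂ n hprime hodd
    (PB.xs (Affine.Point.some x y h))
    (PB.seq_per hprime hP htors) (PB.seq_dbl e₁ e₂ h2 hprime hodd hP htors)
    (PB.seq_addsub e₁ e₂ hprime hP htors) (PB.seq_integral A e₁ e₂ hprime hP htors hF1)
    (by rw [hx1]; exact hx)
  rwa [hx1] at key

/-- `torsion_val` with `hF1` in contrapositive form (the shape produced by `F1_short`). -/
theorem torsion_val' (A : ValuationSubring K) (hA2 : A.valuation (2 : K) = 1)
    (e₁ e₂ : K) (he₁ : e₁ ∈ A.nonunits) (he₁0 : e₁ ≠ 0) (he₂ : A.valuation e₂ = 1)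
    (n : ℕ) (hprime : n.Prime) (hodd : Odd n)
    (hF1 : ∀ (x y : K) (h : (shortCurve (-(e₁ + e₂)) (e₁ * e₂)).toAffine.Nonsingular x y),
      x ∉ A → n • Affine.Point.some x y h ≠ 0)
    {x y : K} (h : (shortCurve (-(e₁ + e₂)) (e₁ * e₂)).toAffine.Nonsingular x y)
    (htors : n • Affine.Point.some x y h = 0) (hx : A.valuation x < 1) :
    A.valuation e₁ < A.valuation x ∧
      ∃ j : ℤ, A.valuation x ^ n = A.valuation e₁ ^ (2 * j) :=
  torsion_val A hA2 e₁ e₂ he₁ he₁0 he₂ n hprime hodd
    (fun x' y' h' ht => by_contra fun hx' => hF1 x' y' h' hx' ht) h htors hx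

end Fermat.Agent.S05.PC
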